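import Fermat.Agent.S34.Loc

set_option autoImplicit false
set_option linter.unusedSectionVars false

/-!
# S33 / Key / K3 : denominators of a function integral on both branches, and evaluation

* `k3_exists_den` : `f ∈ Vi ∩ V0` has denominators `s(x)`, `s'(x⁻¹)`, `s, s'` non-zero mod `ϖ`, in the two charts;
* `k3_mem_of_CInt` : a valuation ring `W` of a bigger field containing the images of `R` and of `t` contains
  the image of `CInt R K t`;
* `k3_mem_of_den` : if moreover `s(t)` is a unit of `W` then `f ∈ W`.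
-/

noncomputable section

namespace Fermat.Agent.S33.Key

open Polynomial IntermediateField Fermat.Agent.S18 Fermat.Agent.S34

variable {R K F : Type} [CommRing R] [IsDomain R] [IsDiscreteValuationRing R] [Field K] [CharZero K]
  [Algebra R K] [IsFractionRing R K] [Field F] [Algebra K F]
  {ϖ : R} {x : F} {Vi V0 : ValuationSubring F}

/-- denominators in one chart. -/
theorem k3_exists_den' (hϖ : Irreducible ϖ) (hB : Branches (K := K) ϖ x Vi V0) {t : F}
    (ht : t = x ∨ t = x⁻¹) {f : F} (hi : f ∈ Vi) (h0 : f ∈ V0) :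
    ∃ s : R[X], ¬ C ϖ ∣ s ∧ evR R K t s * f ∈ CInt R K t :=
  (hB.inO_iff' hϖ ht f).2 ⟨hi, h0⟩

/-- denominators in both charts. -/
theorem k3_exists_den (hϖ : Irreducible ϖ) (hB : Branches (K := K) ϖ x Vi V0) {f : F}
    (hi : f ∈ Vi) (h0 : f ∈ V0) :
    (∃ s : R[X], ¬ C ϖ ∣ s ∧ evR R K x s * f ∈ CInt R K x) ∧
      ∃ s' : R[X], ¬ C ϖ ∣ s' ∧ evR R K x⁻¹ s' * f ∈ CInt R K x⁻¹ :=
  ⟨k3_exists_den' hϖ hB (Or.inl rfl) hi h0, k3_exists_den' hϖ hB (Or.inr rfl) hi h0⟩

section ev

variable {L : Type} [Field L] (j : F →+* L) (W : ValuationSubring L)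

theorem k3_evR_mem (hR : ∀ r : R, j (rE R K F r) ∈ W) {t : F} (ht : j t ∈ W) (s : R[X]) :
    j (evR R K t s) ∈ W := by
  induction s using Polynomial.induction_on' with
  | add p q hp hq => rw [map_add, map_add]; exact add_mem hp hq
  | monomial n a =>
    rw [← C_mul_X_pow_eq_monomial, map_mul, map_pow, evR_C, evR_X, map_mul, map_pow]
    exact mul_mem (hR a) (pow_mem ht n)

/-- `W` contains the image of the integral closure of `R[t]`. -/
theorem k3_mem_of_CInt (hR : ∀ r : R, j (rE R K F r) ∈ W) {t : F} (ht : j t ∈ W) {c : F}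
    (hc : c ∈ CInt R K t) : j c ∈ W := by
  obtain ⟨P, hP, hPc⟩ := hc
  -- `j c` is integral over `W`
  have hint : IsIntegral W (j c) := by
    let φ : R[X] →+* W := (j.comp (evR R K t)).codRestrict W.toSubring
      (fun s => k3_evR_mem j W hR ht s)
    refine ⟨P.map φ, hP.map φ, ?_⟩
    rw [eval₂_map]
    have e : (algebraMap W L).comp φ = j.comp (evR R K t) := by
      ext1 <;> rfl
    rw [e, ← hom_eval₂, hPc, map_zero]
  obtain ⟨w, hw⟩ := (IsIntegrallyClosed.isIntegral_iff (R := W) (K := L)).1 hint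
  rw [← hw]
  exact w.2

/-- evaluation: `s(t) f ∈ C`, `s(t)` a unit of `W` ⟹ `f ∈ W`. -/
theorem k3_mem_of_den (hR : ∀ r : R, j (rE R K F r) ∈ W) {t : F} (ht : j t ∈ W) {s : R[X]} {f : F}
    (hs : evR R K t s * f ∈ CInt R K t) (hns : j (evR R K t s) ∉ W.nonunits) : j f ∈ W := by
  have h1 : j (evR R K t s) * j f ∈ W := by
    rw [← map_mul]; exact k3_mem_of_CInt j W hR ht hs
  have h2 : j (evR R K t s) ∈ W := k3_evR_mem j W hR ht s
  have h3 : (j (evR R K t s))⁻¹ ∈ W := by
    rw [ValuationSubring.mem_nonunits_iff, not_lt] at hns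
    rw [← ValuationSubring.valuation_le_one_iff, map_inv₀]
    exact inv_le_one_of_one_le₀ hns
  have h0 : j (evR R K t s) ≠ 0 := by
    intro h; apply hns; rw [h]; exact zero_mem_nonunits W
  have : j f = (j (evR R K t s))⁻¹ * (j (evR R K t s) * j f) := by
    rw [← mul_assoc, inv_mul_cancel₀ h0, one_mul]
  rw [this]
  exact mul_mem h3 h1

end ev

end Fermat.Agent.S33.Key
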