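import Fermat.Agent.S33.Move.Local
import Fermat.Agent.S33.Move.Fin
import Fermat.Agent.S24.Principal

set_option autoImplicit false

/-!
# S33 / Key / KLevel : (M1) + (F) + two-chart move (as a hypothesis `hmove`), over the number field

For `τ` inertia-like, `g` with `m ∣ div g` (support rational) and `Φ ∈ R[X]`, `Φ ≢ 0 mod ϖ`: there is `H ≠ 0` such that
`(τ g / g) / H ^ m` is a local unit at every closed point of the chart `x` over a zero of `Φ mod ϖ`, and at every closed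
point at infinity.
-/

noncomputable section

namespace Fermat.Agent.S33.Key

open Polynomial IntermediateField Fermat.Agent.S18 Fermat.Agent.S34 Fermat.Agent.S19.Move
open Fermat.Agent.S33.Move

variable {R K F : Type} [CommRing R] [IsDomain R] [IsDiscreteValuationRing R] [Field K] [CharZero K]
  [Algebra R K] [IsFractionRing R K] [Field F] [Algebra K F]
  {ϖ : R} {x : F} {Vi V0 : ValuationSubring F}

theorem not_C_dvd_X (hϖ : Irreducible ϖ) : ¬ (C ϖ : R[X]) ∣ X := by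
  intro h
  rw [Polynomial.C_dvd_iff_dvd_coeff] at h
  have := h 1
  rw [Polynomial.coeff_X_one] at this
  exact hϖ.not_isUnit (isUnit_of_dvd_one this)

/-- a monic polynomial vanishing at a closed point over a zero of `Φ mod ϖ`. -/
theorem exists_monic_inMax (hϖ : Irreducible ϖ) {t : F} {Φ : R[X]} (hΦ : ¬ C ϖ ∣ Φ)
    {n : Ideal (CInt R K t)} (hn : n.IsPrime) (h1 : unifC t ϖ ∈ n) (h2 : evC t Φ ∈ n) :
    ∃ q : R[X], q.Monic ∧ InMax n (evR R K t q) := by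
  haveI : (Ideal.span {ϖ}).IsMaximal := PrincipalIdealRing.isMaximal_of_irreducible hϖ
  letI : Field (R ⧸ Ideal.span {ϖ}) := Ideal.Quotient.field _
  set mk := Ideal.Quotient.mk (Ideal.span {ϖ}) with hmk
  have hdvd : ∀ P : R[X], P.map mk = 0 → C ϖ ∣ P := by
    intro P hP
    rw [Polynomial.C_dvd_iff_dvd_coeff]
    intro i
    have h := congrArg (fun q => Polynomial.coeff q i) hP
    simp only [Polynomial.coeff_map, Polynomial.coeff_zero] at h
    rwa [hmk, Ideal.Quotient.eq_zero_iff_mem, Ideal.mem_span_singleton] at h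
  have hΦ0 : Φ.map mk ≠ 0 := fun h => hΦ (hdvd _ h)
  obtain ⟨c, hc⟩ := Ideal.Quotient.mk_surjective ((Φ.map mk).leadingCoeff)⁻¹
  have hmon : (Φ.map mk * C (Φ.map mk).leadingCoeff⁻¹).Monic :=
    Polynomial.monic_mul_leadingCoeff_inv hΦ0
  obtain ⟨q, hq, -, hqm⟩ := Polynomial.lifts_and_degree_eq_and_monic (f := mk)
    (p := Φ.map mk * C (Φ.map mk).leadingCoeff⁻¹)
    ((Polynomial.mem_lifts _).2 (Polynomial.map_surjective mk Ideal.Quotient.mk_surjective _)) hmon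
  obtain ⟨Ψ, hΨ⟩ := hdvd (q - Φ * C c) (by
    rw [Polynomial.map_sub, hq, Polynomial.map_mul, Polynomial.map_C, hc, sub_self])
  have hq' : q = Φ * C c + C ϖ * Ψ := by rw [← hΨ]; ring
  refine ⟨q, hqm, 1, loc_one_notMem n, evC t q, ?_, by simp⟩
  have e : (evC t q : CInt R K t) = evC t Φ * evC t (C c) + unifC t ϖ * evC t Ψ := by
    apply Subtype.ext
    show evR R K t q = evR R K t Φ * evR R K t (C c) + rE R K F ϖ * evR R K t Ψ
    rw [hq', map_add, map_mul, map_mul]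
    congr 2
    simp [evR]
  rw [e]
  exact n.add_mem (n.mul_mem_right _ h2) (n.mul_mem_right _ h1)

theorem key_K_of
    (hmove : ∀ (Z₁ : Finset (Ideal (CInt R K x))) (Z₂ : Finset (Ideal (CInt R K x⁻¹))),
      (∀ n ∈ Z₁, n.IsMaximal) → (∀ n ∈ Z₂, n.IsMaximal) →
      (∀ n ∈ Z₁, ∃ q : R[X], q.Monic ∧ InMax n (evR R K x q)) → (∀ n ∈ Z₂, InMax n x⁻¹) →
      ∀ m : ℕ, m ≠ 0 → ∀ G : F,
      (∀ n ∈ Z₁, ∃ u l : F, l ≠ 0 ∧ LocUnit n u ∧ G = u * l ^ m) →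
      (∀ n ∈ Z₂, ∃ u l : F, l ≠ 0 ∧ LocUnit n u ∧ G = u * l ^ m) →
      ∃ H : F, H ≠ 0 ∧ (∀ n ∈ Z₁, LocUnit n (G / H ^ m)) ∧ ∀ n ∈ Z₂, LocUnit n (G / H ^ m))
    (hϖ : Irreducible ϖ) (hB : Branches (K := K) ϖ x Vi V0)
    {τ : F ≃+* F} (hτ : InertiaLike (R := R) (K := K) x Vi V0 τ)
    {ι : Type} {w : ι → F → ℤ} (hw : ValFam K w) (hint : IntAt K w x) (hint' : IntAt K w x⁻¹)
    (hSS : SSAt (R := R) (K := K) ϖ x) (hSS' : SSAt (R := R) (K := K) ϖ x⁻¹)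
    {m : ℕ} (hm : m ≠ 0) {g : F} (hg : g ≠ 0)
    (hdiv : ∀ i, (m : ℤ) ∣ w i g) (hrat : ∀ i, w i g ≠ 0 → RatAt K w i)
    {Φ : R[X]} (hΦ : ¬ C ϖ ∣ Φ) :
    ∃ H : F, H ≠ 0 ∧
      (∀ n : Ideal (CInt R K x), n.IsPrime → unifC x ϖ ∈ n → evC x Φ ∈ n →
        LocUnit n (τ g / g / H ^ m)) ∧
      (∀ n : Ideal (CInt R K x⁻¹), n.IsPrime → unifC x⁻¹ ϖ ∈ n → evC x⁻¹ (X : R[X]) ∈ n →
        LocUnit n (τ g / g / H ^ m)) := by
  classical
  have htr' : Transcendental K x⁻¹ := hB.trans' (Or.inr rfl)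
  have hfin' : FiniteDimensional K⟮x⁻¹⟯ F := by
    rw [S24.principal_adjoin_inv_eq]; exact hB.fin
  have hX := not_C_dvd_X (R := R) hϖ
  obtain ⟨hf1, hmax1⟩ := finite_closed (K := K) hϖ hB.trans hB.fin hΦ
  obtain ⟨hf2, hmax2⟩ := finite_closed (K := K) hϖ htr' hfin' hX
  obtain ⟨H, hH, hH1, hH2⟩ := hmove hf1.toFinset hf2.toFinset
    (fun n hn => by
      rw [Set.Finite.mem_toFinset] at hn
      exact hmax1 n hn.1 hn.2.1 hn.2.2)
    (fun n hn => by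
      rw [Set.Finite.mem_toFinset] at hn
      exact hmax2 n hn.1 hn.2.1 hn.2.2)
    (fun n hn => by
      rw [Set.Finite.mem_toFinset] at hn
      exact exists_monic_inMax hϖ hΦ hn.1 hn.2.1 hn.2.2)
    (fun n hn => by
      rw [Set.Finite.mem_toFinset] at hn
      haveI := hn.1
      refine ⟨1, loc_one_notMem n, evC x⁻¹ (X : R[X]), hn.2.2, ?_⟩
      simp [evR])
    m hm (τ g / g)
    (fun n hn => by
      rw [Set.Finite.mem_toFinset] at hn
      obtain ⟨u, l, hl, hu, e, -⟩ := m1_valFam hϖ hB hτ hw (Or.inl rfl) hB.trans hB.fin hint hSS hg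
        hdiv hrat n ⟨hmax1 n hn.1 hn.2.1 hn.2.2, hn.2.1⟩
      exact ⟨u, l, hl, hu, e⟩)
    (fun n hn => by
      rw [Set.Finite.mem_toFinset] at hn
      obtain ⟨u, l, hl, hu, e, -⟩ := m1_valFam hϖ hB hτ hw (Or.inr rfl) htr' hfin' hint' hSS' hg
        hdiv hrat n ⟨hmax2 n hn.1 hn.2.1 hn.2.2, hn.2.1⟩
      exact ⟨u, l, hl, hu, e⟩)
  refine ⟨H, hH, fun n hp h1 h2 => hH1 n ?_, fun n hp h1 h2 => hH2 n ?_⟩
  · rw [Set.Finite.mem_toFinset]; exact ⟨hp, h1, h2⟩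
  · rw [Set.Finite.mem_toFinset]; exact ⟨hp, h1, h2⟩

end Fermat.Agent.S33.Key
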