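import Fermat.Agent.GES.Ops
import Fermat.Agent.S41.WP.Weil

set_option autoImplicit false

/-!
# S33 / Key / Rep : representatives of `(t - 1) y`

`(t - 1) [g] = [ (t g / g) * H ^ m ]` for every `H ≠ 0`.
-/

noncomputable section

namespace Fermat.Agent.S33.Key

open AlgebraicCurve ModularCurve
open Fermat.Agent.S24 (Kb FN iotaK)
open Fermat.Agent.GES
open Fermat.Agent.S41.WP (cf)

/-- `(t - 1) [g]` is represented by `(t g / g) * H ^ m`. -/
theorem exists_rep (N m : ℕ) (t : GQ) (g : DN N m) (H : FN N) (hH : H ≠ 0) :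
    ∃ G : DN N m, Vm.mk G = rhoV N m t (Vm.mk g) - Vm.mk g ∧
      cf G = galF N t (cf g) / cf g * H ^ m := by
  refine ⟨(⟨galU N t g, galU_mem N m t g g.2⟩ / g) * ⟨Units.mk0 H hH ^ m, pow_mem_divBy m _⟩,
    ?_, ?_⟩
  · rw [Vm.mk_mul, Vm.mk_div, rhoV_mk]
    have : Vm.mk (⟨Units.mk0 H hH ^ m, pow_mem_divBy m _⟩ : DN N m) = 0 :=
      (Vm.mk_eq_zero_iff _).2 ⟨Units.mk0 H hH, rfl⟩
    rw [this, add_zero]
  · simp [cf, Units.val_div_eq_div_val]

/-- `(t - 1) [g]` is represented by `(t g / g) / H ^ m`. -/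
theorem exists_rep_div (N m : ℕ) (t : GQ) (g : DN N m) (H : FN N) (hH : H ≠ 0) :
    ∃ G : DN N m, Vm.mk G = rhoV N m t (Vm.mk g) - Vm.mk g ∧
      cf G = galF N t (cf g) / cf g / H ^ m := by
  obtain ⟨G, h1, h2⟩ := exists_rep N m t g H⁻¹ (inv_ne_zero hH)
  exact ⟨G, h1, by rw [h2, inv_pow, div_eq_mul_inv _ (H ^ m)]⟩

/-- every class, with a representative. -/
theorem exists_rep_of_class (N m : ℕ) (t : GQ) (y : VN N m) :
    ∃ g : DN N m, Vm.mk g = y ∧ ∀ H : FN N, H ≠ 0 →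
      ∃ G : DN N m, Vm.mk G = rhoV N m t y - y ∧ cf G = galF N t (cf g) / cf g * H ^ m := by
  obtain ⟨g, rfl⟩ := Vm.mk_surjective y
  exact ⟨g, rfl, fun H hH => exists_rep N m t g H hH⟩

end Fermat.Agent.S33.Key
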