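import Fermat.Agent.S33.Key.Bridge
import Fermat.Agent.S33.Key.Rep
import Fermat.Agent.S33.Key.K3
import Fermat.Agent.S33.Key.KLevel
import Fermat.Agent.S33.Move.Two
import Fermat.Agent.S33.Move.Res
import Fermat.Agent.S33.Move.Pt
import Fermat.Agent.S33.N.OfKey15

set_option autoImplicit false

/-!
# S33 / Key / Main15 : assembly of the statement KEY (route `W`)
-/

noncomputable section

namespace Fermat.Agent.S33.Key15

open Polynomial AlgebraicCurve ModularCurve IntermediateField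
open Fermat.Agent.S24 (Kb FN isFF1_FN)
open Fermat.Agent.S18 (toFN CInt evR rE)
open Fermat.Agent.GES
open Fermat.Agent.S34
open Fermat.Agent.S19.Move (Wc evC)
open Fermat.Agent.S41.WP (cf)
open Fermat.Agent.S33.Key Fermat.Agent.S33.Move

theorem key : Fermat.Agent.S33.N15.KeyStatement := by
  classical
  intro M p r _ _ hp hp2 hpM hr hrM A hA n _ f1 h1 h2 t ht y
  obtain ⟨g, rfl⟩ := Vm.mk_surjective y
  obtain ⟨K, _, _, _, ι, Ge, f1₀, τF, hf1, hVi, hV0, hs, hrat, hτ, hτF, -, -⟩ :=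
    exists_bridge M p r hp hpM hr hrM A hA f1 h1 h2 {cf g} t ht
  obtain ⟨g₀, hg₀⟩ := hs (cf g) (Finset.mem_singleton_self _)
  have : IsDiscreteValuationRing ↥(A.comap ι) := S18.isDVR_comap ι A hp hA
  have hm : p ^ n ≠ 0 := pow_ne_zero _ hp.ne_zero
  have hg0 : g₀ ≠ 0 := by
    rintro rfl
    rw [map_zero] at hg₀
    exact (g : (FN (M * p))ˣ).ne_zero hg₀.symm
  have hx0 : Ge.x ≠ 0 := by
    intro h
    exact Ge.branches.trans (h ▸ (isAlgebraic_zero))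
  have htr' : Transcendental K Ge.x⁻¹ := Ge.branches.trans' (Or.inr rfl)
  have hfin' : FiniteDimensional K⟮Ge.x⁻¹⟯ (modularFunctionFieldFullC K (M * p)) := by
    rw [S24.principal_adjoin_inv_eq]; exact Ge.branches.fin
  obtain ⟨s, hsϖ, hsf⟩ := k3_exists_den' Ge.irr Ge.branches (Or.inl rfl) hVi hV0
  have hX := not_C_dvd_X (R := ↥(A.comap ι)) Ge.irr
  obtain ⟨H, hH, hH1, hH2⟩ := key_K_of
    (fun Z₁ Z₂ h₁ h₂ hq hinf m hm G hG₁ hG₂ => move_two hx0 Z₁ Z₂ h₁ h₂ hq hinf m hm G hG₁ hG₂)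
    Ge.irr Ge.branches hτ (valFam_wP ι (M * p)) (intAt_wP ι (M * p) Ge.x Ge.branches.trans)
    (intAt_wP ι (M * p) Ge.x⁻¹ htr') Ge.ss_fin Ge.ss_inf hm hg0
    (fun v => by rw [wP_apply, hg₀]; exact g.2 v)
    (fun v hv => hrat v (Or.inr ⟨cf g, Finset.mem_singleton_self _, by rwa [wP_apply, hg₀] at hv⟩))
    hsϖ
  obtain ⟨hf1', -⟩ := finite_closed (K := K) Ge.irr Ge.branches.trans Ge.branches.fin hsϖ
  obtain ⟨hf2', -⟩ := finite_closed (K := K) Ge.irr htr' hfin' hX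
  have hj : ∀ c : K, toFN ι (M * p) (algebraMap K _ c) = algebraMap Kb (FN (M * p)) (ι c) :=
    toFN_algebraMap ι (M * p)
  have hR : ∀ r : ↥(A.comap ι), ι (algebraMap ↥(A.comap ι) K r) ∈ A := fun r => r.2
  have hϖA : ι (algebraMap ↥(A.comap ι) K Ge.ϖ) ∈ A.nonunits := by
    rw [← S18.DVR.mem_nonunits_comap ι A]
    exact (ValuationSubring.mem_nonunits_iff_exists_mem_maximalIdeal).2
      ⟨Ge.ϖ.2, (IsLocalRing.mem_maximalIdeal _).2 Ge.irr.not_isUnit⟩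
  obtain ⟨Γ1, hΓ1, hW1⟩ := exists_Gamma (A := A) (ι := ι) (j := toFN ι (M * p)) Ge.irr hj hR hϖA hsϖ
    hf1'.toFinset (fun n h1 h2 h3 => by rw [Set.Finite.mem_toFinset]; exact ⟨h1, h2, h3⟩)
    (τF g₀ / g₀ / H ^ (p ^ n))
    (fun n hn => by
      rw [Set.Finite.mem_toFinset] at hn
      exact hH1 n hn.1 hn.2.1 hn.2.2)
  obtain ⟨Γ2, hΓ2, hW2⟩ := exists_Gamma (A := A) (ι := ι) (j := toFN ι (M * p)) Ge.irr hj hR hϖA hX
    hf2'.toFinset (fun n h1 h2 h3 => by rw [Set.Finite.mem_toFinset]; exact ⟨h1, h2, h3⟩)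
    (τF g₀ / g₀ / H ^ (p ^ n))
    (fun n hn => by
      rw [Set.Finite.mem_toFinset] at hn
      exact hH2 n hn.1 hn.2.1 hn.2.2)
  have hH' : toFN ι (M * p) H ≠ 0 := (_root_.map_ne_zero _).2 hH
  obtain ⟨G, hG, hcf⟩ := exists_rep_div (M * p) (p ^ n) t g (toFN ι (M * p) H) hH'
  have hcf' : cf G = toFN ι (M * p) (τF g₀ / g₀ / H ^ (p ^ n)) := by
    rw [hcf, map_div₀, map_div₀, map_pow, hτF, hg₀]
  refine ⟨G, Γ1 ∪ Γ2, hG, ?_, ?_⟩
  · intro γ hγ
    rcases Finset.mem_union.1 hγ with h | h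
    · exact hΓ1 γ h
    · exact hΓ2 γ h
  intro v
  have hPt : PtLike A (Wc (isFF1_FN (M * p)) A v) :=
    ⟨pt_mem _ A v, pt_non _ A v, pt_non' _ A v, pt_const _ A v⟩
  have hRW : ∀ r : ↥(A.comap ι),
      toFN ι (M * p) (rE ↥(A.comap ι) K _ r) ∈ Wc (isFF1_FN (M * p)) A v := by
    intro r
    rw [S18.rE_apply, hj]
    exact pt_mem _ A v _ (hR r)
  by_cases hx : toFN ι (M * p) Ge.x ∈ Wc (isFF1_FN (M * p)) A v
  · by_cases hsW : toFN ι (M * p) (evR ↥(A.comap ι) K Ge.x s) ∈ (Wc (isFF1_FN (M * p)) A v).nonunits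
    · right
      rw [pt_nearAt_iff, hcf']
      obtain ⟨γ, hγ, h⟩ := hW1 _ hPt hx hsW
      exact ⟨γ, Finset.mem_union_left _ hγ, h⟩
    · left
      rw [pt_intAt_iff, ← hf1]
      exact k3_mem_of_den (toFN ι (M * p)) _ hRW hx hsf hsW
  · right
    rw [pt_nearAt_iff, hcf']
    have hxi : toFN ι (M * p) Ge.x⁻¹ ∈ (Wc (isFF1_FN (M * p)) A v).nonunits := by
      rw [map_inv₀, ValuationSubring.mem_nonunits_iff, map_inv₀]
      rw [← ValuationSubring.valuation_le_one_iff, not_le] at hx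
      exact inv_lt_one_of_one_lt₀ hx
    obtain ⟨γ, hγ, h⟩ := hW2 _ hPt ((Wc (isFF1_FN (M * p)) A v).nonunits_subset hxi)
      (by rw [S18.evR_X]; exact hxi)
    exact ⟨γ, Finset.mem_union_right _ hγ, h⟩

end Fermat.Agent.S33.Key15
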