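import Fermat.Agent.S34.GoalA
import Fermat.Agent.S35.C.Bridge

set_option autoImplicit false

/-!
# S33 / Key / Bridge  (K6): one number field for everything

`exists_bridge`: for `f1` Gauss-integral on both branches, a finite set `s` of non-zero functions and
`t` in the inertia group, there is ONE Galois number field `(K, ι)` with a geometric package
`Ge : S34.Geo (M * p) A ι` such that `f1` and all elements of `s` are defined over `K`, all their
zeros and poles are `K`-rational places, `f1₀ ∈ Vi ∩ V0`, and `t` acts by an `InertiaLike` `τF`.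
-/

noncomputable section

namespace Fermat.Agent.S33.Key

open AlgebraicCurve ModularCurve IntermediateField
open Fermat.Agent.S24 (Kb FN iotaK)
open Fermat.Agent.S18 (toFN)
open Fermat.Agent.GES (GQ galF)
open Fermat.Agent.S34

/-- `S34.exists_pack` for a finite set of functions. -/
theorem exists_pack_finset (N : ℕ) [NeZero N] (K₁ : IntermediateField ℚ Kb)
    (h₁ : FiniteDimensional ℚ K₁) (s : Finset (FN N)) :
    ∃ (K : Type) (_ : Field K) (_ : NumberField K) (_ : IsGalois ℚ K) (ι : K →+* Kb),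
      (∀ c ∈ K₁, ∃ c' : K, ι c' = c) ∧
        (∀ f ∈ s, ∃ f₀ : modularFunctionFieldFullC K N, toFN ι N f₀ = f) ∧
          ∀ v : Place Kb (FN N), (∃ f ∈ s, v.ord f ≠ 0) → RatAt K (wP ι N) v := by
  classical
  have hFF := Fermat.Agent.S24.isFF1_FN N
  have hfin1 : ∀ f : FN N, {v : Place Kb (FN N) | v.ord f ≠ 0}.Finite := by
    intro f
    refine ((Fermat.Agent.NV.Canon.finite_ord_neg hFF f).union
      (Fermat.Agent.NV.Canon.finite_ord_neg hFF f⁻¹)).subset ?_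
    intro v hv
    rw [Set.mem_ofPred_eq] at hv
    rw [Set.mem_union, Set.mem_ofPred_eq, Set.mem_ofPred_eq, Place.ord_inv]
    omega
  have hfin : {v : Place Kb (FN N) | ∃ f ∈ s, v.ord f ≠ 0}.Finite := by
    have : {v : Place Kb (FN N) | ∃ f ∈ s, v.ord f ≠ 0} =
        ⋃ f ∈ s, {v : Place Kb (FN N) | v.ord f ≠ 0} := by
      ext v
      simp
    rw [this]
    exact Set.Finite.biUnion s.finite_toSet fun f _ => hfin1 f
  set W : Finset (Place Kb (FN N)) := hfin.toFinset with hW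
  have hmemW : ∀ v : Place Kb (FN N), v ∈ W ↔ ∃ f ∈ s, v.ord f ≠ 0 := fun v => by
    rw [hW, Set.Finite.mem_toFinset, Set.mem_ofPred_eq]
  choose uu huu _ _ using fun v : Place Kb (FN N) => Fermat.Agent.S24.exists_ord_eq_one v
  choose zz _ hzz1 hzz2 using fun v : Place Kb (FN N) =>
    exists_sep_place hFF (W.erase v) v (Finset.notMem_erase v W)
  obtain ⟨K, i1, i2, i3, ι, hι, hs⟩ :=
    exists_descent_finset N K₁ h₁ (s ∪ (W.image uu ∪ W.image zz))
  refine ⟨K, i1, i2, i3, ι, hι, fun f hf => hs f (Finset.mem_union_left _ hf), ?_⟩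
  intro v hv
  have hvW : v ∈ W := (hmemW v).2 hv
  obtain ⟨f, hfs, hvf⟩ := hv
  obtain ⟨f₀, hf₀⟩ := hs f (Finset.mem_union_left _ hfs)
  obtain ⟨u₀, hu₀⟩ := hs (uu v) (Finset.mem_union_right _
    (Finset.mem_union_left _ (Finset.mem_image_of_mem uu hvW)))
  obtain ⟨z₀, hz₀⟩ := hs (zz v) (Finset.mem_union_right _
    (Finset.mem_union_right _ (Finset.mem_image_of_mem zz hvW)))
  refine ratAt_of_fixed ι N v ?_ ⟨u₀, by rw [hu₀]; exact huu v⟩
  intro σ hσ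
  have hsm : ∀ y₀ : modularFunctionFieldFullC K N,
      (arithmeticGalois (modularFunctionFieldFull N) σ • v).ord (toFN ι N y₀) =
        v.ord (toFN ι N y₀) := by
    intro y₀
    have h1 := SemilinearAut.ord_smul (arithmeticGalois (modularFunctionFieldFull N) σ) v
      (toFN ι N y₀)
    have h2 : arithmeticGalois (modularFunctionFieldFull N) σ • (toFN ι N y₀) = toFN ι N y₀ :=
      galF_toFN ι N σ hσ y₀
    rwa [h2] at h1
  by_contra hne
  have h1 : arithmeticGalois (modularFunctionFieldFull N) σ • v ∈ W.erase v := by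
    rw [Finset.mem_erase]
    refine ⟨hne, (hmemW _).2 ⟨f, hfs, ?_⟩⟩
    rw [← hf₀, hsm, hf₀]
    exact hvf
  have h2 := hzz2 v _ h1
  rw [← hz₀, hsm, hz₀] at h2
  have h3 := hzz1 v
  omega

/-- `S34.geo_of_roots`, remembering what `Vi` and `V0` are. -/
theorem geo_of_roots_gi (M q p : ℕ) [NeZero M] [NeZero q] (hq : q.Prime) (hqM : ¬ q ∣ M)
    (hr : (S18.lineOf q).r ∣ M) (A : ValuationSubring Kb) (hA : A.LiesOverPrime q) (hp : p.Prime)
    (hpq : p ≠ q) (K : Type) [Field K] [NumberField K] [IsGalois ℚ K] (ι : K →+* Kb) (ζ : K)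
    (hζ : IsPrimitiveRoot ζ p) (ζM : K) (hζM : IsPrimitiveRoot ζM M) :
    ∃ Ge : Geo (M * q) A ι,
      (∀ z, z ∈ Ge.Vi ↔ S35.GI A (toFN ι (M * q) z).1) ∧
      (∀ z, z ∈ Ge.V0 ↔ S35.GI A (S35.WF M q (toFN ι (M * q) z)).1) := by
  have hc : Nat.Coprime q M := (Nat.Prime.coprime_iff_not_dvd hq).2 hqM
  have : IsDiscreteValuationRing ↥(A.comap ι) := S18.isDVR_comap ι A hq hA
  obtain ⟨ϖ, hϖ⟩ := IsDiscreteValuationRing.exists_irreducible ↥(A.comap ι)
  obtain ⟨E, _, _, _, _, T, hT, hc1, hc2⟩ :=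
    V2.exists_two' M q p hq hqM hr A hA hp hpq K ι ζ hζ ζM hζM hϖ
  obtain ⟨s, hsx, hsR, hsR', -, hsi, hs0⟩ := hT.exists_frobE ι A hA
  obtain ⟨jj, hj⟩ := hT.exists_j
  have hs : FrobTwist T s := ⟨hsx, hsR, hsR', hsi, hs0⟩
  obtain ⟨hB, h1, h2⟩ := geo_abs hϖ hc1.fin hc1.inO_iff hc1.normal hc2.normal hs hT.m8_fin
    hT.m8_inf (hc2.C_le hϖ (S18.self_mem_CInt _)) (hT.jdHyp hqM hj hsx) (hT.rel_fin hj)
    (hT.rel_inf hj)
  exact ⟨{ ϖ := ϖ
           x := T.xF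
           Vi := T.Vi
           V0 := T.V0
           irr := hϖ
           branches := hB
           ss_fin := h1
           ss_inf := h2
           gal := fun τ hτ => ⟨V2.galFK (V2.resK ι τ) (M * q), hT.gal ι A hτ,
             fun z => V2.toFN_galFK ι (M * q) τ z⟩ },
    fun z => S35.mem_Vi_iff ι A hT z, fun z => S35.mem_V0_iff ι A hT hc z⟩

/-- **(K6)** the bridge. -/
theorem exists_bridge (M p r : ℕ) [NeZero M] [NeZero p] (hp : p.Prime) (hpM : ¬ p ∣ M)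
    (hr : (p ≠ 3 ∧ r = 3) ∨ (p = 3 ∧ r = 2)) (hrM : r ∣ M)
    (A : ValuationSubring Kb) (hA : A.LiesOverPrime p)
    (f1 : FN (M * p)) (h1 : S35.GI A f1.1) (h2 : S35.GI A (S35.WF M p f1).1)
    (s : Finset (FN (M * p))) (t : GQ) (ht : t ∈ A.inertiaSubgroupIn ℚ) :
    ∃ (K : Type) (_ : Field K) (_ : NumberField K) (_ : IsGalois ℚ K) (ι : K →+* Kb)
      (Ge : Geo (M * p) A ι) (f1₀ : modularFunctionFieldFullC K (M * p))
      (τF : modularFunctionFieldFullC K (M * p) ≃+* modularFunctionFieldFullC K (M * p)),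
      toFN ι (M * p) f1₀ = f1 ∧ f1₀ ∈ Ge.Vi ∧ f1₀ ∈ Ge.V0 ∧
      (∀ g ∈ s, ∃ g₀ : modularFunctionFieldFullC K (M * p), toFN ι (M * p) g₀ = g) ∧
      (∀ v : Place Kb (FN (M * p)), (v.ord f1 ≠ 0 ∨ ∃ g ∈ s, v.ord g ≠ 0) →
        RatAt K (wP ι (M * p)) v) ∧
      InertiaLike (R := ↥(A.comap ι)) (K := K) Ge.x Ge.Vi Ge.V0 τF ∧
      (∀ z, toFN ι (M * p) (τF z) = galF (M * p) t (toFN ι (M * p) z)) ∧
      (∀ z, z ∈ Ge.Vi ↔ S35.GI A (toFN ι (M * p) z).1) ∧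
      (∀ z, z ∈ Ge.V0 ↔ S35.GI A (S35.WF M p (toFN ι (M * p) z)).1) := by
  classical
  have hrM' : (S18.lineOf p).r ∣ M := by
    rcases hr with ⟨h3, rfl⟩ | ⟨rfl, rfl⟩
    · have e : S18.lineOf p = S18.line3 := if_neg h3
      rw [e]
      exact hrM
    · have e : S18.lineOf 3 = S18.line2 := if_pos rfl
      rw [e]
      exact hrM
  obtain ⟨ℓ, hℓ, hℓp⟩ : ∃ ℓ : ℕ, ℓ.Prime ∧ ℓ ≠ p := by
    by_cases h : p = 2
    · exact ⟨3, Nat.prime_three, by rw [h]; decide⟩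
    · exact ⟨2, Nat.prime_two, Ne.symm h⟩
  have : NeZero ℓ := ⟨hℓ.ne_zero⟩
  obtain ⟨ζ₀, hζ₀⟩ := HasEnoughRootsOfUnity.exists_primitiveRoot Kb ℓ
  obtain ⟨ζ₁, hζ₁⟩ := HasEnoughRootsOfUnity.exists_primitiveRoot Kb M
  have hK₁ : FiniteDimensional ℚ (IntermediateField.adjoin ℚ {ζ₀, ζ₁}) := by
    apply IntermediateField.finiteDimensional_adjoin
    intro x _
    have h1 : Algebra.IsAlgebraic ℚ Kb := AlgebraicClosure.isAlgebraic ℚ
    exact (Algebra.IsAlgebraic.isAlgebraic x).isIntegral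
  obtain ⟨K, fK, nfK, galK, ι, hι, hdef, hrat⟩ :=
    exists_pack_finset (M * p) (IntermediateField.adjoin ℚ {ζ₀, ζ₁}) hK₁ (insert f1 s)
  obtain ⟨ζ, hζ⟩ := hι ζ₀ (IntermediateField.subset_adjoin ℚ _ (by simp))
  obtain ⟨ζM, hζM⟩ := hι ζ₁ (IntermediateField.subset_adjoin ℚ _ (by simp))
  obtain ⟨Ge, hVi, hV0⟩ := geo_of_roots_gi M p ℓ hp hpM hrM' A hA hℓ hℓp K ι ζ
    (IsPrimitiveRoot.of_map_of_injective (f := ι) (hζ ▸ hζ₀) ι.injective) ζM
    (IsPrimitiveRoot.of_map_of_injective (f := ι) (hζM ▸ hζ₁) ι.injective)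
  obtain ⟨f1₀, hf1₀⟩ := hdef f1 (Finset.mem_insert_self _ _)
  obtain ⟨τF, hτF, hτc⟩ := Ge.gal t ht
  refine ⟨K, fK, nfK, galK, ι, Ge, f1₀, τF, hf1₀, (hVi f1₀).2 (by rw [hf1₀]; exact h1),
    (hV0 f1₀).2 (by rw [hf1₀]; exact h2),
    fun g hg => hdef g (Finset.mem_insert_of_mem hg), ?_, hτF, hτc, hVi, hV0⟩
  rintro v (hv | ⟨g, hg, hv⟩)
  · exact hrat v ⟨f1, Finset.mem_insert_self _ _, hv⟩
  · exact hrat v ⟨g, Finset.mem_insert_of_mem hg, hv⟩

end Fermat.Agent.S33.Key
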