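import Fermat.Agent.S34.Geo
import Fermat.Agent.S34.DA1
import Fermat.Agent.S34.DA2
import Fermat.Agent.S34.BR.Fam
import Fermat.Agent.S34.BR.IntB
import Fermat.Agent.S19.Move.Defs
import Fermat.Agent.S33.Move.Pt
import Fermat.Agent.S33.EV.Main

set_option autoImplicit false
set_option linter.unusedSectionVars false

/-!
# S33 / Key / Cen7 : from `LocUnit` at the centres of the poles of `f1` to the pointwise hypothesis `hkey`
-/

noncomputable section

namespace Fermat.Agent.S33.Key.C7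

open Polynomial IntermediateField Fermat.Agent.S18 Fermat.Agent.S34
open Fermat.Agent.S19.Move (cen mem_cen cen_isPrime)

section Abs

variable {R K F : Type} [CommRing R] [IsDomain R] [IsDiscreteValuationRing R] [Field K] [CharZero K]
  [Algebra R K] [IsFractionRing R K] [Field F] [Algebra K F] {ϖ : R} {I : Type} {w : I → F → ℤ}

theorem rE_mem_of_dvd {t : F} {n : Ideal (CInt R K t)} (hϖn : unifC t ϖ ∈ n) {r : R} (h : ϖ ∣ r) :
    (⟨rE R K F r, rE_mem_CInt t r⟩ : CInt R K t) ∈ n := by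
  obtain ⟨r', rfl⟩ := h
  have e : (⟨rE R K F (ϖ * r'), rE_mem_CInt t _⟩ : CInt R K t) =
      ⟨rE R K F r', rE_mem_CInt t r'⟩ * unifC t ϖ := by
    apply Subtype.ext
    simp only [Subring.coe_mul, map_mul, unifC]
    ring
  rw [e]
  exact n.mul_mem_left _ hϖn

theorem isUnit_of_rE_notMem (hϖ : Irreducible ϖ) {t : F} {n : Ideal (CInt R K t)}
    (hϖn : unifC t ϖ ∈ n) {r : R}
    (h : (⟨rE R K F r, rE_mem_CInt t r⟩ : CInt R K t) ∉ n) : IsUnit r := by
  by_contra hu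
  exact h (rE_mem_of_dvd hϖn (lf_dvd_of_not_isUnit hϖ hu))

theorem not_isUnit_of_rE_mem {t : F} {n : Ideal (CInt R K t)} (hn : n ≠ ⊤) {r : R}
    (h : (⟨rE R K F r, rE_mem_CInt t r⟩ : CInt R K t) ∈ n) : ¬ IsUnit r := by
  intro hu
  obtain ⟨r', hr'⟩ := hu.exists_left_inv
  apply hn
  rw [Ideal.eq_top_iff_one]
  have e : (1 : CInt R K t) = ⟨rE R K F r', rE_mem_CInt t r'⟩ * ⟨rE R K F r, rE_mem_CInt t r⟩ := by
    apply Subtype.ext
    show (1 : F) = rE R K F r' * rE R K F r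
    rw [← map_mul, hr', map_one]
  rw [e]
  exact n.mul_mem_left _ h

theorem da2_le_of_thru (hw : ValFam K w) {t : F} {n : Ideal (CInt R K t)} {i : I}
    (hi0 : 0 ≤ w i t) (hi : Thru w i n) : da2Ideal (R := R) hw hi0 ≤ n := by
  rintro c (rfl | hc)
  · exact n.zero_mem
  · by_contra hcn
    rw [hi.2 c hcn] at hc
    exact lt_irrefl _ hc

/-- a closed point through a rational place is contained in every ideal `∋ ϖ` through that place. -/
theorem le_of_thru (hϖ : Irreducible ϖ) (hw : ValFam K w) {t : F} {n₀ n : Ideal (CInt R K t)}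
    (hn₀ : IsClosedPt ϖ n₀) (hϖn : unifC t ϖ ∈ n) {i : I} (hT₀ : Thru w i n₀) (hT : Thru w i n)
    (hr : RatAt K w i) : n₀ ≤ n := by
  have hsec := da2_isSection hϖ hw hn₀ hT₀ hr
  intro c hc
  obtain ⟨r, hr'⟩ := hsec.rat c
  have h1 : (⟨rE R K F r, rE_mem_CInt t r⟩ : CInt R K t) ∈ n₀ := by
    have := n₀.sub_mem hc (hsec.le hr')
    rwa [sub_sub_cancel] at this
  have h2 : ¬ IsUnit r := not_isUnit_of_rE_mem hn₀.max.ne_top h1
  have h3 := rE_mem_of_dvd (K := K) (F := F) (t := t) hϖn (lf_dvd_of_not_isUnit hϖ h2)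
  have h4 := n.add_mem (da2_le_of_thru hw hT₀.1 hT hr') h3
  rwa [sub_add_cancel] at h4

theorem mem_nonunits_of_inMax {V : ValuationSubring F} {t : F} (hC : ∀ c ∈ CInt R K t, c ∈ V)
    {z : F} (hz : InMax (cen V hC) z) : z ∈ V.nonunits := by
  obtain ⟨d, hd, y, hy, e⟩ := hz
  have hd' : (d : F) ∉ V.nonunits := hd
  have hd0 : (d : F) ≠ 0 := fun h => hd' (h ▸ zero_mem_nonunits V)
  have h2 := inv_mem_of_notMem_nonunits V (hC _ d.2) hd'
  have e' : z = (d : F)⁻¹ * (y : F) := by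
    rw [← e, ← mul_assoc, inv_mul_cancel₀ hd0, one_mul]
  rw [e']
  exact mul_mem_nonunits V h2 hy

variable {x : F} {Vi V0 : ValuationSubring F}

theorem chart_key (hϖ : Irreducible ϖ) (hB : Branches (K := K) ϖ x Vi V0) (hw : ValFam K w)
    {t : F} (ht : t = x ∨ t = x⁻¹) (hint : IntAt K w t) {f1 G : F} (hi : f1 ∈ Vi) (h0 : f1 ∈ V0)
    (hrat : ∀ i, w i f1 < 0 → RatAt K w i) (Q : Ideal (CInt R K t) → Prop)
    (hLU : ∀ n : Ideal (CInt R K t), IsClosedPt ϖ n → Q n → (∃ i, w i f1 < 0 ∧ Thru w i n) →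
      LocUnit n G) :
    ∃ Γ : Finset R, (∀ r ∈ Γ, IsUnit r) ∧
      ∀ V : ValuationSubring F, (∀ r : R, rE R K F r ∈ V) → rE R K F ϖ ∈ V.nonunits → t ∈ V →
        (∀ n : Ideal (CInt R K t), (∀ c : CInt R K t, c ∈ n ↔ (c : F) ∈ V.nonunits) → Q n) →
        f1 ∈ V ∨ ∃ r ∈ Γ, G - rE R K F r ∈ V.nonunits := by
  classical
  by_cases hf1 : f1 = 0
  · exact ⟨∅, by simp, fun V _ _ _ _ => Or.inl (hf1 ▸ V.zero_mem)⟩
  set S : Finset I := (hw.fin f1 hf1).toFinset with hS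
  let ex : I → Prop := fun i => ∃ r : R, IsUnit r ∧ ∃ n : Ideal (CInt R K t),
    IsClosedPt ϖ n ∧ Thru w i n ∧ InMax n (G - rE R K F r)
  let γ : I → R := fun i => if h : ex i then h.choose else 1
  refine ⟨S.image γ, ?_, ?_⟩
  · intro r hr
    obtain ⟨i, -, rfl⟩ := Finset.mem_image.1 hr
    by_cases h : ex i
    · simp only [γ, dif_pos h]
      exact h.choose_spec.1
    · simp only [γ, dif_neg h]
      exact isUnit_one
  intro V hR hϖV htV hQ
  have hev : ∀ a : R[X], evR R K t a ∈ V := by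
    intro a
    show eval₂ (rE R K F) t a ∈ V
    rw [eval₂_eq_sum_range]
    exact sum_mem fun k _ => mul_mem (hR _) (pow_mem htV k)
  have hC : ∀ c ∈ CInt R K t, c ∈ V := fun _ hc => mem_of_isIntegralElem V (evR R K t) hev hc
  set n : Ideal (CInt R K t) := cen V hC with hn
  have hprime : n.IsPrime := cen_isPrime V hC
  have hϖn : unifC t ϖ ∈ n := hϖV
  have hcen : Centered V n := fun c hc => hc
  by_cases hcase : ∀ i, Thru w i n → 0 ≤ w i f1
  · left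
    obtain ⟨k, hk⟩ := exists_inLoc_of_nonneg hϖ hw hint n hf1 hcase
    exact hcen.mem_of_inLoc hC (hB.sat_loc hϖ ht k hk hi h0)
  right
  push Not at hcase
  obtain ⟨i, hiT, hineg⟩ := hcase
  have hr := hrat i hineg
  -- `n` is a closed point
  obtain ⟨n', hn'max, hle⟩ := Ideal.exists_le_maximal n hprime.ne_top
  have hcl' : IsClosedPt ϖ n' := ⟨hn'max, hle hϖn⟩
  have hT' : Thru w i n' := ⟨hiT.1, fun d hd => hiT.2 d (fun h => hd (hle h))⟩
  have hnn' : n' = n := le_antisymm (le_of_thru hϖ hw hcl' hϖn hT' hiT hr) hle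
  have hcl : IsClosedPt ϖ n := hnn' ▸ hcl'
  have hsec := da2_isSection hϖ hw hcl hiT hr
  obtain ⟨hG0, ⟨d, hd, hdG⟩, hGinv⟩ := hLU n hcl (hQ n fun c => Iff.rfl) ⟨i, hineg, hiT⟩
  have hGV : G ∈ V := hcen.mem_of_inLoc hC ⟨d, hd, hdG⟩
  have hGV' : G⁻¹ ∈ V := hcen.mem_of_inLoc hC hGinv
  have hGnon : G ∉ V.nonunits := by
    intro h
    have := mul_mem_nonunits V hGV' h
    rw [inv_mul_cancel₀ hG0] at this
    exact one_notMem_nonunits V this
  set a : CInt R K t := ⟨(d : F) * G, hdG⟩ with ha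
  have han : a ∉ n := fun h => ss_mul_notMem V (show (d : F) ∉ V.nonunits from hd) hGnon h
  obtain ⟨rd, hrd⟩ := hsec.rat d
  obtain ⟨ra, hra⟩ := hsec.rat a
  have hrdn : (⟨rE R K F rd, rE_mem_CInt t rd⟩ : CInt R K t) ∉ n := by
    intro h
    have := n.add_mem (hsec.le hrd) h
    rw [sub_add_cancel] at this
    exact hd this
  have hran : (⟨rE R K F ra, rE_mem_CInt t ra⟩ : CInt R K t) ∉ n := by
    intro h
    have := n.add_mem (hsec.le hra) h
    rw [sub_add_cancel] at this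
    exact han this
  have hud : IsUnit rd := isUnit_of_rE_notMem hϖ hϖn hrdn
  have hua : IsUnit ra := isUnit_of_rE_notMem hϖ hϖn hran
  obtain ⟨u, hu⟩ := hud.exists_left_inv
  have huu : IsUnit u := IsUnit.of_mul_eq_one _ hu
  have hex : ex i := by
    refine ⟨ra * u, hua.mul huu, n, hcl, hiT, d, hd,
      (a - ⟨rE R K F ra, rE_mem_CInt t ra⟩) -
        ⟨rE R K F (ra * u), rE_mem_CInt t _⟩ * (d - ⟨rE R K F rd, rE_mem_CInt t rd⟩), ?_, ?_⟩
    · exact n.sub_mem (hsec.le hra) (n.mul_mem_left _ (hsec.le hrd))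
    · show (d : F) * (G - rE R K F (ra * u)) =
        ((d : F) * G - rE R K F ra) - rE R K F (ra * u) * ((d : F) - rE R K F rd)
      have e1 : rE R K F (ra * u) * rE R K F rd = rE R K F ra := by
        rw [← map_mul, mul_assoc, hu, mul_one]
      linear_combination (-1 : F) * e1
  refine ⟨γ i, Finset.mem_image.2 ⟨i, ?_, rfl⟩, ?_⟩
  · rw [hS, Set.Finite.mem_toFinset, Set.mem_ofPred_eq]
    omega
  · have hγ : γ i = hex.choose := by simp only [γ, dif_pos hex]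
    obtain ⟨-, n'', hcl'', hT'', hmax''⟩ := hex.choose_spec
    have h1 : n'' = n :=
      hcl''.max.eq_of_le hprime.ne_top (le_of_thru hϖ hw hcl'' hϖn hT'' hiT hr)
    rw [hγ]
    rw [h1] at hmax''
    exact mem_nonunits_of_inMax hC hmax''

end Abs

section Conc

open AlgebraicCurve ModularCurve
open Fermat.Agent.S24 (Kb FN isFF1_FN)
open Fermat.Agent.S19.Move (Wc)
open Fermat.Agent.S33.Move

variable {N : ℕ} [NeZero N] {A : ValuationSubring Kb} {K : Type} [Field K] [CharZero K]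
  {ι : K →+* Kb} [IsDiscreteValuationRing ↥(A.comap ι)]

theorem toFN_rE (r : ↥(A.comap ι)) :
    toFN ι N (rE ↥(A.comap ι) K (modularFunctionFieldFullC K N) r) =
      algebraMap Kb (FN N) (ι (r : K)) := by
  rw [rE_apply, toFN_algebraMap]
  rfl

theorem unit_spec {r : ↥(A.comap ι)} (hr : IsUnit r) :
    ι (r : K) ∈ A ∧ ι (r : K) ∉ A.nonunits := by
  refine ⟨r.2, ?_⟩
  rw [← S18.DVR.mem_nonunits_comap, ValuationSubring.coe_mem_nonunits_iff,
    IsLocalRing.mem_maximalIdeal, mem_nonunits_iff, not_not]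
  exact hr

theorem nonunit_spec {r : ↥(A.comap ι)} (hr : ¬ IsUnit r) : ι (r : K) ∈ A.nonunits := by
  rw [← S18.DVR.mem_nonunits_comap, ValuationSubring.coe_mem_nonunits_iff,
    IsLocalRing.mem_maximalIdeal, mem_nonunits_iff]
  exact hr

/-- **(M5) + (M6)** : `G₀` a local unit at the centres of the poles of `f1₀`  ⟹  `hkey`. -/
theorem key_of_locUnit (Ge : Geo N A ι) (f1₀ G₀ : modularFunctionFieldFullC K N)
    (hi : f1₀ ∈ Ge.Vi) (h0 : f1₀ ∈ Ge.V0)
    (hrat : ∀ v, wP ι N v f1₀ < 0 → RatAt K (wP ι N) v)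
    (hfin : ∀ n : Ideal (CInt ↥(A.comap ι) K Ge.x), IsClosedPt Ge.ϖ n →
      (∃ v, wP ι N v f1₀ < 0 ∧ Thru (wP ι N) v n) → LocUnit n G₀)
    (hinf : ∀ n : Ideal (CInt ↥(A.comap ι) K Ge.x⁻¹), IsClosedPt Ge.ϖ n →
      (⟨Ge.x⁻¹, self_mem_CInt _⟩ : CInt ↥(A.comap ι) K Ge.x⁻¹) ∈ n →
      (∃ v, wP ι N v f1₀ < 0 ∧ Thru (wP ι N) v n) → LocUnit n G₀) :
    ∃ Γ : Finset Kb, (∀ γ ∈ Γ, γ ∈ A ∧ γ ∉ A.nonunits) ∧
      ∀ v : Place Kb (FN N), EV.IntAt (isFF1_FN N) A v (toFN ι N f1₀) ∨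
        EV.NearAt (isFF1_FN N) A Γ v (toFN ι N G₀) := by
  classical
  have hw := valFam_wP ι N
  have hB := Ge.branches
  obtain ⟨Γ1, hΓ1, H1⟩ := chart_key Ge.irr hB hw (Or.inl rfl) (intAt_wP ι N Ge.x hB.trans) hi h0
    hrat (fun _ => True) (fun n hn _ hex => hfin n hn hex)
  obtain ⟨Γ2, hΓ2, H2⟩ := chart_key Ge.irr hB hw (Or.inr rfl)
    (intAt_wP ι N Ge.x⁻¹ (hB.trans' (Or.inr rfl))) hi h0 hrat
    (fun n => (⟨Ge.x⁻¹, self_mem_CInt _⟩ : CInt ↥(A.comap ι) K Ge.x⁻¹) ∈ n)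
    (fun n hn hq hex => hinf n hn hq hex)
  refine ⟨(Γ1 ∪ Γ2).image (fun r : ↥(A.comap ι) => ι (r : K)), ?_, ?_⟩
  · intro γ hγ
    obtain ⟨r, hr, rfl⟩ := Finset.mem_image.1 hγ
    rcases Finset.mem_union.1 hr with h | h
    · exact unit_spec (hΓ1 r h)
    · exact unit_spec (hΓ2 r h)
  intro v
  set V : ValuationSubring (modularFunctionFieldFullC K N) :=
    (Wc (isFF1_FN N) A v).comap (toFN ι N) with hV
  have hR : ∀ r : ↥(A.comap ι), rE ↥(A.comap ι) K (modularFunctionFieldFullC K N) r ∈ V := by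
    intro r
    rw [hV, ValuationSubring.mem_comap, toFN_rE]
    exact pt_mem _ _ _ _ r.2
  have hϖV : rE ↥(A.comap ι) K (modularFunctionFieldFullC K N) Ge.ϖ ∈ V.nonunits := by
    rw [hV, S18.DVR.mem_nonunits_comap, toFN_rE]
    exact pt_non' _ _ _ _ (nonunit_spec Ge.irr.not_isUnit)
  have hfinal : ∀ Γ' : Finset ↥(A.comap ι), Γ' ⊆ Γ1 ∪ Γ2 →
      (f1₀ ∈ V ∨ ∃ r ∈ Γ', G₀ - rE ↥(A.comap ι) K (modularFunctionFieldFullC K N) r ∈ V.nonunits) →
      EV.IntAt (isFF1_FN N) A v (toFN ι N f1₀) ∨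
        EV.NearAt (isFF1_FN N) A ((Γ1 ∪ Γ2).image (fun r : ↥(A.comap ι) => ι (r : K))) v (toFN ι N G₀) := by
    rintro Γ' hsub (h | ⟨r, hr, h⟩)
    · exact Or.inl h
    · right
      rw [pt_nearAt_iff]
      refine ⟨ι (r : K), Finset.mem_image.2 ⟨r, hsub hr, rfl⟩, ?_⟩
      rw [hV, S18.DVR.mem_nonunits_comap, map_sub, toFN_rE] at h
      exact h
  by_cases hx : Ge.x ∈ V
  · exact hfinal Γ1 Finset.subset_union_left (H1 V hR hϖV hx (fun _ _ => trivial))
  · have hx' : Ge.x⁻¹ ∈ V.nonunits := by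
      rw [ss_mem_nonunits_iff, inv_inv]
      exact Or.inr hx
    exact hfinal Γ2 Finset.subset_union_right
      (H2 V hR hϖV (mem_of_mem_nonunits V hx') (fun n hn => (hn _).2 hx'))

end Conc

end Fermat.Agent.S33.Key.C7
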