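import Fermat.Agent.S19.Move.Setup
import Fermat.Agent.S34.DA1
import Fermat.Agent.S34.DA2
import Fermat.Agent.S33.Move.Fin

set_option autoImplicit false
set_option linter.unusedSectionVars false

/-!
# S33 / Key / CenAbs : abstract form of `key_of_locUnit` (hedge of `Key/Centre.lean`)

`W v` : composite valuation rings (`z` regular at `v`, `z(v) ∈ A`), `n_v = cen (W v)`.
If no pole of `f1` passes through `n_v` then `f1 ∈ W v`; otherwise `n_v` is a rational closed point and a `LocUnit` `G` is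
congruent at `v` to its value `r ∈ Rˣ` at the pole.
-/

noncomputable section

namespace Fermat.Agent.S33.KeyB

open Polynomial IntermediateField Fermat.Agent.S18 Fermat.Agent.S34 Fermat.Agent.S19.Move

variable {R K F : Type} [CommRing R] [IsDomain R] [IsDiscreteValuationRing R] [Field K] [CharZero K]
  [Algebra R K] [IsFractionRing R K] [Field F] [Algebra K F] {ϖ : R} {I : Type} {w : I → F → ℤ}
  {W : I → ValuationSubring F} {x : F} {Vi V0 : ValuationSubring F}

/-- the local ring at the centre is contained in the valuation ring. -/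
theorem mem_of_inLoc_cen {V : ValuationSubring F} {t : F} (hC : ∀ c ∈ CInt R K t, c ∈ V) {z : F}
    (hz : InLoc (cen V hC) z) : z ∈ V :=
  Centered.mem_of_inLoc hC (fun _ hc => hc) hz

/-- the maximal ideal of the local ring at the centre consists of nonunits. -/
theorem nonunit_of_inMax_cen {V : ValuationSubring F} {t : F} (hC : ∀ c ∈ CInt R K t, c ∈ V) {z : F}
    (hz : InMax (cen V hC) z) : z ∈ V.nonunits := by
  obtain ⟨d, hd, y, hy, e⟩ := hz
  have hd' : (d : F) ∉ V.nonunits := hd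
  have hd0 : (d : F) ≠ 0 := fun h => hd' (h ▸ zero_mem_nonunits V)
  have h2 := inv_mem_of_notMem_nonunits V (hC _ d.2) hd'
  have e' : z = (d : F)⁻¹ * (y : F) := by
    rw [← e, ← mul_assoc, inv_mul_cancel₀ hd0, one_mul]
  rw [e']
  exact mul_mem_nonunits V h2 hy

/-- a polynomial `Φ`, nonzero mod `ϖ`, with `0 < w i (Φ(t))`. -/
theorem exists_phi (hϖ : Irreducible ϖ) (hw : ValFam K w) {t : F} (htr : Transcendental K t) {i : I}
    (hi : 0 ≤ w i t) (hr : RatAt K w i) :
    ∃ Φ : R[X], ¬ C ϖ ∣ Φ ∧ evR R K t Φ ≠ 0 ∧ 0 < w i (evR R K t Φ) := by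
  have htc : ∀ a : K, t ≠ algebraMap K F a := fun a h0 => htr (h0 ▸ isAlgebraic_algebraMap a)
  have ht0 : t ≠ 0 := fun h0 => htc 0 (by rw [h0, map_zero])
  obtain ⟨a, ha⟩ := hr.1 t ht0 hi
  have ha : 0 < w i (t - algebraMap K F a) := ha.resolve_left (htc a)
  have hne : t - algebraMap K F a ≠ 0 := sub_ne_zero.2 (htc a)
  rcases ValuationRing.isInteger_or_isInteger R a with ⟨r, hr⟩ | ⟨r, hr⟩
  · refine ⟨X - C r, ?_, ?_, ?_⟩
    · intro hd
      have h1 : ϖ ∣ (X - C r : R[X]).coeff 1 := (C_dvd_iff_dvd_coeff _ _).1 hd 1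
      rw [coeff_sub, coeff_X_one, coeff_C_succ, sub_zero] at h1
      exact hϖ.not_isUnit (isUnit_of_dvd_one h1)
    · rw [map_sub, evR_X, evR_C, rE_apply, hr]; exact hne
    · rw [map_sub, evR_X, evR_C, rE_apply, hr]; exact ha
  · -- `a⁻¹ = r`
    by_cases ha0 : a = 0
    · refine ⟨X, ?_, ?_, ?_⟩
      · intro hd
        have h1 : ϖ ∣ (X : R[X]).coeff 1 := (C_dvd_iff_dvd_coeff _ _).1 hd 1
        rw [coeff_X_one] at h1
        exact hϖ.not_isUnit (isUnit_of_dvd_one h1)
      · rw [evR_X]; exact ht0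
      · rw [evR_X]
        rw [ha0, map_zero, sub_zero] at ha
        exact ha
    · have hr0 : r ≠ 0 := by
        rintro rfl
        rw [map_zero] at hr
        exact inv_ne_zero ha0 hr.symm
      have e : evR R K t (C r * X - 1) = rE R K F r * (t - algebraMap K F a) := by
        rw [map_sub, map_mul, evR_X, evR_C, map_one, rE_apply, hr, mul_sub, ← map_mul,
          inv_mul_cancel₀ ha0, map_one]
      have hrE : rE R K F r ≠ 0 := by
        rw [rE_apply, hr]
        exact (_root_.map_ne_zero _).2 (inv_ne_zero ha0)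
      refine ⟨C r * X - 1, ?_, ?_, ?_⟩
      · intro hd
        have h1 : ϖ ∣ (C r * X - 1 : R[X]).coeff 0 := (C_dvd_iff_dvd_coeff _ _).1 hd 0
        rw [coeff_sub, coeff_C_mul, coeff_X_zero, mul_zero, coeff_one_zero, zero_sub] at h1
        exact hϖ.not_isUnit (isUnit_of_dvd_one ((dvd_neg).1 h1))
      · rw [e]; exact mul_ne_zero hrE hne
      · rw [e, hw.map_mul i _ _ hrE hne, hw.map_rE i hr0, zero_add]; exact ha

/-- one chart. -/
theorem key_chart (hϖ : Irreducible ϖ) (hB : Branches (K := K) ϖ x Vi V0) (hM : MoveFam R K ϖ w W)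
    {t : F} (ht : t = x ∨ t = x⁻¹) (hint : IntAt K w t) {f1 G : F} (hi : f1 ∈ Vi) (h0 : f1 ∈ V0)
    (hrat : ∀ i, w i f1 < 0 → RatAt K w i) (v : I) (htW : t ∈ W v)
    (hloc : IsClosedPt ϖ (cen (W v) (hM.C_le htW)) →
      (∃ i, w i f1 < 0 ∧ Thru w i (cen (W v) (hM.C_le (R := R) (K := K) htW))) →
        LocUnit (cen (W v) (hM.C_le (R := R) (K := K) htW)) G) :
    f1 ∈ W v ∨ ∃ i, w i f1 < 0 ∧ ∃ r : R, IsUnit r ∧
      (G = rE R K F r ∨ 0 < w i (G - rE R K F r)) ∧ G - rE R K F r ∈ (W v).nonunits := by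
  by_cases hf1 : f1 = 0
  · left; rw [hf1]; exact zero_mem _
  set n : Ideal (CInt R K t) := cen (W v) (hM.C_le htW) with hn_def
  have hnp : n.IsPrime := cen_isPrime (W v) (hM.C_le htW)
  have htr : Transcendental K t := hB.trans' ht
  by_cases hp : ∃ i, w i f1 < 0 ∧ Thru w i n
  · right
    obtain ⟨i, hpole, hthru⟩ := hp
    have hr := hrat i hpole
    have hunif : unifC t ϖ ∈ n := by rw [hn_def, mem_cen]; exact hM.unif v
    obtain ⟨Φ, hΦ, hΦ0, hΦw⟩ := exists_phi hϖ hM.fam htr hthru.1 hr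
    have hΦn : evC t Φ ∈ n := by
      by_contra hcon
      have := hthru.2 (evC t Φ) hcon
      rw [coe_evC] at this
      omega
    have hn : IsClosedPt ϖ n := ⟨Fermat.Agent.S33.Move.isMaximal_closed hϖ hΦ n hnp hunif hΦn, hunif⟩
    have hsec : IsSection n (da2Ideal hM.fam hthru.1) := da2_isSection hϖ hM.fam hn hthru hr
    obtain ⟨hG0, ⟨d, hd, hdG⟩, -⟩ := hloc hn ⟨i, hpole, hthru⟩
    obtain ⟨-, -, ⟨d', hd', hdG'⟩⟩ := hloc hn ⟨i, hpole, hthru⟩
    -- `a = d G`
    set a : CInt R K t := ⟨_, hdG⟩ with ha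
    have hd0 : (d : F) ≠ 0 := lf_ne_zero hd
    have hd0' : (d' : F) ≠ 0 := lf_ne_zero hd'
    have han : a ∉ n := by
      intro han
      -- `d d' = a * (d' G⁻¹)`
      have e : d * d' = a * ⟨_, hdG'⟩ := by
        apply Subtype.ext
        show (d : F) * (d' : F) = ((d : F) * G) * ((d' : F) * G⁻¹)
        field_simp
      have h1 : d * d' ∈ n := by rw [e]; exact n.mul_mem_right _ han
      exact (hnp.mem_or_mem h1).elim hd hd'
    obtain ⟨ra, hra⟩ := hsec.rat a
    obtain ⟨rd, hrd⟩ := hsec.rat d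
    have hunit : ∀ (c : CInt R K t) (r : R), c ∉ n →
        c - ⟨rE R K F r, rE_mem_CInt t r⟩ ∈ da2Ideal hM.fam hthru.1 → IsUnit r := by
      intro c r hc hcr
      by_contra hnu
      obtain ⟨s, rfl⟩ := lf_dvd_of_not_isUnit hϖ hnu
      apply hc
      have h1 : (⟨rE R K F (ϖ * s), rE_mem_CInt t (ϖ * s)⟩ : CInt R K t) =
          unifC t ϖ * ⟨rE R K F s, rE_mem_CInt t s⟩ := by
        apply Subtype.ext
        show rE R K F (ϖ * s) = rE R K F ϖ * rE R K F s
        rw [_root_.map_mul]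
      have h2 : (⟨rE R K F (ϖ * s), rE_mem_CInt t (ϖ * s)⟩ : CInt R K t) ∈ n := by
        rw [h1]; exact Ideal.mul_mem_right _ _ hunif
      have h3 := Ideal.add_mem _ (hsec.le hcr) h2
      rwa [sub_add_cancel] at h3
    have hua : IsUnit ra := hunit a ra han hra
    have hud : IsUnit rd := hunit d rd hd hrd
    obtain ⟨rd', hrd'⟩ := hud.exists_left_inv
    have hud' : IsUnit rd' := IsUnit.of_mul_eq_one _ hrd'
    refine ⟨i, hpole, ra * rd', hua.mul hud', ?_, ?_⟩
    all_goals
      -- the element `q = a * rd - d * ra ∈ 𝔭`,   `G - ra rd' = rd' q / d`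
      set q : CInt R K t := (a - ⟨rE R K F ra, rE_mem_CInt t ra⟩) * ⟨rE R K F rd, rE_mem_CInt t rd⟩ -
        (d - ⟨rE R K F rd, rE_mem_CInt t rd⟩) * ⟨rE R K F ra, rE_mem_CInt t ra⟩ with hq
      have hq𝔭 : q ∈ da2Ideal hM.fam hthru.1 :=
        Ideal.sub_mem _ (Ideal.mul_mem_right _ _ hra) (Ideal.mul_mem_right _ _ hrd)
      have hone : rE R K F rd' * rE R K F rd = 1 := by rw [← map_mul, hrd', map_one]
      have hqF : (q : F) = (d : F) * G * rE R K F rd - (d : F) * rE R K F ra := by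
        show ((d : F) * G - rE R K F ra) * rE R K F rd - ((d : F) - rE R K F rd) * rE R K F ra = _
        ring
      have e : G - rE R K F (ra * rd') = rE R K F rd' * (d : F)⁻¹ * (q : F) := by
        rw [hqF, map_mul]
        have : rE R K F rd' * (d : F)⁻¹ * ((d : F) * G * rE R K F rd - (d : F) * rE R K F ra) =
            ((d : F)⁻¹ * (d : F)) * (G * (rE R K F rd' * rE R K F rd) - rE R K F ra * rE R K F rd') := by
          ring
        rw [this, hone, inv_mul_cancel₀ hd0]
        ring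
    · by_cases hq0 : q = 0
      · left
        have : G - rE R K F (ra * rd') = 0 := by rw [e, hq0]; simp
        exact sub_eq_zero.1 this
      · right
        have hqw : 0 < w i (q : F) := ((mem_da2Ideal hM.fam hthru.1 q).1 hq𝔭).resolve_left hq0
        have hq0' : (q : F) ≠ 0 := da2_coe_ne_zero hq0
        have hrd0 : rd' ≠ 0 := hud'.ne_zero
        have hrE0 : rE R K F rd' ≠ 0 := left_ne_zero_of_mul (hone ▸ one_ne_zero)
        rw [e, hM.fam.map_mul i _ _ (mul_ne_zero hrE0 (inv_ne_zero hd0)) hq0',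
          hM.fam.map_mul i _ _ hrE0 (inv_ne_zero hd0), hM.fam.map_rE i hrd0, hM.fam.map_inv i hd0,
          hthru.2 d hd]
        simpa using hqw
    · rw [e]
      have hqn : (q : F) ∈ (W v).nonunits := hsec.le hq𝔭
      have hd' : (d : F) ∉ (W v).nonunits := hd
      have h2 := inv_mem_of_notMem_nonunits (W v) (hM.C_le htW _ d.2) hd'
      exact mul_mem_nonunits (W v) (mul_mem (hM.R_mem v rd') h2) hqn
  · left
    push Not at hp
    obtain ⟨k, hk⟩ := exists_inLoc_of_nonneg hϖ hM.fam hint n hf1 (fun i hi => by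
      by_contra hcon
      exact hp i (not_le.1 hcon) hi)
    exact mem_of_inLoc_cen (hM.C_le htW) (hB.sat_loc hϖ ht k hk hi h0)

end Fermat.Agent.S33.KeyB
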