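import Fermat.Agent.S33.Key.CenAbs
import Fermat.Agent.S33.Move.Pt
import Fermat.Agent.S19.Move.Mid
import Fermat.Agent.S34.Geo
import Fermat.Agent.S34.BR.Fam
import Fermat.Agent.S34.BR.IntB
import Fermat.Agent.S18.B.DVR

set_option autoImplicit false
set_option linter.unusedSectionVars false

/-!
# S33 / Key / CentreB : `key_of_locUnit` (hedge of `Key/Centre.lean`, same statement)
-/

noncomputable section

namespace Fermat.Agent.S33.KeyB

open AlgebraicCurve ModularCurve Polynomial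
open Fermat.Agent.S24 (Kb FN isFF1_FN)
open Fermat.Agent.S18 (toFN CInt rE self_mem_CInt)
open Fermat.Agent.S34
open Fermat.Agent.DIV (valAt)
open Fermat.Agent.S19.Move (Wc MoveFam MidHyp moveFam_mid cen mem_cen mem_comap_nonunits)
open Fermat.Agent.S33.EV (IntAt NearAt)

variable {N : ℕ} [NeZero N] {A : ValuationSubring Kb} {K : Type} [Field K] [CharZero K]
  {ι : K →+* Kb} [IsDiscreteValuationRing ↥(A.comap ι)]

theorem midHyp (Ge : S34.Geo N A ι) : MidHyp Ge.ϖ A ι (toFN ι N) := by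
  refine ⟨toFN_algebraMap ι N, fun r => r.2, ?_, fun a ha => ⟨⟨a, ha⟩, rfl⟩⟩
  have h1 : ((Ge.ϖ : ↥(A.comap ι)) : K) ∈ (A.comap ι).nonunits := by
    rw [ValuationSubring.coe_mem_nonunits_iff, IsLocalRing.mem_maximalIdeal, mem_nonunits_iff]
    exact Ge.irr.not_isUnit
  exact (S18.DVR.mem_nonunits_comap ι A _).1 h1

theorem key_of_locUnit (Ge : S34.Geo N A ι) (f1₀ G₀ : modularFunctionFieldFullC K N)
    (hi : f1₀ ∈ Ge.Vi) (h0 : f1₀ ∈ Ge.V0)
    (hrat : ∀ v, wP ι N v f1₀ < 0 → RatAt K (wP ι N) v)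
    (hfin : ∀ n : Ideal (CInt ↥(A.comap ι) K Ge.x), IsClosedPt Ge.ϖ n →
      (∃ v, wP ι N v f1₀ < 0 ∧ Thru (wP ι N) v n) → LocUnit n G₀)
    (hinf : ∀ n : Ideal (CInt ↥(A.comap ι) K Ge.x⁻¹), IsClosedPt Ge.ϖ n →
      (⟨Ge.x⁻¹, self_mem_CInt _⟩ : CInt ↥(A.comap ι) K Ge.x⁻¹) ∈ n →
      (∃ v, wP ι N v f1₀ < 0 ∧ Thru (wP ι N) v n) → LocUnit n G₀) :
    ∃ Γ : Finset Kb, (∀ γ ∈ Γ, γ ∈ A ∧ γ ∉ A.nonunits) ∧
      ∀ v : Place Kb (FN N), IntAt (isFF1_FN N) A v (toFN ι N f1₀) ∨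
        NearAt (isFF1_FN N) A Γ v (toFN ι N G₀) := by
  classical
  have hM : MoveFam ↥(A.comap ι) K Ge.ϖ (wP ι N)
      (fun v : Place Kb (FN N) => (Wc (isFF1_FN N) A v).comap (toFN ι N)) :=
    moveFam_mid (isFF1_FN N) (midHyp Ge)
  have hϖ := Ge.irr
  have hB := Ge.branches
  by_cases hf1 : f1₀ = 0
  · refine ⟨∅, by simp, fun v => Or.inl ?_⟩
    rw [hf1, map_zero]
    exact (Wc (isFF1_FN N) A v).zero_mem
  have hfinite : {v : Place Kb (FN N) | wP ι N v f1₀ ≠ 0}.Finite := hM.fam.fin f1₀ hf1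
  refine ⟨(hfinite.toFinset.image fun v => valAt (isFF1_FN N) v (toFN ι N G₀)).filter
    (fun γ => γ ∈ A ∧ γ ∉ A.nonunits), fun γ hγ => (Finset.mem_filter.1 hγ).2, fun v => ?_⟩
  -- the abstract statement
  have habs : f1₀ ∈ (Wc (isFF1_FN N) A v).comap (toFN ι N) ∨ ∃ i, wP ι N i f1₀ < 0 ∧
      ∃ r : ↥(A.comap ι), IsUnit r ∧
        (G₀ = rE ↥(A.comap ι) K _ r ∨ 0 < wP ι N i (G₀ - rE ↥(A.comap ι) K _ r)) ∧
        G₀ - rE ↥(A.comap ι) K _ r ∈ ((Wc (isFF1_FN N) A v).comap (toFN ι N)).nonunits := by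
    by_cases hx : Ge.x ∈ (Wc (isFF1_FN N) A v).comap (toFN ι N)
    · exact key_chart hϖ hB hM (Or.inl rfl) (intAt_wP ι N Ge.x hB.trans) hi h0 hrat v hx
        (fun hn hp => hfin _ hn hp)
    · have hx' : Ge.x⁻¹ ∈ ((Wc (isFF1_FN N) A v).comap (toFN ι N)).nonunits := by
        rw [ss_mem_nonunits_iff]
        right
        rwa [inv_inv]
      exact key_chart hϖ hB hM (Or.inr rfl) (intAt_wP ι N Ge.x⁻¹ (hB.trans' (Or.inr rfl))) hi h0
        hrat v (ValuationSubring.nonunits_subset hx') (fun hn hp => hinf _ hn hx' hp)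
  rcases habs with h | ⟨i, hpole, r, hr, hri, hrv⟩
  · exact Or.inl h
  · right
    have hrE : toFN ι N (rE ↥(A.comap ι) K _ r) = algebraMap Kb (FN N) (ι (r : K)) := by
      rw [S18.rE_apply, toFN_algebraMap]
      rfl
    -- the value at the pole
    have hval : valAt (isFF1_FN N) i (toFN ι N G₀) = ι (r : K) := by
      rcases hri with h | h
      · rw [h, hrE, Fermat.Agent.DIV.valAt_algebraMap]
      · have h' : 0 < i.ord (toFN ι N G₀ - algebraMap Kb (FN N) (ι (r : K))) := by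
          rw [← hrE, ← map_sub]
          exact h
        exact (Fermat.Agent.DIV.valAt_eq_of_ord_pos (isFF1_FN N) i h').2
    have hrA : ι (r : K) ∈ A := r.2
    have hrA' : ι (r : K) ∉ A.nonunits := by
      intro hcon
      have h1 : (r : K) ∈ (A.comap ι).nonunits := (S18.DVR.mem_nonunits_comap ι A _).2 hcon
      rw [ValuationSubring.coe_mem_nonunits_iff, IsLocalRing.mem_maximalIdeal,
        mem_nonunits_iff] at h1
      exact h1 hr
    rw [Fermat.Agent.S33.Move.pt_nearAt_iff]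
    refine ⟨ι (r : K), ?_, ?_⟩
    · rw [Finset.mem_filter, Finset.mem_image]
      refine ⟨⟨i, ?_, hval⟩, hrA, hrA'⟩
      rw [Set.Finite.mem_toFinset]
      exact ne_of_lt hpole
    · rw [mem_comap_nonunits, map_sub, hrE] at hrv
      exact hrv

end Fermat.Agent.S33.KeyB
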