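import Fermat.Agent.S34.Loc
import Fermat.Agent.S33.EV.WR

set_option autoImplicit false
set_option linter.unusedSectionVars false

/-!
# S33 / Key / Ctr : the centre of a place of the geometric function field on a chart of the model; residues

`K ⊂ L` (`ι`), `F ⊂ E` (`φ`), `A` a valuation ring of `L`, `R = A ∩ K`, `C = CInt R K t`.
A place `v` of `E / L` with `t(v) ∈ A` defines `C → A → k_A`, whose kernel is a closed point `n` (`Ctr v n`).
-/

noncomputable section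

namespace Fermat.Agent.S33.KeyC

open AlgebraicCurve Polynomial
open Fermat.Agent.S24 (IsFF1)
open Fermat.Agent.DIV (valAt valAt_of_mem valAt_one valAt_zero valAt_add valAt_mul valAt_sub
  valAt_algebraMap valAt_pow)
open Fermat.Agent.S18 (CInt rE evR)
open Fermat.Agent.S34
open Fermat.Agent.S33.EV (IntAt NearAt)

/-! ### generalities -/

theorem mem_of_isIntegralElem {E : Type*} [Field E] (V : ValuationSubring E) {S : Type*}
    [CommRing S] (ψ : S →+* E) (hψ : ∀ s, ψ s ∈ V) {y : E} (hy : ψ.IsIntegralElem y) : y ∈ V := by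
  obtain ⟨P, hP, e⟩ := hy
  let ψ' : S →+* V := ψ.codRestrict V.toSubring hψ
  have h1 : IsIntegral V y := by
    refine ⟨P.map ψ', hP.map _, ?_⟩
    rw [Polynomial.eval₂_map]
    exact e
  obtain ⟨y', rfl⟩ := IsIntegrallyClosed.isIntegral_iff.mp h1
  exact y'.2

theorem eval₂_mem_subring {S E : Type*} [CommRing S] [CommRing E] (V : Subring E) (f : S →+* E)
    (hf : ∀ s, f s ∈ V) {x : E} (hx : x ∈ V) (P : S[X]) : P.eval₂ f x ∈ V := by
  rw [Polynomial.eval₂_eq_sum_range]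
  exact V.sum_mem fun i _ => V.mul_mem (hf _) (V.pow_mem hx i)

section VS
variable {L : Type*} [Field L] {A : ValuationSubring L}

theorem nu_add {a b : L} (ha : a ∈ A.nonunits) (hb : b ∈ A.nonunits) : a + b ∈ A.nonunits := by
  rw [A.mem_nonunits_iff] at *
  exact (A.valuation.map_add _ _).trans_lt (max_lt ha hb)

theorem nu_mul {a b : L} (ha : a ∈ A) (hb : b ∈ A.nonunits) : a * b ∈ A.nonunits := by
  rw [A.mem_nonunits_iff] at *
  rw [map_mul, mul_comm]
  exact mul_lt_one_of_lt_of_le hb ((A.valuation_le_one_iff a).2 ha)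

theorem nu_zero : (0 : L) ∈ A.nonunits := by
  rw [A.mem_nonunits_iff, map_zero]; exact zero_lt_one

theorem val_eq_one {a : L} (ha : a ∈ A) (ha' : a ∉ A.nonunits) : A.valuation a = 1 := by
  rw [A.mem_nonunits_iff, not_lt] at ha'
  exact le_antisymm ((A.valuation_le_one_iff a).2 ha) ha'

theorem inv_mem_of_unit {a : L} (ha : a ∈ A) (ha' : a ∉ A.nonunits) : a⁻¹ ∈ A := by
  rw [← A.valuation_le_one_iff, map_inv₀, val_eq_one ha ha', inv_one]

theorem ne_zero_of_unit {a : L} (ha' : a ∉ A.nonunits) : a ≠ 0 := by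
  rintro rfl
  exact ha' nu_zero

end VS

variable {K F : Type} [Field K] [CharZero K] [Field F] [Algebra K F]
  {L E : Type} [Field L] [Field E] [Algebra L E] [IsAlgClosed L] [CharZero L]
  (h : IsFF1 L E) (A : ValuationSubring L) (ι : K →+* L) (φ : F →+* E)

/-! ### division at a place -/

section Div
variable {h A} {v : Place L E}

theorem inv_mem_of_valAt_ne_zero {b : E} (hb : b ∈ v.toValuationSubring) (hb0 : valAt h v b ≠ 0) :
    b⁻¹ ∈ v.toValuationSubring ∧ valAt h v b⁻¹ = (valAt h v b)⁻¹ := by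
  have h1 : (⟨b, hb⟩ : v.toValuationSubring) ∉ IsLocalRing.maximalIdeal v.toValuationSubring := by
    rw [← Fermat.Agent.DIV.evp_eq_zero_iff h v, ← valAt_of_mem h v hb]
    exact hb0
  rw [IsLocalRing.mem_maximalIdeal, mem_nonunits_iff, not_not] at h1
  obtain ⟨u, hu⟩ := h1
  have hb1 : b ≠ 0 := by
    rintro rfl
    exact hb0 (valAt_zero h v)
  have h2 : b⁻¹ = ((u⁻¹ : (v.toValuationSubring)ˣ) : v.toValuationSubring) := by
    have h3 : ((u : v.toValuationSubring) : E) = b := by rw [hu]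
    have h4 : ((u : v.toValuationSubring) : E) *
        (((u⁻¹ : (v.toValuationSubring)ˣ) : v.toValuationSubring) : E) = 1 := by
      rw [← MulMemClass.coe_mul, Units.mul_inv]; rfl
    rw [h3] at h4
    exact (eq_inv_of_mul_eq_one_right h4).symm
  have h5 : b⁻¹ ∈ v.toValuationSubring := by rw [h2]; exact Subtype.property _
  refine ⟨h5, ?_⟩
  have h6 := valAt_mul h v hb h5
  rw [mul_inv_cancel₀ hb1, valAt_one] at h6
  exact (eq_inv_of_mul_eq_one_right h6.symm)

theorem intAt_div {a b : E} (ha : IntAt h A v a) (hb : IntAt h A v b)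
    (hb' : valAt h v b ∉ A.nonunits) :
    IntAt h A v (a / b) ∧ valAt h v (a / b) = valAt h v a / valAt h v b := by
  obtain ⟨h1, h2⟩ := inv_mem_of_valAt_ne_zero hb.1 (ne_zero_of_unit hb')
  have h3 : valAt h v (a / b) = valAt h v a / valAt h v b := by
    rw [div_eq_mul_inv, valAt_mul h v ha.1 h1, h2, div_eq_mul_inv]
  refine ⟨⟨by rw [div_eq_mul_inv]; exact mul_mem ha.1 h1, ?_⟩, h3⟩
  rw [h3, div_eq_mul_inv]
  exact A.mul_mem _ _ ha.2 (inv_mem_of_unit hb.2 hb')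

/-- choice of the chart. -/
theorem intAt_or_inv (y : E) : IntAt h A v y ∨ IntAt h A v y⁻¹ := by
  have key : ∀ z : E, z ∈ v.toValuationSubring → IntAt h A v z ∨ IntAt h A v z⁻¹ := by
    intro z hz
    rcases A.mem_or_inv_mem (valAt h v z) with h1 | h1
    · exact Or.inl ⟨hz, h1⟩
    · by_cases h0 : valAt h v z = 0
      · exact Or.inl ⟨hz, by rw [h0]; exact A.zero_mem⟩
      · obtain ⟨h2, h3⟩ := inv_mem_of_valAt_ne_zero hz h0
        exact Or.inr ⟨h2, by rw [h3]; exact h1⟩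
  rcases v.toValuationSubring.mem_or_inv_mem y with h1 | h1
  · exact key y h1
  · have := key y⁻¹ h1
    rw [inv_inv] at this
    exact this.symm

end Div

/-! ### the centre -/

/-- `v` is centred at `n`. -/
def Ctr (v : Place L E) {t : F} (n : Ideal (CInt ↥(A.comap ι) K t)) : Prop :=
  ∀ c : CInt ↥(A.comap ι) K t,
    IntAt h A v (φ c) ∧ (c ∈ n ↔ valAt h v (φ c) ∈ A.nonunits)

section Ex
variable {h A ι φ} (hφ : ∀ a : K, φ (algebraMap K F a) = algebraMap L E (ι a))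
  {v : Place L E} {t : F}

include hφ

theorem phi_rE (r : ↥(A.comap ι)) : φ (rE ↥(A.comap ι) K F r) = algebraMap L E (ι (r : K)) := by
  rw [rE, RingHom.comp_apply, hφ]
  rfl

theorem phi_evR_mem (ht : φ t ∈ v.toValuationSubring) (s : (↥(A.comap ι))[X]) :
    φ (evR ↥(A.comap ι) K t s) ∈ v.toValuationSubring := by
  have h1 : φ (evR ↥(A.comap ι) K t s) = s.eval₂ (φ.comp (rE ↥(A.comap ι) K F)) (φ t) := by
    rw [evR, coe_eval₂RingHom, Polynomial.hom_eval₂]
  rw [h1]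
  exact eval₂_mem_subring v.toValuationSubring.toSubring _ (fun r => by
    rw [RingHom.comp_apply, phi_rE hφ]; exact v.algebraMap_mem' _) ht s

theorem phi_mem (ht : φ t ∈ v.toValuationSubring) (c : CInt ↥(A.comap ι) K t) :
    φ c ∈ v.toValuationSubring := by
  refine mem_of_isIntegralElem v.toValuationSubring (φ.comp (evR ↥(A.comap ι) K t))
    (fun s => phi_evR_mem hφ ht s) ?_
  obtain ⟨P, hP, e⟩ := c.2
  exact ⟨P, hP, by rw [← Polynomial.hom_eval₂, e, map_zero]⟩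

/-- evaluation at `v` on the chart. -/
def chi (h : IsFF1 L E) (ht : φ t ∈ v.toValuationSubring) : CInt ↥(A.comap ι) K t →+* L where
  toFun c := valAt h v (φ c)
  map_one' := by rw [Subring.coe_one, map_one, valAt_one]
  map_zero' := by rw [Subring.coe_zero, map_zero, valAt_zero]
  map_mul' a b := by
    rw [Subring.coe_mul, map_mul, valAt_mul h v (phi_mem hφ ht a) (phi_mem hφ ht b)]
  map_add' a b := by
    rw [Subring.coe_add, map_add, valAt_add h v (phi_mem hφ ht a) (phi_mem hφ ht b)]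

theorem chi_apply (ht : φ t ∈ v.toValuationSubring) (c : CInt ↥(A.comap ι) K t) :
    chi hφ h ht c = valAt h v (φ c) := rfl

theorem valAt_mem (ht : IntAt h A v (φ t)) (c : CInt ↥(A.comap ι) K t) :
    valAt h v (φ c) ∈ A := by
  rw [← chi_apply hφ ht.1]
  let j : (↥(A.comap ι))[X] →+* CInt ↥(A.comap ι) K t :=
    (evR ↥(A.comap ι) K t).codRestrict (CInt ↥(A.comap ι) K t)
      (fun s => (evR ↥(A.comap ι) K t).isIntegralElem_map)
  obtain ⟨P, hP, e⟩ := c.2
  have e' : P.eval₂ j c = 0 := by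
    apply Subtype.ext
    have := Polynomial.hom_eval₂ P j (CInt ↥(A.comap ι) K t).subtype c
    rw [Subring.subtype_apply] at this
    rw [this]
    exact e
  have h1 : ((chi hφ h ht.1).comp j).IsIntegralElem (chi hφ h ht.1 c) :=
    ⟨P, hP, by rw [← Polynomial.hom_eval₂, e', map_zero]⟩
  refine mem_of_isIntegralElem A _ ?_ h1
  intro s
  have h2 : ((chi hφ h ht.1).comp j) s =
      s.eval₂ (((chi hφ h ht.1).comp j).comp C) (((chi hφ h ht.1).comp j) X) := by
    conv_lhs => rw [← Polynomial.eval₂_C_X (p := s)]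
    rw [Polynomial.hom_eval₂]
  rw [h2]
  apply eval₂_mem_subring A.toSubring
  · intro r
    show valAt h v (φ (evR ↥(A.comap ι) K t (C r))) ∈ A
    have : evR ↥(A.comap ι) K t (C r) = rE ↥(A.comap ι) K F r := by
      rw [evR, coe_eval₂RingHom, eval₂_C]
    rw [this, phi_rE hφ, valAt_algebraMap]
    exact r.2
  · show valAt h v (φ (evR ↥(A.comap ι) K t X)) ∈ A
    have : evR ↥(A.comap ι) K t X = t := by
      rw [evR, coe_eval₂RingHom, eval₂_X]
    rw [this]
    exact ht.2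

/-- the centre of `v`. -/
def ctrIdeal (h : IsFF1 L E) (ht : IntAt h A v (φ t)) : Ideal (CInt ↥(A.comap ι) K t) where
  carrier := {c | valAt h v (φ c) ∈ A.nonunits}
  add_mem' {a b} ha hb := by
    show valAt h v (φ ((a + b : CInt ↥(A.comap ι) K t) : F)) ∈ A.nonunits
    rw [Subring.coe_add, map_add, valAt_add h v (phi_mem hφ ht.1 a) (phi_mem hφ ht.1 b)]
    exact nu_add ha hb
  zero_mem' := by
    show valAt h v (φ ((0 : CInt ↥(A.comap ι) K t) : F)) ∈ A.nonunits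
    rw [Subring.coe_zero, map_zero, valAt_zero]
    exact nu_zero
  smul_mem' a b hb := by
    show valAt h v (φ ((a * b : CInt ↥(A.comap ι) K t) : F)) ∈ A.nonunits
    rw [Subring.coe_mul, map_mul, valAt_mul h v (phi_mem hφ ht.1 a) (phi_mem hφ ht.1 b)]
    exact nu_mul (valAt_mem hφ ht a) hb

theorem ctr_ctrIdeal (ht : IntAt h A v (φ t)) : Ctr h A ι φ v (ctrIdeal hφ h ht) :=
  fun c => ⟨⟨phi_mem hφ ht.1 c, valAt_mem hφ ht c⟩, Iff.rfl⟩

theorem ctrIdeal_isMaximal (hres : ∀ a ∈ A, a ∉ A.nonunits → ∃ k : ℕ, 0 < k ∧ a ^ k - 1 ∈ A.nonunits)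
    (ht : IntAt h A v (φ t)) : (ctrIdeal hφ h ht).IsMaximal := by
  rw [Ideal.isMaximal_iff]
  constructor
  · intro h1
    have h2 : valAt h v (φ ((1 : CInt ↥(A.comap ι) K t) : F)) ∈ A.nonunits := h1
    rw [Subring.coe_one, map_one, valAt_one, A.mem_nonunits_iff, map_one] at h2
    exact lt_irrefl _ h2
  · intro J c hJ hc hcJ
    obtain ⟨k, hk, hk'⟩ := hres _ (valAt_mem hφ ht c) hc
    have h1 : c ^ k - 1 ∈ ctrIdeal hφ h ht := by
      show valAt h v (φ ((c ^ k - 1 : CInt ↥(A.comap ι) K t) : F)) ∈ A.nonunits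
      rw [← chi_apply hφ ht.1, map_sub, map_pow, map_one, chi_apply]
      exact hk'
    have h2 : c ^ k ∈ J := J.pow_mem_of_mem hcJ k hk
    have h3 := J.sub_mem h2 (hJ h1)
    rwa [sub_sub_cancel] at h3

/-- (1). -/
theorem exists_ctr (hres : ∀ a ∈ A, a ∉ A.nonunits → ∃ k : ℕ, 0 < k ∧ a ^ k - 1 ∈ A.nonunits)
    (ϖ : ↥(A.comap ι)) (hϖ : ι (ϖ : K) ∈ A.nonunits) (ht : IntAt h A v (φ t)) :
    ∃ n : Ideal (CInt ↥(A.comap ι) K t), IsClosedPt ϖ n ∧ Ctr h A ι φ v n := by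
  refine ⟨ctrIdeal hφ h ht, ⟨ctrIdeal_isMaximal hφ hres ht, ?_⟩, ctr_ctrIdeal hφ ht⟩
  show valAt h v (φ (rE ↥(A.comap ι) K F ϖ)) ∈ A.nonunits
  rw [phi_rE hφ, valAt_algebraMap]
  exact hϖ

end Ex

/-! ### evaluation of elements of the local ring -/

section Use
variable {h A ι φ} {v : Place L E} {t : F} {n : Ideal (CInt ↥(A.comap ι) K t)}

theorem Ctr.unit_of_notMem (hc : Ctr h A ι φ v n) {d : CInt ↥(A.comap ι) K t} (hd : d ∉ n) :
    valAt h v (φ d) ∉ A.nonunits := fun h' => hd ((hc d).2.2 h')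

theorem Ctr.eval (hc : Ctr h A ι φ v n) {z : F} {d w : CInt ↥(A.comap ι) K t} (hd : d ∉ n)
    (e : (d : F) * z = w) :
    IntAt h A v (φ z) ∧ valAt h v (φ z) = valAt h v (φ w) / valAt h v (φ d) := by
  have hd0 : (d : F) ≠ 0 := by
    intro h0
    apply hc.unit_of_notMem hd
    rw [h0, map_zero, valAt_zero]
    exact nu_zero
  have e1 : φ z = φ w / φ d := by
    rw [← e, map_mul, mul_div_cancel_left₀]
    rw [Ne, map_eq_zero]; exact hd0
  rw [e1]
  exact intAt_div (hc w).1 (hc d).1 (hc.unit_of_notMem hd)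

/-- (2). -/
theorem Ctr.intAt (hc : Ctr h A ι φ v n) {z : F} (hz : InLoc n z) : IntAt h A v (φ z) := by
  obtain ⟨d, hd, hw⟩ := hz
  exact (hc.eval hd (w := ⟨_, hw⟩) rfl).1

theorem Ctr.inMax_iff (hc : Ctr h A ι φ v n) {z : F} (hz : InLoc n z) :
    InMax n z ↔ valAt h v (φ z) ∈ A.nonunits := by
  constructor
  · rintro ⟨d, hd, w, hw, e⟩
    rw [(hc.eval hd e).2, div_eq_mul_inv, mul_comm]
    exact nu_mul (inv_mem_of_unit (hc d).1.2 (hc.unit_of_notMem hd)) ((hc w).2.1 hw)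
  · intro hv
    have hz' := hc.intAt hz
    obtain ⟨d, hd, hw⟩ := hz
    refine ⟨d, hd, ⟨_, hw⟩, ?_, rfl⟩
    rw [(hc _).2]
    show valAt h v (φ ((d : F) * z)) ∈ _
    rw [map_mul, valAt_mul h v (hc d).1.1 hz'.1]
    exact nu_mul (hc d).1.2 hv

/-- (4). -/
theorem Ctr.intAt_of_evR (hc : Ctr h A ι φ v n) {s : (↥(A.comap ι))[X]} {f1 : F}
    (hs : evR ↥(A.comap ι) K t s * f1 ∈ CInt ↥(A.comap ι) K t)
    (hn : (⟨evR ↥(A.comap ι) K t s, (evR ↥(A.comap ι) K t).isIntegralElem_map⟩ :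
      CInt ↥(A.comap ι) K t) ∉ n) : IntAt h A v (φ f1) :=
  hc.intAt ⟨_, hn, hs⟩

theorem Ctr.valAt_unit (hc : Ctr h A ι φ v n) {G : F} (hG : LocUnit n G) :
    valAt h v (φ G) ∉ A.nonunits := by
  intro h1
  have h2 := hc.intAt hG.2.1
  have h3 := hc.intAt hG.2.2
  have h4 := valAt_mul h v h2.1 h3.1
  rw [← map_mul, mul_inv_cancel₀ hG.1, map_one, valAt_one, mul_comm] at h4
  have h5 := nu_mul h3.2 h1
  rw [← h4, A.mem_nonunits_iff, map_one] at h5
  exact lt_irrefl _ h5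

theorem Ctr.valAt_pow_sub_one (hc : Ctr h A ι φ v n) {G : F} (hG : InLoc n G) (k : ℕ) :
    valAt h v (φ (G ^ k - 1)) = valAt h v (φ G) ^ k - 1 := by
  have h2 := hc.intAt hG
  rw [map_sub, map_pow, map_one, valAt_sub h v (pow_mem h2.1 k) (one_mem _), valAt_pow h v h2.1,
    valAt_one]

end Use

theorem nu_pow_sub_one {L : Type*} [Field L] {A : ValuationSubring L} {u : L} (hu : u ∈ A)
    (h1 : u - 1 ∈ A.nonunits) (j : ℕ) : u ^ j - 1 ∈ A.nonunits := by
  rw [← geom_sum_mul]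
  exact nu_mul (sum_mem fun i _ => pow_mem hu i) h1

section Near
variable {h A ι φ} [IsDiscreteValuationRing ↥(A.comap ι)] {t : F}

theorem exists_pow_near
    (hres : ∀ a ∈ A, a ∉ A.nonunits → ∃ k : ℕ, 0 < k ∧ a ^ k - 1 ∈ A.nonunits)
    (n : Ideal (CInt ↥(A.comap ι) K t)) [n.IsPrime] (G : F) (hG : LocUnit n G) :
    ∃ k : ℕ, 0 < k ∧ ∀ v : Place L E, Ctr h A ι φ v n → valAt h v (φ G) ^ k - 1 ∈ A.nonunits := by
  by_cases hex : ∃ v₀ : Place L E, Ctr h A ι φ v₀ n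
  · obtain ⟨v₀, h0⟩ := hex
    obtain ⟨k, hk, hk'⟩ := hres _ (h0.intAt hG.2.1).2 (h0.valAt_unit hG)
    have hl : InLoc n (G ^ k - 1) := (hG.2.1.pow k).sub (InLoc.of_mem n (one_mem _))
    have hm : InMax n (G ^ k - 1) := by
      rw [h0.inMax_iff hl, h0.valAt_pow_sub_one hG.2.1]
      exact hk'
    refine ⟨k, hk, fun v hv => ?_⟩
    rw [← hv.valAt_pow_sub_one hG.2.1, ← hv.inMax_iff hl]
    exact hm
  · exact ⟨1, one_pos, fun v hv => (hex ⟨v, hv⟩).elim⟩

theorem exists_pow_near_finset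
    (hres : ∀ a ∈ A, a ∉ A.nonunits → ∃ k : ℕ, 0 < k ∧ a ^ k - 1 ∈ A.nonunits)
    (Z : Finset (Ideal (CInt ↥(A.comap ι) K t))) (hZ : ∀ n ∈ Z, n.IsPrime) (G : F)
    (hG : ∀ n ∈ Z, LocUnit n G) :
    ∃ k : ℕ, 0 < k ∧ ∀ v : Place L E, ∀ n ∈ Z, Ctr h A ι φ v n →
      valAt h v (φ G) ^ k - 1 ∈ A.nonunits := by
  classical
  induction Z using Finset.induction_on with
  | empty => exact ⟨1, one_pos, fun v n hn => absurd hn (Finset.notMem_empty n)⟩
  | insert n Z' hn ih =>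
    obtain ⟨k', hk', ih'⟩ := ih (fun m hm => hZ m (Finset.mem_insert_of_mem hm))
      (fun m hm => hG m (Finset.mem_insert_of_mem hm))
    have := hZ n (Finset.mem_insert_self n Z')
    obtain ⟨k, hk, h1⟩ := exists_pow_near (h := h) (φ := φ) hres n G
      (hG n (Finset.mem_insert_self n Z'))
    refine ⟨k * k', Nat.mul_pos hk hk', fun v m hm hv => ?_⟩
    have hmem : valAt h v (φ G) ∈ A := (hv.intAt (hG m hm).2.1).2
    rcases Finset.mem_insert.1 hm with rfl | hm'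
    · rw [pow_mul]
      exact nu_pow_sub_one (pow_mem hmem k) (h1 v hv) k'
    · rw [mul_comm, pow_mul]
      exact nu_pow_sub_one (pow_mem hmem k') (ih' v m hm' hv) k

/-- the `k`-th roots of unity are units of `A`, and `a ^ k ≡ 1` implies `a ≡ γ` for one of them. -/
theorem exists_root_near {k : ℕ} (hk : 0 < k) :
    (∀ γ ∈ nthRootsFinset k (1 : L), γ ∈ A ∧ γ ∉ A.nonunits) ∧
      ∀ a ∈ A, a ^ k - 1 ∈ A.nonunits → ∃ γ ∈ nthRootsFinset k (1 : L), a - γ ∈ A.nonunits := by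
  have h1 : ∀ γ ∈ nthRootsFinset k (1 : L), γ ∈ A ∧ γ ∉ A.nonunits := by
    intro γ hγ
    rw [mem_nthRootsFinset hk] at hγ
    have h2 : A.valuation γ ^ k = 1 := by rw [← map_pow, hγ, map_one]
    constructor
    · rw [← A.valuation_le_one_iff]
      exact (pow_le_one_iff hk.ne').1 h2.le
    · rw [A.mem_nonunits_iff]
      intro h3
      have := pow_lt_one₀ zero_le h3 hk.ne'
      rw [h2] at this
      exact lt_irrefl _ this
  refine ⟨h1, fun a ha hak => ?_⟩
  have : NeZero k := ⟨hk.ne'⟩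
  obtain ⟨ζ, hζ⟩ := HasEnoughRootsOfUnity.exists_primitiveRoot L k
  have h2 := congrArg (Polynomial.eval a) (X_pow_sub_one_eq_prod hk hζ)
  rw [eval_sub, eval_pow, eval_X, eval_one, eval_prod] at h2
  by_contra hcon
  push Not at hcon
  have h3 : A.valuation (a ^ k - 1) = 1 := by
    rw [h2, map_prod]
    refine Finset.prod_eq_one fun γ hγ => ?_
    rw [eval_sub, eval_X, eval_C]
    exact val_eq_one (A.sub_mem ha (h1 γ hγ).1) (hcon γ hγ)
  rw [A.mem_nonunits_iff, h3] at hak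
  exact lt_irrefl _ hak

/-- (3). -/
theorem exists_near
    (hres : ∀ a ∈ A, a ∉ A.nonunits → ∃ k : ℕ, 0 < k ∧ a ^ k - 1 ∈ A.nonunits)
    (Z : Finset (Ideal (CInt ↥(A.comap ι) K t))) (hZ : ∀ n ∈ Z, n.IsPrime) (G : F)
    (hG : ∀ n ∈ Z, LocUnit n G) :
    ∃ k : ℕ, 0 < k ∧ ∀ v : Place L E, ∀ n ∈ Z, Ctr h A ι φ v n →
      NearAt h A (nthRootsFinset k (1 : L)) v (φ G) := by
  obtain ⟨k, hk, h1⟩ := exists_pow_near_finset (h := h) (φ := φ) hres Z hZ G hG
  refine ⟨k, hk, fun v n hn hv => ?_⟩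
  have h2 := hv.intAt (hG n hn).2.1
  exact ⟨h2.1, (exists_root_near hk).2 _ h2.2 (h1 v n hn hv)⟩

end Near

end Fermat.Agent.S33.KeyC
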