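import Fermat.Agent.S34.DA2

set_option autoImplicit false
set_option linter.unusedSectionVars false

/-!
# S33 / Key / FinCen : the centres of finitely many rational places form a finite set of rational closed points
-/

noncomputable section

namespace Fermat.Agent.S33.Key

open Polynomial IntermediateField Fermat.Agent.S18 Fermat.Agent.S34

variable {R K F : Type} [CommRing R] [IsDomain R] [IsDiscreteValuationRing R] [Field K] [CharZero K]
  [Algebra R K] [IsFractionRing R K] [Field F] [Algebra K F] {ϖ : R} {ι : Type} {w : ι → F → ℤ}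

/-- a constant of `R` which lies in a closed point is divisible by `ϖ`. -/
theorem dvd_of_rE_mem (hϖ : Irreducible ϖ) {t : F} {n : Ideal (CInt R K t)} (hn : IsClosedPt ϖ n)
    {r : R} (hr : (⟨rE R K F r, rE_mem_CInt t r⟩ : CInt R K t) ∈ n) : ϖ ∣ r := by
  by_contra hd
  have hu : IsUnit r := by
    by_contra hu
    exact hd ((hϖ.maximalIdeal_eq ▸ (IsLocalRing.mem_maximalIdeal r).2 hu :
      r ∈ Ideal.span {ϖ}) |> Ideal.mem_span_singleton.1)
  obtain ⟨r', hr'⟩ := hu.exists_left_inv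
  apply hn.max.ne_top
  rw [Ideal.eq_top_iff_one]
  have h1 := n.mul_mem_left (⟨rE R K F r', rE_mem_CInt t r'⟩ : CInt R K t) hr
  have h2 : (⟨rE R K F r', rE_mem_CInt t r'⟩ : CInt R K t) * ⟨rE R K F r, rE_mem_CInt t r⟩ = 1 := by
    apply Subtype.ext
    show rE R K F r' * rE R K F r = 1
    rw [← map_mul, hr', map_one]
  rwa [h2] at h1

/-- a rational place goes through at most one closed point. -/
theorem centre_le (hϖ : Irreducible ϖ) (hw : ValFam K w) {t : F} {n n' : Ideal (CInt R K t)}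
    (hn : IsClosedPt ϖ n) (hn' : IsClosedPt ϖ n') {i : ι} (hi : Thru w i n) (hi' : Thru w i n')
    (hr : RatAt K w i) : n ≤ n' := by
  have h1 := da2_isSection hϖ hw hn hi hr
  have h2 := da2_isSection hϖ hw hn' hi' hr
  intro c hc
  obtain ⟨r, hr'⟩ := h1.rat c
  have hrn : (⟨rE R K F r, rE_mem_CInt t r⟩ : CInt R K t) ∈ n := by
    have := n.sub_mem hc (h1.le hr')
    rwa [sub_sub_cancel] at this
  obtain ⟨s, rfl⟩ := dvd_of_rE_mem hϖ hn hrn
  have hrn' : (⟨rE R K F (ϖ * s), rE_mem_CInt t (ϖ * s)⟩ : CInt R K t) ∈ n' := by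
    have h3 := n'.mul_mem_right (⟨rE R K F s, rE_mem_CInt t s⟩ : CInt R K t) hn'.mem
    have h4 : unifC t ϖ * (⟨rE R K F s, rE_mem_CInt t s⟩ : CInt R K t) =
        ⟨rE R K F (ϖ * s), rE_mem_CInt t (ϖ * s)⟩ := by
      apply Subtype.ext
      show rE R K F ϖ * rE R K F s = rE R K F (ϖ * s)
      rw [map_mul]
    rwa [h4] at h3
  have h5 := n'.add_mem (h2.le hr') hrn'
  rwa [sub_add_cancel] at h5

theorem centre_unique (hϖ : Irreducible ϖ) (hw : ValFam K w) {t : F} {n n' : Ideal (CInt R K t)}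
    (hn : IsClosedPt ϖ n) (hn' : IsClosedPt ϖ n') {i : ι} (hi : Thru w i n) (hi' : Thru w i n')
    (hr : RatAt K w i) : n = n' :=
  le_antisymm (centre_le hϖ hw hn hn' hi hi' hr) (centre_le hϖ hw hn' hn hi' hi hr)

/-- the centres of finitely many rational places. -/
theorem finite_centres (hϖ : Irreducible ϖ) (hw : ValFam K w) {t : F} (S : Set ι) (hS : S.Finite)
    (hrat : ∀ i ∈ S, RatAt K w i) :
    {n : Ideal (CInt R K t) | IsClosedPt ϖ n ∧ ∃ i ∈ S, Thru w i n}.Finite := by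
  have h : {n : Ideal (CInt R K t) | IsClosedPt ϖ n ∧ ∃ i ∈ S, Thru w i n} ⊆
      ⋃ i ∈ S, {n : Ideal (CInt R K t) | IsClosedPt ϖ n ∧ Thru w i n} := by
    rintro n ⟨hn, i, hi, hthru⟩
    exact Set.mem_biUnion hi ⟨hn, hthru⟩
  refine (Set.Finite.biUnion hS fun i hi => ?_).subset h
  apply Set.Subsingleton.finite
  rintro n ⟨hn, h1⟩ n' ⟨hn', h2⟩
  exact centre_unique hϖ hw hn hn' h1 h2 (hrat i hi)

/-- the centre of a rational place is a rational point of the `t`-line. -/
theorem exists_sub_mem (hϖ : Irreducible ϖ) (hw : ValFam K w) {t : F} {n : Ideal (CInt R K t)}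
    (hn : IsClosedPt ϖ n) {i : ι} (hi : Thru w i n) (hr : RatAt K w i) :
    ∃ r : R, (⟨t, self_mem_CInt t⟩ - ⟨rE R K F r, rE_mem_CInt t r⟩ : CInt R K t) ∈ n := by
  obtain ⟨r, hr'⟩ := (da2_isSection hϖ hw hn hi hr).rat ⟨t, self_mem_CInt t⟩
  exact ⟨r, (da2_isSection hϖ hw hn hi hr).le hr'⟩

/-- the centre of a rational place is a rational closed point. -/
theorem isRat_of_thru (hϖ : Irreducible ϖ) (hw : ValFam K w) {t : F} {n : Ideal (CInt R K t)}
    (hn : IsClosedPt ϖ n) {i : ι} (hi : Thru w i n) (hr : RatAt K w i) : IsRat n := fun c => by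
  obtain ⟨r, hr'⟩ := (da2_isSection hϖ hw hn hi hr).rat c
  exact ⟨r, (da2_isSection hϖ hw hn hi hr).le hr'⟩

end Fermat.Agent.S33.Key
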