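import Fermat.Agent.S33.EV.Main
import Fermat.Agent.S33.Key.Bridge
import Fermat.Agent.S33.Key.Rep
import Fermat.Agent.S33.Move.KeyAbs
import Fermat.Agent.S33.Move.Two
import Fermat.Agent.S33.Move.Local
import Fermat.Agent.S33.Move.Pt

set_option autoImplicit false

/-!
# S33 / Key / Main : the statement `(KEY)`
-/

noncomputable section

namespace Fermat.Agent.S33.Key

open AlgebraicCurve ModularCurve IntermediateField Polynomial
open Fermat.Agent.S24 (Kb FN isFF1_FN)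
open Fermat.Agent.S18 (toFN CInt evR rE)
open Fermat.Agent.GES
open Fermat.Agent.S34
open Fermat.Agent.S41.WP (cf)
open Fermat.Agent.S19.Move (Wc evC coe_evC)

theorem key (M p r : ℕ) [NeZero M] [NeZero p] (n : ℕ) [NeZero (p ^ n)] (hp : p.Prime)
    (hpM : ¬ p ∣ M) (hr : (p ≠ 3 ∧ r = 3) ∨ (p = 3 ∧ r = 2)) (hrM : r ∣ M)
    (A : ValuationSubring Kb) (hA : A.LiesOverPrime p) (f1 : FN (M * p)) (h1 : S35.GI A f1.1)
    (h2 : S35.GI A (S35.WF M p f1).1) (t : GQ) (ht : t ∈ A.inertiaSubgroupIn ℚ)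
    (y : VN (M * p) (p ^ n)) :
    ∃ (G : DN (M * p) (p ^ n)) (Γ : Finset Kb),
      Vm.mk G = rhoV (M * p) (p ^ n) t y - y ∧ (∀ γ ∈ Γ, γ ∈ A ∧ γ ∉ A.nonunits) ∧
      ∀ v : Place Kb (FN (M * p)), EV.IntAt (isFF1_FN (M * p)) A v f1 ∨
        EV.NearAt (isFF1_FN (M * p)) A Γ v (cf G) := by
  obtain ⟨g, rfl⟩ := Vm.mk_surjective y
  have hg0 : cf g ≠ 0 := (g : (FN (M * p))ˣ).ne_zero
  obtain ⟨K, fK, nfK, galK, ι, Ge, f1₀, τF, hf1, hVi, hV0, hs, hrat, hτ, hτc, -, -⟩ :=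
    exists_bridge M p r hp hpM hr hrM A hA f1 h1 h2 {cf g} t ht
  obtain ⟨g₀, hg₀⟩ := hs (cf g) (Finset.mem_singleton_self _)
  have hDVR : IsDiscreteValuationRing ↥(A.comap ι) := S18.isDVR_comap ι A hp hA
  have hg₀0 : g₀ ≠ 0 := by
    rintro rfl
    exact hg0 (by rw [← hg₀, map_zero])
  have hdiv₀ : ∀ v, ((p ^ n : ℕ) : ℤ) ∣ wP ι (M * p) v g₀ := by
    intro v; rw [wP_apply, hg₀]; exact g.2 v
  have hrat₀ : ∀ v, wP ι (M * p) v g₀ ≠ 0 → RatAt K (wP ι (M * p)) v := by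
    intro v hv
    exact hrat v (Or.inr ⟨cf g, Finset.mem_singleton_self _, by rwa [wP_apply, hg₀] at hv⟩)
  have htr' : Transcendental K Ge.x⁻¹ := Ge.branches.trans' (Or.inr rfl)
  have hfin' : FiniteDimensional K⟮Ge.x⁻¹⟯ (modularFunctionFieldFullC K (M * p)) := by
    rw [S24.principal_adjoin_inv_eq]; exact Ge.branches.fin
  have hm : p ^ n ≠ 0 := pow_ne_zero _ hp.ne_zero
  have hx0 : Ge.x ≠ 0 := loc_x_ne_zero Ge.branches
  have hloc₁ : ∀ m : Ideal (CInt ↥(A.comap ι) K Ge.x), IsClosedPt Ge.ϖ m →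
      ∃ e l : modularFunctionFieldFullC K (M * p), l ≠ 0 ∧ LocUnit m e ∧
        τF g₀ / g₀ = e * l ^ (p ^ n) := by
    intro m hmm
    obtain ⟨u, l, hl, hu, e, -, -⟩ := Move.m1_valFam Ge.irr Ge.branches hτ (valFam_wP ι (M * p))
      (Or.inl rfl) Ge.branches.trans Ge.branches.fin (intAt_wP ι (M * p) Ge.x Ge.branches.trans)
      Ge.ss_fin hg₀0 hdiv₀ hrat₀ m hmm
    exact ⟨u, l, hl, hu, e⟩
  have hloc₂ : ∀ m : Ideal (CInt ↥(A.comap ι) K Ge.x⁻¹), IsClosedPt Ge.ϖ m →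
      ∃ e l : modularFunctionFieldFullC K (M * p), l ≠ 0 ∧ LocUnit m e ∧
        τF g₀ / g₀ = e * l ^ (p ^ n) := by
    intro m hmm
    obtain ⟨u, l, hl, hu, e, -, -⟩ := Move.m1_valFam Ge.irr Ge.branches hτ (valFam_wP ι (M * p))
      (Or.inr rfl) htr' hfin' (intAt_wP ι (M * p) Ge.x⁻¹ htr')
      Ge.ss_inf hg₀0 hdiv₀ hrat₀ m hmm
    exact ⟨u, l, hl, hu, e⟩
  have hmove : Move.MoveTwo ↥(A.comap ι) K Ge.ϖ Ge.x (p ^ n) (τF g₀ / g₀) := by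
    intro Φ hΦ Z₁ Z₂ hZ₁ hZ₂ hG₁ hG₂
    refine Move.move_two hx0 Z₁ Z₂ (fun m hmm => (hZ₁ m hmm).1) (fun m hmm => (hZ₂ m hmm).1)
      (fun m hmm => ?_) (fun m hmm => (hZ₂ m hmm).2.2) (p ^ n) hm _ hG₁ hG₂
    obtain ⟨ha, hb, hc⟩ := hZ₁ m hmm
    have : m.IsPrime := ha.isPrime
    exact Move.exists_monic_of_prim Ge.irr hb hΦ (by
      have := Move.inMax_of_mem hc
      rwa [coe_evC] at this)
  have hϖA : ι (algebraMap ↥(A.comap ι) K Ge.ϖ) ∈ A.nonunits := by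
    rw [← S18.DVR.mem_nonunits_comap]
    exact (ValuationSubring.coe_mem_nonunits_iff).2
      ((IsLocalRing.mem_maximalIdeal _).2 Ge.irr.not_isUnit)
  obtain ⟨H, hH, Γ, hΓ, hW⟩ := Move.key_abs (A := A) (ι := ι) (j := toFN ι (M * p)) Ge.irr
    Ge.branches (fun c => toFN_algebraMap ι (M * p) c) (fun r => r.2) hϖA hVi hV0
    (τF g₀ / g₀) hloc₁ hloc₂ hmove
  have hH' : toFN ι (M * p) H ≠ 0 := (_root_.map_ne_zero _).2 hH
  obtain ⟨G, hG1, hG2⟩ := exists_rep_div (M * p) (p ^ n) t g (toFN ι (M * p) H) hH'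
  refine ⟨G, Γ, hG1, hΓ, fun v => ?_⟩
  have hPt : Move.PtLike A (Wc (isFF1_FN (M * p)) A v) :=
    ⟨Move.pt_mem _ A v, Move.pt_non _ A v, Move.pt_non' _ A v, Move.pt_const _ A v⟩
  have e : cf G = toFN ι (M * p) (τF g₀ / g₀ / H ^ (p ^ n)) := by
    rw [hG2, map_div₀, map_div₀, map_pow, hτc, hg₀]
  rcases hW _ hPt with h | h
  · left
    rw [hf1] at h
    exact h
  · right
    rw [e]
    exact (Move.pt_nearAt_iff _ A v).2 h

end Fermat.Agent.S33.Key
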