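import Fermat.Agent.S33.EV.Main
import Fermat.Agent.S33.Key.Bridge
import Fermat.Agent.S33.Key.KLevel
import Fermat.Agent.S33.Key.K3
import Fermat.Agent.S33.Key.Rep
import Fermat.Agent.S33.Move.Two
import Fermat.Agent.S33.Move.Res
import Fermat.Agent.S33.Move.Pt
import Fermat.Agent.S33.Move.Fin

set_option autoImplicit false

/-!
# S33 / Key / Main25 : assembly of `KeyStatement`
-/

noncomputable section

namespace Fermat.Agent.S33.K25

open AlgebraicCurve ModularCurve Polynomial IntermediateField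
open Fermat.Agent.S24 (Kb FN isFF1_FN)
open Fermat.Agent.GES Fermat.Agent.NEW
open Fermat.Agent.S41.WP (weil cf)
open Fermat.Agent.S18 (toFN CInt evR rE)
open Fermat.Agent.S34 (wP RatAt valFam_wP intAt_wP wP_apply toFN_algebraMap LocUnit unifC)
open Fermat.Agent.S19.Move (Wc evC)

theorem key (M p r : ℕ) [NeZero M] [NeZero p] (n : ℕ) [NeZero (p ^ n)] (hp : p.Prime)
    (hpM : ¬ p ∣ M) (hr : (p ≠ 3 ∧ r = 3) ∨ (p = 3 ∧ r = 2)) (hrM : r ∣ M)
    (A : ValuationSubring Kb) (hA : A.LiesOverPrime p) (f1 : FN (M * p)) (h1 : S35.GI A f1.1)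
    (h2 : S35.GI A (S35.WF M p f1).1) (t : GQ) (ht : t ∈ A.inertiaSubgroupIn ℚ)
    (y : VN (M * p) (p ^ n)) :
    ∃ (G : DN (M * p) (p ^ n)) (Γ : Finset Kb), Vm.mk G = rhoV (M * p) (p ^ n) t y - y ∧
      (∀ γ ∈ Γ, γ ∈ A ∧ γ ∉ A.nonunits) ∧
      ∀ v : Place Kb (FN (M * p)), EV.IntAt (isFF1_FN (M * p)) A v f1 ∨
        EV.NearAt (isFF1_FN (M * p)) A Γ v (cf G) := by
  classical
  obtain ⟨g, rfl⟩ := Vm.mk_surjective y
  obtain ⟨K, fK, nfK, galK, ι, Ge, f1₀, τF, hf1, hVi, hV0, hs, hrat, hτ, hτc, -, -⟩ :=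
    Key.exists_bridge M p r hp hpM hr hrM A hA f1 h1 h2 {cf g} t ht
  obtain ⟨g₀, hg₀⟩ := hs (cf g) (Finset.mem_singleton_self _)
  have hDVR : IsDiscreteValuationRing ↥(A.comap ι) := S18.isDVR_comap ι A hp hA
  have hg0 : cf g ≠ 0 := (g : (FN (M * p))ˣ).ne_zero
  have hg₀0 : g₀ ≠ 0 := by
    rintro rfl
    exact hg0 (by rw [← hg₀, map_zero])
  have hm : p ^ n ≠ 0 := pow_ne_zero _ hp.ne_zero
  have hdiv₀ : ∀ v, ((p ^ n : ℕ) : ℤ) ∣ wP ι (M * p) v g₀ := by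
    intro v; rw [wP_apply, hg₀]; exact g.2 v
  have hrat₀ : ∀ v, wP ι (M * p) v g₀ ≠ 0 → RatAt K (wP ι (M * p)) v := by
    intro v hv
    refine hrat v (Or.inr ⟨cf g, Finset.mem_singleton_self _, ?_⟩)
    rwa [wP_apply, hg₀] at hv
  have htr' : Transcendental K Ge.x⁻¹ := Ge.branches.trans' (Or.inr rfl)
  have hfin' : FiniteDimensional K⟮Ge.x⁻¹⟯ (modularFunctionFieldFullC K (M * p)) := by
    rw [S24.principal_adjoin_inv_eq]; exact Ge.branches.fin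
  have hx0 : Ge.x ≠ 0 := by
    intro h
    exact Ge.branches.trans (by rw [h]; exact ⟨X, X_ne_zero, by simp⟩)
  obtain ⟨⟨s, hsϖ, hsf⟩, -⟩ := Key.k3_exists_den Ge.irr Ge.branches hVi hV0
  obtain ⟨H, hH, hH1, hH2⟩ := Key.key_K_of
    (fun Z₁ Z₂ h₁ h₂ hq hinf m hm G hG₁ hG₂ =>
      Move.move_two hx0 Z₁ Z₂ h₁ h₂ hq hinf m hm G hG₁ hG₂)
    Ge.irr Ge.branches hτ (valFam_wP ι (M * p)) (intAt_wP ι (M * p) Ge.x Ge.branches.trans)
    (intAt_wP ι (M * p) Ge.x⁻¹ htr') Ge.ss_fin Ge.ss_inf hm hg₀0 hdiv₀ hrat₀ hsϖ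
  have hX := Key.not_C_dvd_X (R := ↥(A.comap ι)) Ge.irr
  obtain ⟨hf1', -⟩ := Move.finite_closed (K := K) Ge.irr Ge.branches.trans Ge.branches.fin hsϖ
  obtain ⟨hf2', -⟩ := Move.finite_closed (K := K) Ge.irr htr' hfin' hX
  have hj : ∀ c : K, (toFN ι (M * p)) (algebraMap K _ c) = algebraMap Kb (FN (M * p)) (ι c) :=
    fun c => toFN_algebraMap ι (M * p) c
  have hR : ∀ r : ↥(A.comap ι), ι (algebraMap ↥(A.comap ι) K r) ∈ A := fun r => r.2
  have hϖA : ι (algebraMap ↥(A.comap ι) K Ge.ϖ) ∈ A.nonunits := by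
    have h3 : Ge.ϖ ∈ IsLocalRing.maximalIdeal ↥(A.comap ι) :=
      (IsLocalRing.mem_maximalIdeal _).2 Ge.irr.not_isUnit
    rw [← ValuationSubring.coe_mem_nonunits_iff, S18.DVR.mem_nonunits_comap] at h3
    exact h3
  obtain ⟨Γ₁, hΓ₁, hN₁⟩ := Move.exists_Gamma (A := A) (ι := ι) (j := (toFN ι (M * p) : _ →+* _))
    Ge.irr hj hR hϖA hsϖ hf1'.toFinset
    (fun n a b c => by rw [Set.Finite.mem_toFinset]; exact ⟨a, b, c⟩) (τF g₀ / g₀ / H ^ (p ^ n))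
    (fun n hn => by
      rw [Set.Finite.mem_toFinset] at hn
      exact hH1 n hn.1 hn.2.1 hn.2.2)
  obtain ⟨Γ₂, hΓ₂, hN₂⟩ := Move.exists_Gamma (A := A) (ι := ι) (j := (toFN ι (M * p) : _ →+* _))
    Ge.irr hj hR hϖA hX hf2'.toFinset
    (fun n a b c => by rw [Set.Finite.mem_toFinset]; exact ⟨a, b, c⟩) (τF g₀ / g₀ / H ^ (p ^ n))
    (fun n hn => by
      rw [Set.Finite.mem_toFinset] at hn
      exact hH2 n hn.1 hn.2.1 hn.2.2)
  have hH' : toFN ι (M * p) H ≠ 0 := (_root_.map_ne_zero _).2 hH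
  obtain ⟨G, hG, hGc⟩ := Key.exists_rep_div (M * p) (p ^ n) t g (toFN ι (M * p) H) hH'
  have hGe : cf G = toFN ι (M * p) (τF g₀ / g₀ / H ^ (p ^ n)) := by
    rw [hGc, map_div₀, map_div₀, map_pow, hτc, hg₀]
  refine ⟨G, Γ₁ ∪ Γ₂, hG, ?_, ?_⟩
  · intro γ hγ
    rcases Finset.mem_union.1 hγ with h | h
    · exact hΓ₁ γ h
    · exact hΓ₂ γ h
  · intro v
    set W := Wc (isFF1_FN (M * p)) A v with hW
    have hPt : Move.PtLike A W :=
      ⟨Move.pt_mem _ A v, Move.pt_non _ A v, Move.pt_non' _ A v, Move.pt_const _ A v⟩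
    have hRW : ∀ r : ↥(A.comap ι), toFN ι (M * p) (rE ↥(A.comap ι) K _ r) ∈ W := by
      intro r
      show toFN ι (M * p) (algebraMap K _ (algebraMap _ K r)) ∈ W
      rw [hj]
      exact hPt.mem _ (hR r)
    rw [hGe, ← hf1]
    by_cases hxW : toFN ι (M * p) Ge.x ∈ W
    · by_cases hsW : toFN ι (M * p) (evR ↥(A.comap ι) K Ge.x s) ∈ W.nonunits
      · right
        obtain ⟨γ, hγ, e⟩ := hN₁ W hPt hxW hsW
        exact (Move.pt_nearAt_iff _ A v).2 ⟨γ, Finset.mem_union_left _ hγ, e⟩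
      · left
        exact (Move.pt_intAt_iff _ A v).2
          (Key.k3_mem_of_den (toFN ι (M * p) : _ →+* _) W hRW hxW hsf hsW)
    · right
      have hxi : toFN ι (M * p) Ge.x⁻¹ ∈ W.nonunits := by
        rw [map_inv₀]
        have := (W.mem_or_inv_mem (toFN ι (M * p) Ge.x)).resolve_left hxW
        rw [ValuationSubring.mem_nonunits_iff_exists_mem_maximalIdeal]
        refine ⟨this, ?_⟩
        rw [IsLocalRing.mem_maximalIdeal, mem_nonunits_iff]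
        intro hu
        apply hxW
        obtain ⟨u, hu⟩ := hu
        have h5 : ((u⁻¹ : (↥W)ˣ) : ↥W).1 = toFN ι (M * p) Ge.x := by
          have h6 : ((u : ↥W) * ((u⁻¹ : (↥W)ˣ) : ↥W)).1 = 1 := by rw [Units.mul_inv]; rfl
          have h7 : ((u : ↥W)).1 = (toFN ι (M * p) Ge.x)⁻¹ := by rw [hu]
          have h8 : ((u : ↥W) * ((u⁻¹ : (↥W)ˣ) : ↥W)).1 = (u : ↥W).1 * ((u⁻¹ : (↥W)ˣ) : ↥W).1 := rfl
          rw [h8, h7] at h6
          have hx1 : toFN ι (M * p) Ge.x ≠ 0 := (_root_.map_ne_zero _).2 hx0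
          field_simp at h6
          exact h6
        rw [← h5]
        exact ((u⁻¹ : (↥W)ˣ) : ↥W).2
      have hxe : evR ↥(A.comap ι) K Ge.x⁻¹ (X : (↥(A.comap ι))[X]) = Ge.x⁻¹ := by simp [evR]
      obtain ⟨γ, hγ, e⟩ := hN₂ W hPt (W.nonunits_subset hxi) (by rw [hxe]; exact hxi)
      exact (Move.pt_nearAt_iff _ A v).2 ⟨γ, Finset.mem_union_right _ hγ, e⟩

end Fermat.Agent.S33.K25
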