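import Fermat.Agent.S33.Key.Bridge
import Fermat.Agent.S33.Key.Rep
import Fermat.Agent.S33.Key.KLevel
import Fermat.Agent.S33.Move.KeyAbs
import Fermat.Agent.S33.Move.Two
import Fermat.Agent.S33.Move.Pt
import Fermat.Agent.S33.N.OfKey

set_option autoImplicit false

/-!
# S33 / Key / Main27 : the statement `N.KeyStatement`   (assembly of the `W`-route)
-/

noncomputable section

namespace Fermat.Agent.S33.Key27

open AlgebraicCurve ModularCurve Polynomial IntermediateField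
open Fermat.Agent.S24 (Kb FN isFF1_FN)
open Fermat.Agent.S18 (toFN CInt evR rE)
open Fermat.Agent.GES
open Fermat.Agent.S34
open Fermat.Agent.S41.WP (cf)
open Fermat.Agent.S19.Move (Wc evC)

theorem key : N.KeyStatement := by
  intro M p r _ _ hp hp2 hpM hr hrM A hA n _ f1 h1 h2 t ht y
  classical
  obtain ⟨g, rfl⟩ := Vm.mk_surjective y
  obtain ⟨K, _, _, _, ι, Ge, f1₀, τF, hf1, hVi, hV0, hs, hrat, hτ, hτc, -, -⟩ :=
    Key.exists_bridge M p r hp hpM hr hrM A hA f1 h1 h2 {cf g} t ht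
  obtain ⟨g₀, hg₀⟩ := hs (cf g) (Finset.mem_singleton_self _)
  have hDVR : IsDiscreteValuationRing ↥(A.comap ι) := S18.isDVR_comap ι A hp hA
  have hm : p ^ n ≠ 0 := pow_ne_zero _ hp.ne_zero
  have hcg : cf g ≠ 0 := (g : (FN (M * p))ˣ).ne_zero
  have hg₀0 : g₀ ≠ 0 := by
    rintro rfl
    exact hcg (by rw [← hg₀, map_zero])
  have hdiv₀ : ∀ v, ((p ^ n : ℕ) : ℤ) ∣ wP ι (M * p) v g₀ := by
    intro v; rw [wP_apply, hg₀]; exact g.2 v
  have hrat₀ : ∀ v, wP ι (M * p) v g₀ ≠ 0 → RatAt K (wP ι (M * p)) v := by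
    intro v hv
    exact hrat v (Or.inr ⟨cf g, Finset.mem_singleton_self _, by rwa [wP_apply, hg₀] at hv⟩)
  have htr' : Transcendental K Ge.x⁻¹ := Ge.branches.trans' (Or.inr rfl)
  have hfin' : FiniteDimensional K⟮Ge.x⁻¹⟯ (modularFunctionFieldFullC K (M * p)) := by
    rw [S24.principal_adjoin_inv_eq]; exact Ge.branches.fin
  obtain ⟨H, hH, Γ, hΓ, hW⟩ := Move.key_abs (R := ↥(A.comap ι)) (K := K) (A := A) (ι := ι)
    (j := toFN ι (M * p)) Ge.irr Ge.branches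
    (fun c => toFN_algebraMap ι (M * p) c)
    (fun r => r.2)
    (by
      have h1 : Ge.ϖ ∈ IsLocalRing.maximalIdeal ↥(A.comap ι) :=
        (IsLocalRing.mem_maximalIdeal _).2 Ge.irr.not_isUnit
      rw [← ValuationSubring.coe_mem_nonunits_iff, S18.DVR.mem_nonunits_comap] at h1
      exact h1)
    hVi hV0 (m := p ^ n) (τF g₀ / g₀)
    (fun n hn => by
      obtain ⟨u, l, hl, hu, e, -⟩ := Move.m1_valFam Ge.irr Ge.branches hτ (valFam_wP ι (M * p))
        (Or.inl rfl) Ge.branches.trans Ge.branches.fin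
        (intAt_wP ι (M * p) Ge.x Ge.branches.trans) Ge.ss_fin hg₀0 hdiv₀ hrat₀ n hn
      exact ⟨u, l, hl, hu, e⟩)
    (fun n hn => by
      obtain ⟨u, l, hl, hu, e, -⟩ := Move.m1_valFam Ge.irr Ge.branches hτ (valFam_wP ι (M * p))
        (Or.inr rfl) htr' hfin'
        (intAt_wP ι (M * p) Ge.x⁻¹ htr') Ge.ss_inf hg₀0 hdiv₀ hrat₀ n hn
      exact ⟨u, l, hl, hu, e⟩)
    (by
      intro Φ hΦ Z₁ Z₂ hZ₁ hZ₂ hG₁ hG₂
      exact Move.move_two (loc_x_ne_zero Ge.branches) Z₁ Z₂ (fun n hn => (hZ₁ n hn).1)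
        (fun n hn => (hZ₂ n hn).1)
        (fun n hn => Key.exists_monic_inMax Ge.irr hΦ (hZ₁ n hn).1.isPrime (hZ₁ n hn).2.1
          (hZ₁ n hn).2.2)
        (fun n hn => (hZ₂ n hn).2.2) (p ^ n) hm _ hG₁ hG₂)
  have hH' : toFN ι (M * p) H ≠ 0 := (_root_.map_ne_zero _).2 hH
  obtain ⟨G, hG1, hG2⟩ := Key.exists_rep_div (M * p) (p ^ n) t g (toFN ι (M * p) H) hH'
  refine ⟨G, Γ, hG1, hΓ, fun v => ?_⟩
  have hGe : cf G = toFN ι (M * p) (τF g₀ / g₀ / H ^ (p ^ n)) := by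
    rw [hG2, map_div₀, map_div₀, map_pow, hτc, hg₀]
  rcases hW (Wc (isFF1_FN (M * p)) A v)
    ⟨Move.pt_mem _ A v, Move.pt_non _ A v, Move.pt_non' _ A v, Move.pt_const _ A v⟩ with h | h
  · left
    rw [hf1] at h
    exact h
  · right
    rw [Move.pt_nearAt_iff, hGe]
    exact h

end Fermat.Agent.S33.Key27
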