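import Fermat.Agent.S33.N.OfKey
import Fermat.Agent.S33.Key.KLevel
import Fermat.Agent.S33.Key.Bridge
import Fermat.Agent.S33.Key.K3
import Fermat.Agent.S33.Key.Rep
import Fermat.Agent.S33.Move.Two
import Fermat.Agent.S33.Move.Res
import Fermat.Agent.S33.Move.Pt

set_option autoImplicit false

/-!
# S33 / Key / Main3 : assembly of (KEY)   (zeros of the denominator `Φ(x)` mod `ϖ` + all points at infinity)
-/

noncomputable section

namespace Fermat.Agent.S33.Key.M3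

open AlgebraicCurve ModularCurve Polynomial IntermediateField
open Fermat.Agent.S24 (Kb FN isFF1_FN)
open Fermat.Agent.S18 (toFN CInt evR rE)
open Fermat.Agent.GES Fermat.Agent.NEW
open Fermat.Agent.S41.WP (cf)
open Fermat.Agent.S34
open Fermat.Agent.S19.Move (Wc evC)
open Fermat.Agent.S33.Move

theorem key3 : KeyStatement := by
  intro M p r _ _ n _ hp hp2 hpM hr hrM A hA f1 h1 h2 t ht y
  classical
  obtain ⟨g, rfl⟩ := Vm.mk_surjective y
  obtain ⟨K, fK, nfK, galK, ι, Ge, f1₀, τF, hf1₀, hVi, hV0, hdef, hrat, hτF, hτc, -, -⟩ :=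
    exists_bridge M p r hp hpM hr hrM A hA f1 h1 h2 {cf g} t ht
  have hDVR : IsDiscreteValuationRing ↥(A.comap ι) := S18.isDVR_comap ι A hp hA
  obtain ⟨g₀, hg₀⟩ := hdef (cf g) (Finset.mem_singleton_self _)
  have hcg0 : cf g ≠ 0 := (g : (FN (M * p))ˣ).ne_zero
  have hg₀0 : g₀ ≠ 0 := by
    rintro rfl
    exact hcg0 (by rw [← hg₀, map_zero])
  have hdiv₀ : ∀ v, ((p ^ n : ℕ) : ℤ) ∣ wP ι (M * p) v g₀ := by
    intro v; rw [wP_apply, hg₀]; exact g.2 v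
  have hrat₀ : ∀ v, wP ι (M * p) v g₀ ≠ 0 → RatAt K (wP ι (M * p)) v := by
    intro v hv
    exact hrat v (Or.inr ⟨cf g, Finset.mem_singleton_self _, by rwa [wP_apply, hg₀] at hv⟩)
  have htr' : Transcendental K Ge.x⁻¹ := Ge.branches.trans' (Or.inr rfl)
  have hfin' : FiniteDimensional K⟮Ge.x⁻¹⟯ (modularFunctionFieldFullC K (M * p)) := by
    rw [S24.principal_adjoin_inv_eq]; exact Ge.branches.fin
  have hx0 : Ge.x ≠ 0 := by
    intro h
    exact Ge.branches.trans (h ▸ isAlgebraic_zero)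
  have hm : p ^ n ≠ 0 := pow_ne_zero _ hp.ne_zero
  obtain ⟨Φ, hΦ, hΦf⟩ := k3_exists_den' Ge.irr Ge.branches (Or.inl rfl) hVi hV0
  have hX := not_C_dvd_X (R := ↥(A.comap ι)) Ge.irr
  obtain ⟨H₀, hH₀, hfinU, hinfU⟩ := key_K_of
    (fun Z₁ Z₂ a b c d m hm G e f => move_two hx0 Z₁ Z₂ a b c d m hm G e f)
    Ge.irr Ge.branches hτF (valFam_wP ι (M * p)) (intAt_wP ι (M * p) Ge.x Ge.branches.trans)
    (intAt_wP ι (M * p) Ge.x⁻¹ htr') Ge.ss_fin Ge.ss_inf hm hg₀0 hdiv₀ hrat₀ hΦ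
  have hH0 : toFN ι (M * p) H₀ ≠ 0 := (_root_.map_ne_zero _).2 hH₀
  obtain ⟨G, hG, hcf⟩ := exists_rep_div (M * p) (p ^ n) t g (toFN ι (M * p) H₀) hH0
  have hGG : cf G = toFN ι (M * p) (τF g₀ / g₀ / H₀ ^ (p ^ n)) := by
    rw [hcf, map_div₀, map_div₀, map_pow, hτc, hg₀]
  have hj : ∀ c : K, toFN ι (M * p) (algebraMap K (modularFunctionFieldFullC K (M * p)) c) =
      algebraMap Kb (FN (M * p)) (ι c) := toFN_algebraMap ι (M * p)
  have hR : ∀ r : ↥(A.comap ι), ι (algebraMap ↥(A.comap ι) K r) ∈ A := fun r => r.2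
  have hϖA : ι (algebraMap ↥(A.comap ι) K Ge.ϖ) ∈ A.nonunits := by
    rw [← S18.DVR.mem_nonunits_comap]
    show ((Ge.ϖ : ↥(A.comap ι)) : K) ∈ (A.comap ι).nonunits
    rw [ValuationSubring.coe_mem_nonunits_iff, IsLocalRing.mem_maximalIdeal, mem_nonunits_iff]
    exact Ge.irr.not_isUnit
  obtain ⟨hf1, -⟩ := finite_closed (K := K) Ge.irr Ge.branches.trans Ge.branches.fin hΦ
  obtain ⟨hf2, -⟩ := finite_closed (K := K) Ge.irr htr' hfin' hX
  obtain ⟨Γ1, hΓ1, hn1⟩ := exists_Gamma (j := toFN ι (M * p)) (ι := ι) (A := A) Ge.irr hj hR hϖA hΦ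
    hf1.toFinset (fun n a b c => by rw [Set.Finite.mem_toFinset]; exact ⟨a, b, c⟩)
    (τF g₀ / g₀ / H₀ ^ (p ^ n)) (fun n hn => by
      rw [Set.Finite.mem_toFinset] at hn
      exact hfinU n hn.1 hn.2.1 hn.2.2)
  obtain ⟨Γ2, hΓ2, hn2⟩ := exists_Gamma (j := toFN ι (M * p)) (ι := ι) (A := A) Ge.irr hj hR hϖA hX
    hf2.toFinset (fun n a b c => by rw [Set.Finite.mem_toFinset]; exact ⟨a, b, c⟩)
    (τF g₀ / g₀ / H₀ ^ (p ^ n)) (fun n hn => by
      rw [Set.Finite.mem_toFinset] at hn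
      exact hinfU n hn.1 hn.2.1 hn.2.2)
  refine ⟨G, Γ1 ∪ Γ2, hG, ?_, ?_⟩
  · intro γ hγ
    rcases Finset.mem_union.1 hγ with h | h
    · exact hΓ1 γ h
    · exact hΓ2 γ h
  intro v
  have hW : PtLike A (Wc (isFF1_FN (M * p)) A v) :=
    ⟨pt_mem _ A v, pt_non _ A v, pt_non' _ A v, pt_const _ A v⟩
  have hRW : ∀ r : ↥(A.comap ι),
      toFN ι (M * p) (rE ↥(A.comap ι) K (modularFunctionFieldFullC K (M * p)) r) ∈
        Wc (isFF1_FN (M * p)) A v := by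
    intro r
    have : toFN ι (M * p) (rE ↥(A.comap ι) K (modularFunctionFieldFullC K (M * p)) r) =
        algebraMap Kb (FN (M * p)) (ι (algebraMap ↥(A.comap ι) K r)) := hj _
    rw [this]
    exact pt_mem _ A v _ (hR r)
  by_cases hx : toFN ι (M * p) Ge.x ∈ Wc (isFF1_FN (M * p)) A v
  · by_cases hΦv : toFN ι (M * p) (evR ↥(A.comap ι) K Ge.x Φ) ∈ (Wc (isFF1_FN (M * p)) A v).nonunits
    · right
      rw [pt_nearAt_iff, hGG]
      obtain ⟨γ, hγ, h⟩ := hn1 _ hW hx hΦv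
      exact ⟨γ, Finset.mem_union_left _ hγ, h⟩
    · left
      rw [pt_intAt_iff, ← hf1₀]
      exact k3_mem_of_den (toFN ι (M * p)) _ hRW hx hΦf hΦv
  · right
    rw [pt_nearAt_iff, hGG]
    have hxi : toFN ι (M * p) Ge.x⁻¹ ∈ (Wc (isFF1_FN (M * p)) A v).nonunits := by
      rw [map_inv₀, ValuationSubring.mem_nonunits_iff, map_inv₀]
      rw [← ValuationSubring.valuation_le_one_iff, not_le] at hx
      exact inv_lt_one_of_one_lt₀ hx
    obtain ⟨γ, hγ, h⟩ := hn2 _ hW ((Wc (isFF1_FN (M * p)) A v).nonunits_subset hxi)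
      (by rw [S18.evR_X]; exact hxi)
    exact ⟨γ, Finset.mem_union_right _ hγ, h⟩

end Fermat.Agent.S33.Key.M3
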