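import Fermat.Agent.S33.Key.Pack
import Fermat.Agent.S33.Key.Rep
import Fermat.Agent.S33.Move.Fin
import Fermat.Agent.S33.Move.Pt
import Fermat.Agent.S33.Move.Local
import Fermat.Agent.S33.EV.Main
import Fermat.Agent.S34.BR.IntB
import Fermat.Agent.S34.BR.Fam
import Fermat.Agent.S18.B.DVR
import Fermat.Agent.S24.Principal

set_option autoImplicit false

/-!
# S33 / Key / MainB : assembly of (KEY), route `Z = zeros of Φ(t) mod ϖ`

The two-chart move and the finite set of residues enter as hypotheses (`MoveTwo`, `GammaAt`).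
-/

noncomputable section

namespace Fermat.Agent.S33.Key

open AlgebraicCurve ModularCurve Polynomial IntermediateField
open Fermat.Agent.S24 (Kb FN iotaK isFF1_FN)
open Fermat.Agent.S18 (toFN CInt evR rE)
open Fermat.Agent.GES
open Fermat.Agent.S34
open Fermat.Agent.S41.WP (cf)
open Fermat.Agent.S19.Move (Wc evC)

/-- the two-chart move (statement). -/
def MoveTwo : Prop :=
  ∀ {R K F : Type} [CommRing R] [IsDomain R] [IsDiscreteValuationRing R] [Field K] [CharZero K]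
    [Algebra R K] [IsFractionRing R K] [Field F] [Algebra K F] {x : F} (_ : x ≠ 0)
    (Z₁ : Finset (Ideal (CInt R K x))) (Z₂ : Finset (Ideal (CInt R K x⁻¹)))
    (_ : ∀ n ∈ Z₁, n.IsMaximal) (_ : ∀ n ∈ Z₂, n.IsMaximal)
    (_ : ∀ n ∈ Z₁, ∃ q : R[X], q.Monic ∧ InMax n (evR R K x q))
    (_ : ∀ n ∈ Z₂, InMax n x⁻¹) (m : ℕ) (_ : m ≠ 0) (G : F)
    (_ : ∀ n ∈ Z₁, ∃ u l : F, l ≠ 0 ∧ LocUnit n u ∧ G = u * l ^ m)
    (_ : ∀ n ∈ Z₂, ∃ u l : F, l ≠ 0 ∧ LocUnit n u ∧ G = u * l ^ m),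
    ∃ H : F, H ≠ 0 ∧ (∀ n ∈ Z₁, LocUnit n (G / H ^ m)) ∧ ∀ n ∈ Z₂, LocUnit n (G / H ^ m)

/-- the finite set of residues (statement, at the level of `FN N`). -/
def GammaAt (N : ℕ) [NeZero N] (A : ValuationSubring Kb) : Prop :=
  ∀ (K : Type) [Field K] [NumberField K] (ι : K →+* Kb) [IsDiscreteValuationRing ↥(A.comap ι)]
    (ϖ : ↥(A.comap ι)) (_ : Irreducible ϖ) (t : modularFunctionFieldFullC K N)
    (Z : Finset (Ideal (CInt ↥(A.comap ι) K t)))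
    (G : modularFunctionFieldFullC K N) (_ : ∀ n ∈ Z, LocUnit n G),
    ∃ Γ : Finset Kb, (∀ γ ∈ Γ, γ ∈ A ∧ γ ∉ A.nonunits) ∧
      ∀ v : Place Kb (FN N), toFN ι N t ∈ Wc (isFF1_FN N) A v →
        (∃ n ∈ Z, ∀ c : CInt ↥(A.comap ι) K t,
          c ∈ n ↔ toFN ι N (c : modularFunctionFieldFullC K N) ∈ (Wc (isFF1_FN N) A v).nonunits) →
        ∃ γ ∈ Γ, toFN ι N G - algebraMap Kb (FN N) γ ∈ (Wc (isFF1_FN N) A v).nonunits

section Abs

variable {R K F : Type} [CommRing R] [Field K] [Algebra R K] [Field F] [Algebra K F]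
  {L : Type} [Field L] (j : F →+* L) (W : ValuationSubring L)

theorem evR_mem_of (hR : ∀ r : R, j (rE R K F r) ∈ W) {t : F} (ht : j t ∈ W) (P : R[X]) :
    j (evR R K t P) ∈ W := by
  induction P using Polynomial.induction_on' with
  | add p q hp hq => rw [_root_.map_add, _root_.map_add]; exact add_mem hp hq
  | monomial k a =>
    rw [← C_mul_X_pow_eq_monomial, _root_.map_mul, _root_.map_pow, S18.evR_C, S18.evR_X,
      _root_.map_mul, _root_.map_pow]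
    exact mul_mem (hR a) (pow_mem ht k)

theorem mem_of_mem_CInt (hR : ∀ r : R, j (rE R K F r) ∈ W) {t : F} (ht : j t ∈ W) {c : F}
    (hc : c ∈ CInt R K t) : j c ∈ W := by
  refine S18.mem_of_isIntegralElem W (j.comp (evR R K t)) (fun P => evR_mem_of j W hR ht P) ?_
  obtain ⟨P, hP, h0⟩ := hc
  refine ⟨P, hP, ?_⟩
  have := Polynomial.hom_eval₂ P (evR R K t) j c
  rw [h0, map_zero] at this
  exact this.symm

/-- the centre of `W` on the chart `t`. -/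
def cenW (hR : ∀ r : R, j (rE R K F r) ∈ W) {t : F} (ht : j t ∈ W) : Ideal (CInt R K t) where
  carrier := {c | j (c : F) ∈ W.nonunits}
  zero_mem' := by
    show j ((0 : CInt R K t) : F) ∈ W.nonunits
    rw [Subring.coe_zero, map_zero]; exact S18.zero_mem_nonunits W
  add_mem' := by
    intro a b ha hb
    show j ((a + b : CInt R K t) : F) ∈ W.nonunits
    rw [Subring.coe_add, map_add]
    rw [Set.mem_ofPred_eq, ValuationSubring.mem_nonunits_iff] at ha hb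
    rw [ValuationSubring.mem_nonunits_iff]
    exact lt_of_le_of_lt (W.valuation.map_add _ _) (max_lt ha hb)
  smul_mem' := by
    intro c a ha
    show j ((c * a : CInt R K t) : F) ∈ W.nonunits
    rw [Subring.coe_mul, map_mul, mul_comm]
    exact t0_nonunits_mul ha (mem_of_mem_CInt j W hR ht c.2)

theorem mem_cenW (hR : ∀ r : R, j (rE R K F r) ∈ W) {t : F} (ht : j t ∈ W) (c : CInt R K t) :
    c ∈ cenW j W hR ht ↔ j (c : F) ∈ W.nonunits := Iff.rfl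

theorem cenW_isPrime (hR : ∀ r : R, j (rE R K F r) ∈ W) {t : F} (ht : j t ∈ W) :
    (cenW j W hR ht).IsPrime := by
  refine ⟨?_, ?_⟩
  · intro h
    have h1 : (1 : CInt R K t) ∈ cenW j W hR ht := by rw [h]; trivial
    rw [mem_cenW, Subring.coe_one, map_one, ValuationSubring.mem_nonunits_iff, map_one] at h1
    exact lt_irrefl _ h1
  · intro a b hab
    rw [mem_cenW, Subring.coe_mul, map_mul, ValuationSubring.mem_nonunits_iff, map_mul] at hab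
    rw [mem_cenW, mem_cenW, ValuationSubring.mem_nonunits_iff, ValuationSubring.mem_nonunits_iff]
    by_contra hcon
    push Not at hcon
    exact absurd hab (not_lt.2 (one_le_mul_of_one_le_of_one_le hcon.1 hcon.2))

end Abs

/-- monic polynomial vanishing at a closed point (statement). -/
def MonicAt : Prop :=
  ∀ {R K F : Type} [CommRing R] [IsDomain R] [IsDiscreteValuationRing R] [Field K] [CharZero K]
    [Algebra R K] [IsFractionRing R K] [Field F] [Algebra K F] {ϖ : R} (_ : Irreducible ϖ) {t : F}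
    {Φ : R[X]} (_ : ¬ C ϖ ∣ Φ) (n : Ideal (CInt R K t)) (_ : n.IsPrime) (_ : unifC t ϖ ∈ n)
    (_ : evC t Φ ∈ n), ∃ q : R[X], q.Monic ∧ InMax n (evR R K t q)

section Abs2

variable {R K F : Type} [CommRing R] [IsDomain R] [IsDiscreteValuationRing R] [Field K] [CharZero K]
  [Algebra R K] [IsFractionRing R K] [Field F] [Algebra K F]
  {ϖ : R} {x : F} {Vi V0 : ValuationSubring F}

theorem inMax_of_mem {t : F} {n : Ideal (CInt R K t)} [n.IsPrime] {c : CInt R K t} (hc : c ∈ n) :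
    InMax n (c : F) :=
  ⟨1, loc_one_notMem n, c, hc, by rw [Subring.coe_one, one_mul]⟩

/-- the `K`-level part of (KEY), route B. -/
theorem keyB_abs (hMove : MoveTwo) (hMonic : MonicAt) (hϖ : Irreducible ϖ)
    (hB : Branches (K := K) ϖ x Vi V0) {τ : F ≃+* F}
    (hτ : InertiaLike (R := R) (K := K) x Vi V0 τ) {I : Type} {w : I → F → ℤ} (hw : ValFam K w)
    (hint : IntAt K w x) (hint' : IntAt K w x⁻¹) (hss : SSAt (R := R) (K := K) ϖ x)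
    (hss' : SSAt (R := R) (K := K) ϖ x⁻¹) {m : ℕ} (hm : m ≠ 0) {g : F} (hg : g ≠ 0)
    (hdiv : ∀ i, (m : ℤ) ∣ w i g) (hrat : ∀ i, w i g ≠ 0 → RatAt K w i) {f1 : F} (hi : f1 ∈ Vi)
    (h0 : f1 ∈ V0) :
    ∃ (Φ : R[X]) (Z₁ : Finset (Ideal (CInt R K x))) (Z₂ : Finset (Ideal (CInt R K x⁻¹))) (H : F),
      evR R K x Φ * f1 ∈ CInt R K x ∧
      (∀ n : Ideal (CInt R K x), n.IsPrime → unifC x ϖ ∈ n → evC x Φ ∈ n → n ∈ Z₁) ∧
      (∀ n : Ideal (CInt R K x⁻¹), n.IsPrime → unifC x⁻¹ ϖ ∈ n → evC x⁻¹ X ∈ n → n ∈ Z₂) ∧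
      H ≠ 0 ∧ (∀ n ∈ Z₁, LocUnit n (τ g / g / H ^ m)) ∧ ∀ n ∈ Z₂, LocUnit n (τ g / g / H ^ m) := by
  classical
  have htr' : Transcendental K x⁻¹ := hB.trans' (Or.inr rfl)
  have hfin' : FiniteDimensional K⟮x⁻¹⟯ F := by
    rw [S24.principal_adjoin_inv_eq]; exact hB.fin
  have hx0 : x ≠ 0 := loc_x_ne_zero hB
  obtain ⟨Φ, hΦ, hΦf⟩ := (hB.inO_iff f1).2 ⟨hi, h0⟩
  have hX : ¬ C ϖ ∣ (X : R[X]) := by
    intro hd
    have := (Polynomial.C_dvd_iff_dvd_coeff _ _).1 hd 1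
    rw [coeff_X_one] at this
    exact hϖ.not_isUnit (isUnit_of_dvd_one this)
  obtain ⟨hF1, hM1⟩ := Move.finite_closed hϖ hB.trans hB.fin hΦ
  obtain ⟨hF2, hM2⟩ := Move.finite_closed hϖ htr' hfin' hX
  have hmem₁ : ∀ n, n ∈ hF1.toFinset ↔ n.IsPrime ∧ unifC x ϖ ∈ n ∧ evC x Φ ∈ n := fun n => by
    rw [Set.Finite.mem_toFinset]; rfl
  have hmem₂ : ∀ n, n ∈ hF2.toFinset ↔ n.IsPrime ∧ unifC x⁻¹ ϖ ∈ n ∧ evC x⁻¹ X ∈ n := fun n => by
    rw [Set.Finite.mem_toFinset]; rfl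
  obtain ⟨H₀, hH₀, hL1, hL2⟩ := hMove hx0 hF1.toFinset hF2.toFinset
    (fun n hn => hM1 n ((hmem₁ n).1 hn).1 ((hmem₁ n).1 hn).2.1 ((hmem₁ n).1 hn).2.2)
    (fun n hn => hM2 n ((hmem₂ n).1 hn).1 ((hmem₂ n).1 hn).2.1 ((hmem₂ n).1 hn).2.2)
    (fun n hn => hMonic hϖ hΦ n ((hmem₁ n).1 hn).1 ((hmem₁ n).1 hn).2.1 ((hmem₁ n).1 hn).2.2)
    (fun n hn => by
      have := ((hmem₂ n).1 hn).1
      have := inMax_of_mem ((hmem₂ n).1 hn).2.2
      rwa [Fermat.Agent.S19.Move.coe_evC, S18.evR_X] at this)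
    m hm (τ g / g)
    (fun n hn => by
      obtain ⟨u, l, hl, hu, he, -⟩ := Move.m1_valFam hϖ hB hτ hw
        (Or.inl rfl) hB.trans hB.fin hint hss hg hdiv hrat n
        ⟨hM1 n ((hmem₁ n).1 hn).1 ((hmem₁ n).1 hn).2.1 ((hmem₁ n).1 hn).2.2, ((hmem₁ n).1 hn).2.1⟩
      exact ⟨u, l, hl, hu, he⟩)
    (fun n hn => by
      obtain ⟨u, l, hl, hu, he, -⟩ := Move.m1_valFam hϖ hB hτ hw
        (Or.inr rfl) htr' hfin' hint' hss' hg hdiv hrat n
        ⟨hM2 n ((hmem₂ n).1 hn).1 ((hmem₂ n).1 hn).2.1 ((hmem₂ n).1 hn).2.2, ((hmem₂ n).1 hn).2.1⟩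
      exact ⟨u, l, hl, hu, he⟩)
  exact ⟨Φ, hF1.toFinset, hF2.toFinset, H₀, hΦf, fun n a b c => (hmem₁ n).2 ⟨a, b, c⟩,
    fun n a b c => (hmem₂ n).2 ⟨a, b, c⟩, hH₀, hL1, hL2⟩

/-- the trichotomy for a valuation ring `W` of the big field. -/
theorem keyB_W {L : Type} [Field L] (j : F →+* L) (W : ValuationSubring L)
    (hR : ∀ r : R, j (rE R K F r) ∈ W) (hϖW : j (rE R K F ϖ) ∈ W.nonunits) {Φ : R[X]} {f1 : F}
    (hΦf : evR R K x Φ * f1 ∈ CInt R K x)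
    {Z₁ : Finset (Ideal (CInt R K x))} {Z₂ : Finset (Ideal (CInt R K x⁻¹))}
    (h₁ : ∀ n : Ideal (CInt R K x), n.IsPrime → unifC x ϖ ∈ n → evC x Φ ∈ n → n ∈ Z₁)
    (h₂ : ∀ n : Ideal (CInt R K x⁻¹), n.IsPrime → unifC x⁻¹ ϖ ∈ n → evC x⁻¹ X ∈ n → n ∈ Z₂) :
    j f1 ∈ W ∨
      (j x ∈ W ∧ ∃ n ∈ Z₁, ∀ c : CInt R K x, c ∈ n ↔ j (c : F) ∈ W.nonunits) ∨
      (j x⁻¹ ∈ W ∧ ∃ n ∈ Z₂, ∀ c : CInt R K x⁻¹, c ∈ n ↔ j (c : F) ∈ W.nonunits) := by
  by_cases hx : j x ∈ W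
  · by_cases hΦv : j (evR R K x Φ) ∈ W.nonunits
    · right; left
      exact ⟨hx, cenW j W hR hx, h₁ _ (cenW_isPrime _ _ hR hx) hϖW hΦv, fun c => Iff.rfl⟩
    · left
      have ha : j (evR R K x Φ) ∈ W := evR_mem_of _ W hR hx Φ
      have hb := mem_of_mem_CInt j W hR hx hΦf
      have hc := S18.inv_mem_of_notMem_nonunits W ha hΦv
      have hne : j (evR R K x Φ) ≠ 0 := by
        intro h0
        apply hΦv
        rw [h0]; exact S18.zero_mem_nonunits W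
      have := mul_mem hc hb
      rwa [map_mul, inv_mul_cancel_left₀ hne] at this
  · right; right
    have hxi : j x⁻¹ ∈ W.nonunits := by
      rw [map_inv₀, ValuationSubring.mem_nonunits_iff, map_inv₀]
      rw [← ValuationSubring.valuation_le_one_iff, not_le] at hx
      exact inv_lt_one_of_one_lt₀ hx
    have hxi' : j x⁻¹ ∈ W := t0_nonunits_le hxi
    exact ⟨hxi', cenW j W hR hxi', h₂ _ (cenW_isPrime _ _ hR hxi') hϖW (by
        rw [mem_cenW, Fermat.Agent.S19.Move.coe_evC, S18.evR_X]; exact hxi), fun c => Iff.rfl⟩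

end Abs2

/-- **(KEY)**, route B, modulo the two-chart move and the residues. -/
theorem keyB_of (hMove : MoveTwo) (hMonic : MonicAt)
    (M p r : ℕ) [NeZero M] [NeZero p] (hp : p.Prime) (hpM : ¬ p ∣ M)
    (hr : (p ≠ 3 ∧ r = 3) ∨ (p = 3 ∧ r = 2)) (hrM : r ∣ M)
    (A : ValuationSubring Kb) (hA : A.LiesOverPrime p) (hGam : GammaAt (M * p) A) (n : ℕ)
    (f1 : FN (M * p)) (h1 : S35.GI A f1.1) (h2 : S35.GI A (S35.WF M p f1).1)
    (t : GQ) (ht : t ∈ A.inertiaSubgroupIn ℚ) (y : VN (M * p) (p ^ n)) :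
    ∃ (G : DN (M * p) (p ^ n)) (Γ : Finset Kb), Vm.mk G = rhoV (M * p) (p ^ n) t y - y ∧
      (∀ γ ∈ Γ, γ ∈ A ∧ γ ∉ A.nonunits) ∧
      ∀ v : Place Kb (FN (M * p)), EV.IntAt (isFF1_FN (M * p)) A v f1 ∨
        EV.NearAt (isFF1_FN (M * p)) A Γ v (cf G) := by
  classical
  obtain ⟨g, rfl⟩ := Vm.mk_surjective y
  obtain ⟨K₁, hK₁, hgeo⟩ := exists_geoP M p r hp hpM hr hrM A hA
  obtain ⟨K, fK, nfK, galK, ι, hι, hs⟩ := exists_pack2 (M * p) K₁ hK₁ {cf g, f1}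
  obtain ⟨Ge, hVi, hV0⟩ := hgeo K ι hι
  obtain ⟨g₀, hg₀, hratg⟩ := hs (cf g) (by simp)
  obtain ⟨f1₀, hf1₀, -⟩ := hs f1 (by simp)
  have hDVR : IsDiscreteValuationRing ↥(A.comap ι) := S18.isDVR_comap ι A hp hA
  obtain ⟨τF, hτF, hτc⟩ := Ge.gal t ht
  have hg0 : cf g ≠ 0 := (g : (FN (M * p))ˣ).ne_zero
  have hg₀0 : g₀ ≠ 0 := by
    rintro rfl
    exact hg0 (by rw [← hg₀, map_zero])
  have hdiv₀ : ∀ v, ((p ^ n : ℕ) : ℤ) ∣ wP ι (M * p) v g₀ := by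
    intro v; rw [wP_apply, hg₀]; exact g.2 v
  have hrat₀ : ∀ v, wP ι (M * p) v g₀ ≠ 0 → RatAt K (wP ι (M * p)) v := by
    intro v hv; exact hratg v (by rwa [wP_apply, hg₀] at hv)
  have htr' : Transcendental K Ge.x⁻¹ := Ge.branches.trans' (Or.inr rfl)
  obtain ⟨Φ, Z₁, Z₂, H₀, hΦf, hZ₁, hZ₂, hH₀, hL1, hL2⟩ :=
    keyB_abs hMove hMonic Ge.irr Ge.branches hτF (valFam_wP ι (M * p))
      (intAt_wP ι (M * p) Ge.x Ge.branches.trans) (intAt_wP ι (M * p) Ge.x⁻¹ htr') Ge.ss_fin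
      Ge.ss_inf (pow_ne_zero n hp.ne_zero) hg₀0 hdiv₀ hrat₀
      ((hVi f1₀).2 (by rw [hf1₀]; exact h1)) ((hV0 f1₀).2 (by rw [hf1₀]; exact h2))
  have hH : toFN ι (M * p) H₀ ≠ 0 := (map_ne_zero_iff _ (toFN_injective ι (M * p))).2 hH₀
  obtain ⟨G, hG1, hG2⟩ := exists_rep_div (M * p) (p ^ n) t g (toFN ι (M * p) H₀) hH
  have hGG : cf G = toFN ι (M * p) (τF g₀ / g₀ / H₀ ^ (p ^ n)) := by
    rw [hG2, map_div₀, map_div₀, hτc, hg₀, map_pow]
  obtain ⟨Γ₁, hΓ₁, hN₁⟩ := hGam K ι Ge.ϖ Ge.irr Ge.x Z₁ _ hL1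
  obtain ⟨Γ₂, hΓ₂, hN₂⟩ := hGam K ι Ge.ϖ Ge.irr Ge.x⁻¹ Z₂ _ hL2
  refine ⟨G, Γ₁ ∪ Γ₂, hG1, ?_, ?_⟩
  · intro γ hγ
    rcases Finset.mem_union.1 hγ with h | h
    · exact hΓ₁ γ h
    · exact hΓ₂ γ h
  intro v
  have hR : ∀ r : ↥(A.comap ι), toFN ι (M * p) (rE ↥(A.comap ι) K _ r) ∈
      Wc (isFF1_FN (M * p)) A v := by
    intro r
    have : toFN ι (M * p) (rE ↥(A.comap ι) K _ r) = algebraMap Kb (FN (M * p)) (ι (r : K)) :=
      toFN_algebraMap ι (M * p) _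
    rw [this]
    exact Move.pt_mem _ A v _ r.2
  have hϖW : toFN ι (M * p) (rE ↥(A.comap ι) K _ Ge.ϖ) ∈ (Wc (isFF1_FN (M * p)) A v).nonunits := by
    have : toFN ι (M * p) (rE ↥(A.comap ι) K _ Ge.ϖ) = algebraMap Kb (FN (M * p)) (ι (Ge.ϖ : K)) :=
      toFN_algebraMap ι (M * p) _
    rw [this]
    apply Move.pt_non'
    rw [← S18.DVR.mem_nonunits_comap, ValuationSubring.coe_mem_nonunits_iff,
      IsLocalRing.mem_maximalIdeal]
    exact Ge.irr.not_isUnit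
  rcases keyB_W (toFN ι (M * p)) (Wc (isFF1_FN (M * p)) A v) hR hϖW hΦf hZ₁ hZ₂ with h | h | h
  · left
    rw [Move.pt_intAt_iff, ← hf1₀]
    exact h
  · right
    rw [Move.pt_nearAt_iff, hGG]
    obtain ⟨γ, hγ, h'⟩ := hN₁ v h.1 h.2
    exact ⟨γ, Finset.mem_union_left _ hγ, h'⟩
  · right
    rw [Move.pt_nearAt_iff, hGG]
    obtain ⟨γ, hγ, h'⟩ := hN₂ v h.1 h.2
    exact ⟨γ, Finset.mem_union_right _ hγ, h'⟩

end Fermat.Agent.S33.Key
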