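import Fermat.Agent.S29.FDFixed
import Fermat.Agent.GES.Defs

set_option autoImplicit false

/-!
# S33 / Key / Res : the residue field of a valuation ring of `ℚ̄` over `p` is algebraic over `𝔽_p`
-/

noncomputable section

namespace Fermat.Agent.S33.KeyC

open Polynomial
open Fermat.Agent.S24 (Kb)

theorem exists_pow_sub_one_mem {p : ℕ} (hp : p.Prime) (A : ValuationSubring Kb)
    (hA : A.LiesOverPrime p) :
    ∀ a ∈ A, a ∉ A.nonunits → ∃ k : ℕ, 0 < k ∧ a ^ k - 1 ∈ A.nonunits := by
  intro a ha hau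
  haveI : Fact p.Prime := ⟨hp⟩
  haveI := Fermat.Agent.S29.FDFixed.charP_residue A hp hA
  letI : Algebra (ZMod p) (IsLocalRing.ResidueField A) := ZMod.algebra _ p
  have halg0 : IsAlgebraic ℤ a :=
    (IsFractionRing.isAlgebraic_iff ℤ ℚ Kb).mpr ((AlgebraicClosure.isAlgebraic ℚ).isAlgebraic a)
  obtain ⟨P0, hP0, hP0a⟩ := halg0
  have hprim : P0.primPart.IsPrimitive := P0.isPrimitive_primPart
  have hPa : aeval a P0.primPart = 0 := by
    have := P0.eq_C_content_mul_primPart
    rw [this, map_mul, aeval_C] at hP0a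
    rcases mul_eq_zero.mp hP0a with h | h
    · exfalso
      have : P0.content = 0 := by simpa using h
      exact hP0 (content_eq_zero_iff.mp this)
    · exact h
  obtain ⟨i, hi⟩ : ∃ i, ¬ (p : ℤ) ∣ P0.primPart.coeff i := by
    by_contra hcon
    push Not at hcon
    have := hprim (p : ℤ) ((C_dvd_iff_dvd_coeff _ _).mpr hcon)
    exact (Nat.prime_iff_prime_int.mp hp).not_unit this
  set P := P0.primPart with hP
  have halg : IsAlgebraic (ZMod p) (IsLocalRing.residue A ⟨a, ha⟩) := by
    refine ⟨P.map (Int.castRingHom (ZMod p)), ?_, ?_⟩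
    · intro h0
      have h1 := congrArg (fun Q => Q.coeff i) h0
      simp only [coeff_map, coeff_zero, eq_intCast] at h1
      exact hi ((ZMod.intCast_zmod_eq_zero_iff_dvd _ p).1 h1)
    · rw [aeval_def, eval₂_map]
      have e1 : P.eval₂ (Int.castRingHom A) ⟨a, ha⟩ = 0 := by
        apply Subtype.ext
        have h2 := Polynomial.hom_eval₂ P (Int.castRingHom A) A.subtype ⟨a, ha⟩
        have h3 : (A.subtype).comp (Int.castRingHom A) = algebraMap ℤ Kb := RingHom.ext_int _ _
        rw [h3] at h2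
        exact h2.trans hPa
      have h4 := Polynomial.hom_eval₂ P (Int.castRingHom A) (IsLocalRing.residue A) ⟨a, ha⟩
      rw [e1, map_zero] at h4
      rw [h4]
      congr 1
      exact RingHom.ext_int _ _
  have hfd := IntermediateField.adjoin.finiteDimensional halg.isIntegral
  have hfin : Finite ↥(IntermediateField.adjoin (ZMod p) {IsLocalRing.residue A ⟨a, ha⟩}) :=
    Module.finite_of_finite (ZMod p)
  have hne : IsLocalRing.residue A ⟨a, ha⟩ ≠ 0 := by
    rw [Ne, IsLocalRing.residue_eq_zero_iff, ← ValuationSubring.coe_mem_nonunits_iff]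
    exact hau
  have hgen : IntermediateField.AdjoinSimple.gen (ZMod p) (IsLocalRing.residue A ⟨a, ha⟩) ≠ 0 := by
    intro h0
    apply hne
    have := congrArg Subtype.val h0
    simpa using this
  obtain ⟨k, hk, hk'⟩ := isOfFinOrder_iff_pow_eq_one.1 (isOfFinOrder_of_finite (Units.mk0 _ hgen))
  refine ⟨k, hk, ?_⟩
  have h5 : IsLocalRing.residue A ⟨a, ha⟩ ^ k = 1 := by
    have h6 := congrArg (fun u : (↥(IntermediateField.adjoin (ZMod p)
      {IsLocalRing.residue A ⟨a, ha⟩}))ˣ => ((u : ↥(IntermediateField.adjoin (ZMod p)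
      {IsLocalRing.residue A ⟨a, ha⟩})) : IsLocalRing.ResidueField A)) hk'
    simpa using h6
  have h7 : (⟨a, ha⟩ : A) ^ k - 1 ∈ IsLocalRing.maximalIdeal A := by
    rw [← IsLocalRing.residue_eq_zero_iff, map_sub, map_pow, h5, map_one, sub_self]
  rw [← ValuationSubring.coe_mem_nonunits_iff] at h7
  exact h7

end Fermat.Agent.S33.KeyC
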