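import Fermat.Agent.S33.Key.Ctr
import Fermat.Agent.S33.Key.Res
import Fermat.Agent.S33.Key.Bridge
import Fermat.Agent.S33.Key.Rep
import Fermat.Agent.S33.Key.K3
import Fermat.Agent.S33.Key.KLevel
import Fermat.Agent.S33.Move.Two
import Fermat.Agent.S33.EV.Main

set_option autoImplicit false

/-!
# S33 / Key / MainC : the statement KEY (assembly through the centres `Ctr`)
-/

noncomputable section

namespace Fermat.Agent.S33.KeyC

open AlgebraicCurve ModularCurve Polynomial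
open Fermat.Agent.S24 (Kb FN isFF1_FN)
open Fermat.Agent.S18 (toFN CInt rE evR)
open Fermat.Agent.S19.Move (evC)
open Fermat.Agent.S34
open Fermat.Agent.GES
open Fermat.Agent.S41.WP (cf)
open Fermat.Agent.DIV (valAt valAt_one)

theorem NearAt.mono {K F : Type} [Field K] [Field F] [Algebra K F] [IsAlgClosed K] [CharZero K]
    {h : Fermat.Agent.S24.IsFF1 K F} {A : ValuationSubring K} {Γ Γ' : Finset K} {v : Place K F}
    {G : F} (hG : EV.NearAt h A Γ v G) (hs : Γ ⊆ Γ') : EV.NearAt h A Γ' v G := by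
  obtain ⟨h1, γ, hγ, h2⟩ := hG
  exact ⟨h1, γ, hs hγ, h2⟩

theorem key (M p r : ℕ) [NeZero M] [NeZero p] (hp : p.Prime) (hpM : ¬ p ∣ M)
    (hr : (p ≠ 3 ∧ r = 3) ∨ (p = 3 ∧ r = 2)) (hrM : r ∣ M) (A : ValuationSubring Kb)
    (hA : A.LiesOverPrime p) (n : ℕ) [NeZero (p ^ n)] (f1 : FN (M * p)) (h1 : S35.GI A f1.1)
    (h2 : S35.GI A (S35.WF M p f1).1) (t : GQ) (ht : t ∈ A.inertiaSubgroupIn ℚ)
    (y : VN (M * p) (p ^ n)) :
    ∃ (G : DN (M * p) (p ^ n)) (Γ : Finset Kb),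
      Vm.mk G = rhoV (M * p) (p ^ n) t y - y ∧ (∀ γ ∈ Γ, γ ∈ A ∧ γ ∉ A.nonunits) ∧
      ∀ v : Place Kb (FN (M * p)),
        EV.IntAt (isFF1_FN (M * p)) A v f1 ∨ EV.NearAt (isFF1_FN (M * p)) A Γ v (cf G) := by
  classical
  obtain ⟨g, rfl⟩ := Vm.mk_surjective y
  obtain ⟨K, fK, nfK, galK, ι, Ge, f1₀, τF, hf1, hVi, hV0, hdef, hrat, hτ, hτc, -, -⟩ :=
    Key.exists_bridge M p r hp hpM hr hrM A hA f1 h1 h2 {cf g} t ht
  obtain ⟨g₀, hg₀⟩ := hdef (cf g) (Finset.mem_singleton_self _)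
  have hDVR : IsDiscreteValuationRing ↥(A.comap ι) := S18.isDVR_comap ι A hp hA
  have hg0 : g₀ ≠ 0 := by
    rintro rfl
    rw [map_zero] at hg₀
    exact (g : (FN (M * p))ˣ).ne_zero hg₀.symm
  have hdiv₀ : ∀ v, ((p ^ n : ℕ) : ℤ) ∣ wP ι (M * p) v g₀ := by
    intro v; rw [wP_apply, hg₀]; exact g.2 v
  have hrat₀ : ∀ v, wP ι (M * p) v g₀ ≠ 0 → RatAt K (wP ι (M * p)) v := fun v hv =>
    hrat v (Or.inr ⟨cf g, Finset.mem_singleton_self _, by rwa [wP_apply, hg₀] at hv⟩)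
  have htr' : Transcendental K Ge.x⁻¹ := Ge.branches.trans' (Or.inr rfl)
  have hfin' : FiniteDimensional (IntermediateField.adjoin K {Ge.x⁻¹})
      (modularFunctionFieldFullC K (M * p)) := by
    rw [S24.principal_adjoin_inv_eq]; exact Ge.branches.fin
  obtain ⟨Φ, hΦ, hΦf⟩ := Key.k3_exists_den' Ge.irr Ge.branches (Or.inl rfl) hVi hV0
  have hx : Ge.x ≠ 0 := loc_x_ne_zero Ge.branches
  obtain ⟨H, hH, hH1, hH2⟩ := Key.key_K_of
    (fun Z₁ Z₂ a b c d m hm G e f => Move.move_two hx Z₁ Z₂ a b c d m hm G e f)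
    Ge.irr Ge.branches hτ (valFam_wP ι (M * p)) (intAt_wP ι (M * p) Ge.x Ge.branches.trans)
    (intAt_wP ι (M * p) Ge.x⁻¹ htr') Ge.ss_fin Ge.ss_inf (m := p ^ n) (NeZero.ne _) hg0 hdiv₀
    hrat₀ hΦ
  obtain ⟨hF1, -⟩ := Move.finite_closed (K := K) Ge.irr Ge.branches.trans Ge.branches.fin hΦ
  obtain ⟨hF2, -⟩ := Move.finite_closed (K := K) Ge.irr htr' hfin' (Key.not_C_dvd_X Ge.irr)
  have hres := exists_pow_sub_one_mem hp A hA
  obtain ⟨k1, hk1, hn1⟩ := exists_near (h := isFF1_FN (M * p)) (φ := toFN ι (M * p)) hres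
    hF1.toFinset (fun n hn => ((Set.Finite.mem_toFinset _).1 hn).1) (τF g₀ / g₀ / H ^ (p ^ n))
    (fun n hn => by
      have := (Set.Finite.mem_toFinset _).1 hn
      exact hH1 n this.1 this.2.1 this.2.2)
  obtain ⟨k2, hk2, hn2⟩ := exists_near (h := isFF1_FN (M * p)) (φ := toFN ι (M * p)) hres
    hF2.toFinset (fun n hn => ((Set.Finite.mem_toFinset _).1 hn).1) (τF g₀ / g₀ / H ^ (p ^ n))
    (fun n hn => by
      have := (Set.Finite.mem_toFinset _).1 hn
      exact hH2 n this.1 this.2.1 this.2.2)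
  have hH' : toFN ι (M * p) H ≠ 0 := by rw [Ne, map_eq_zero]; exact hH
  obtain ⟨G, hG1, hG2⟩ := Key.exists_rep_div (M * p) (p ^ n) t g (toFN ι (M * p) H) hH'
  have hGG : cf G = toFN ι (M * p) (τF g₀ / g₀ / H ^ (p ^ n)) := by
    rw [hG2, map_div₀, map_div₀, map_pow, hτc, hg₀]
  refine ⟨G, nthRootsFinset k1 (1 : Kb) ∪ nthRootsFinset k2 (1 : Kb), hG1, ?_, ?_⟩
  · intro γ hγ
    rcases Finset.mem_union.1 hγ with h | h
    · exact (exists_root_near hk1).1 γ h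
    · exact (exists_root_near hk2).1 γ h
  · intro v
    rw [hGG, ← hf1]
    have hφ := toFN_algebraMap ι (M * p)
    have hϖA : ι (Ge.ϖ : K) ∈ A.nonunits := by
      rw [← S18.DVR.mem_nonunits_comap, ValuationSubring.coe_mem_nonunits_iff,
        IsLocalRing.mem_maximalIdeal, mem_nonunits_iff]
      exact Ge.irr.not_isUnit
    by_cases hxv : EV.IntAt (isFF1_FN (M * p)) A v (toFN ι (M * p) Ge.x)
    · obtain ⟨m, hm, hc⟩ := exists_ctr hφ hres Ge.ϖ hϖA hxv
      by_cases hmem : evC Ge.x Φ ∈ m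
      · right
        exact NearAt.mono (hn1 v m ((Set.Finite.mem_toFinset _).2 ⟨hm.max.isPrime, hm.mem, hmem⟩) hc)
          Finset.subset_union_left
      · left
        exact hc.intAt_of_evR hΦf hmem
    · have hxv' : EV.IntAt (isFF1_FN (M * p)) A v (toFN ι (M * p) Ge.x⁻¹) := by
        rw [map_inv₀]
        exact (intAt_or_inv _).resolve_left hxv
      obtain ⟨m, hm, hc⟩ := exists_ctr hφ hres Ge.ϖ hϖA hxv'
      have hmem : evC Ge.x⁻¹ (X : (↥(A.comap ι))[X]) ∈ m := by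
        by_contra hnot
        apply hxv
        have h3 := hc.unit_of_notMem hnot
        have e1 : ((evC Ge.x⁻¹ (X : (↥(A.comap ι))[X]) : CInt ↥(A.comap ι) K Ge.x⁻¹) :
            modularFunctionFieldFullC K (M * p)) = Ge.x⁻¹ := by
          simp [evR]
        rw [e1] at h3
        have h4 := (intAt_div (h := isFF1_FN (M * p)) (A := A) (v := v)
          (a := 1) ⟨one_mem _, by rw [valAt_one]; exact A.one_mem⟩ hxv' h3).1
        rwa [map_inv₀, one_div, inv_inv] at h4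
      right
      exact NearAt.mono (hn2 v m ((Set.Finite.mem_toFinset _).2 ⟨hm.max.isPrime, hm.mem, hmem⟩) hc)
        Finset.subset_union_right

end Fermat.Agent.S33.KeyC
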