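import Fermat.Agent.S34.Geo
import Fermat.Agent.S34.BR.Pack
import Fermat.Agent.S35.C.Bridge

set_option autoImplicit false

/-!
# S33 / Key / Pack : the number field `K` for chapter (KEY)

* `exists_geoP` : the geometric package `S34.Geo` together with the identification of its two branches
  with the Gauss-integrality predicates `S35.GI` at the two cusps.
* `exists_pack2` : a number field over which finitely many functions are defined, all the places in their
  supports being rational.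
-/

noncomputable section

namespace Fermat.Agent.S33.Key

open AlgebraicCurve ModularCurve
open Fermat.Agent.S24 (Kb FN iotaK)
open Fermat.Agent.S18 (toFN)
open Fermat.Agent.GES (GQ galF)
open Fermat.Agent.S34

/-- the package at level `M * q`, given the roots of unity, with the two branches identified. -/
theorem geoP_of_roots (M q p : ℕ) [NeZero M] [NeZero q] (hq : q.Prime) (hqM : ¬ q ∣ M)
    (hr : (S18.lineOf q).r ∣ M) (A : ValuationSubring Kb) (hA : A.LiesOverPrime q) (hp : p.Prime)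
    (hpq : p ≠ q) (K : Type) [Field K] [NumberField K] [IsGalois ℚ K] (ι : K →+* Kb) (ζ : K)
    (hζ : IsPrimitiveRoot ζ p) (ζM : K) (hζM : IsPrimitiveRoot ζM M) :
    ∃ G : Geo (M * q) A ι,
      (∀ z, z ∈ G.Vi ↔ S35.GI A (toFN ι (M * q) z).1) ∧
      (∀ z, z ∈ G.V0 ↔ S35.GI A (S35.WF M q (toFN ι (M * q) z)).1) := by
  have : IsDiscreteValuationRing ↥(A.comap ι) := S18.isDVR_comap ι A hq hA
  obtain ⟨ϖ, hϖ⟩ := IsDiscreteValuationRing.exists_irreducible ↥(A.comap ι)
  obtain ⟨E, _, _, _, _, T, hT, hc1, hc2⟩ :=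
    V2.exists_two' M q p hq hqM hr A hA hp hpq K ι ζ hζ ζM hζM hϖ
  obtain ⟨s, hsx, hsR, hsR', -, hsi, hs0⟩ := hT.exists_frobE ι A hA
  obtain ⟨jj, hj⟩ := hT.exists_j
  have hs : FrobTwist T s := ⟨hsx, hsR, hsR', hsi, hs0⟩
  obtain ⟨hB, h1, h2⟩ := geo_abs hϖ hc1.fin hc1.inO_iff hc1.normal hc2.normal hs hT.m8_fin
    hT.m8_inf (hc2.C_le hϖ (S18.self_mem_CInt _)) (hT.jdHyp hqM hj hsx) (hT.rel_fin hj)
    (hT.rel_inf hj)
  have hc : Nat.Coprime q M := (Nat.Prime.coprime_iff_not_dvd hq).2 hqM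
  exact ⟨{ ϖ := ϖ
           x := T.xF
           Vi := T.Vi
           V0 := T.V0
           irr := hϖ
           branches := hB
           ss_fin := h1
           ss_inf := h2
           gal := fun τ hτ => ⟨V2.galFK (V2.resK ι τ) (M * q), hT.gal ι A hτ,
             fun z => V2.toFN_galFK ι (M * q) τ z⟩ },
    fun z => S35.mem_Vi_iff ι A hT z, fun z => S35.mem_V0_iff ι A hT hc z⟩

/-- **GEO-Final**, with the two branches identified. -/
theorem exists_geoP (M q r : ℕ) [NeZero M] [NeZero q] (hq : q.Prime) (hqM : ¬ q ∣ M)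
    (hr : (q ≠ 3 ∧ r = 3) ∨ (q = 3 ∧ r = 2)) (hrM : r ∣ M)
    (A : ValuationSubring Kb) (hA : A.LiesOverPrime q) :
    ∃ K₁ : IntermediateField ℚ Kb, FiniteDimensional ℚ K₁ ∧
      ∀ (K : Type) [Field K] [NumberField K] [IsGalois ℚ K] (ι : K →+* Kb),
        (∀ c ∈ K₁, ∃ c' : K, ι c' = c) →
        ∃ G : Geo (M * q) A ι,
          (∀ z, z ∈ G.Vi ↔ S35.GI A (toFN ι (M * q) z).1) ∧
          (∀ z, z ∈ G.V0 ↔ S35.GI A (S35.WF M q (toFN ι (M * q) z)).1) := by
  have hrM' : (S18.lineOf q).r ∣ M := by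
    rcases hr with ⟨h3, rfl⟩ | ⟨rfl, rfl⟩
    · have e : S18.lineOf q = S18.line3 := if_neg h3
      rw [e]; exact hrM
    · have e : S18.lineOf 3 = S18.line2 := if_pos rfl
      rw [e]; exact hrM
  obtain ⟨p, hp, hpq⟩ : ∃ p : ℕ, p.Prime ∧ p ≠ q := by
    by_cases h : q = 2
    · exact ⟨3, Nat.prime_three, by rw [h]; decide⟩
    · exact ⟨2, Nat.prime_two, Ne.symm h⟩
  have : NeZero p := ⟨hp.ne_zero⟩
  obtain ⟨ζ₀, hζ₀⟩ := HasEnoughRootsOfUnity.exists_primitiveRoot Kb p
  obtain ⟨ζ₁, hζ₁⟩ := HasEnoughRootsOfUnity.exists_primitiveRoot Kb M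
  refine ⟨IntermediateField.adjoin ℚ {ζ₀, ζ₁}, ?_, ?_⟩
  · apply IntermediateField.finiteDimensional_adjoin
    intro x _
    have h1 : Algebra.IsAlgebraic ℚ Kb := AlgebraicClosure.isAlgebraic ℚ
    exact (Algebra.IsAlgebraic.isAlgebraic x).isIntegral
  · intro K _ _ _ ι hK
    obtain ⟨ζ, hζ⟩ := hK ζ₀ (IntermediateField.subset_adjoin ℚ _ (by simp))
    obtain ⟨ζM, hζM⟩ := hK ζ₁ (IntermediateField.subset_adjoin ℚ _ (by simp))
    exact geoP_of_roots M q p hq hqM hrM' A hA hp hpq K ι ζ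
      (IsPrimitiveRoot.of_map_of_injective (f := ι) (hζ ▸ hζ₀) ι.injective) ζM
      (IsPrimitiveRoot.of_map_of_injective (f := ι) (hζM ▸ hζ₁) ι.injective)

/-- a number field over which all the functions of `s` are defined, and all the places of their supports are
rational. -/
theorem exists_pack2 (N : ℕ) [NeZero N] (K₁ : IntermediateField ℚ Kb) (h₁ : FiniteDimensional ℚ K₁)
    (s : Finset (FN N)) :
    ∃ (K : Type) (_ : Field K) (_ : NumberField K) (_ : IsGalois ℚ K) (ι : K →+* Kb),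
      (∀ c ∈ K₁, ∃ c' : K, ι c' = c) ∧
        ∀ f ∈ s, ∃ f₀ : modularFunctionFieldFullC K N, toFN ι N f₀ = f ∧
          ∀ v : Place Kb (FN N), v.ord f ≠ 0 → RatAt K (wP ι N) v := by
  classical
  have hFF := Fermat.Agent.S24.isFF1_FN N
  have hfin : ∀ f : FN N, {v : Place Kb (FN N) | v.ord f ≠ 0}.Finite := by
    intro f
    refine ((Fermat.Agent.NV.Canon.finite_ord_neg hFF f).union
      (Fermat.Agent.NV.Canon.finite_ord_neg hFF f⁻¹)).subset ?_
    intro v hv
    rw [Set.mem_ofPred_eq] at hv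
    rw [Set.mem_union, Set.mem_ofPred_eq, Set.mem_ofPred_eq, Place.ord_inv]
    omega
  set W : Finset (Place Kb (FN N)) := s.biUnion fun f => (hfin f).toFinset with hW
  have hmemW : ∀ v : Place Kb (FN N), v ∈ W ↔ ∃ f ∈ s, v.ord f ≠ 0 := fun v => by
    rw [hW, Finset.mem_biUnion]
    refine exists_congr fun f => and_congr_right fun _ => ?_
    rw [Set.Finite.mem_toFinset, Set.mem_ofPred_eq]
  choose uu huu _ _ using fun v : Place Kb (FN N) => Fermat.Agent.S24.exists_ord_eq_one v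
  choose zz _ hzz1 hzz2 using fun v : Place Kb (FN N) =>
    exists_sep_place hFF (W.erase v) v (Finset.notMem_erase v W)
  obtain ⟨K, i1, i2, i3, ι, hι, hs⟩ :=
    exists_descent_finset N K₁ h₁ (s ∪ (W.image uu ∪ W.image zz))
  refine ⟨K, i1, i2, i3, ι, hι, fun f hf => ?_⟩
  obtain ⟨f₀, hf₀⟩ := hs f (Finset.mem_union_left _ hf)
  refine ⟨f₀, hf₀, fun v hv => ?_⟩
  have hvW : v ∈ W := (hmemW v).2 ⟨f, hf, hv⟩
  obtain ⟨u₀, hu₀⟩ := hs (uu v) (Finset.mem_union_right _
    (Finset.mem_union_left _ (Finset.mem_image_of_mem uu hvW)))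
  obtain ⟨z₀, hz₀⟩ := hs (zz v) (Finset.mem_union_right _
    (Finset.mem_union_right _ (Finset.mem_image_of_mem zz hvW)))
  refine ratAt_of_fixed ι N v ?_ ⟨u₀, by rw [hu₀]; exact huu v⟩
  intro σ hσ
  have hsm : ∀ y₀ : modularFunctionFieldFullC K N,
      (arithmeticGalois (modularFunctionFieldFull N) σ • v).ord (toFN ι N y₀) =
        v.ord (toFN ι N y₀) := by
    intro y₀
    have h1 := SemilinearAut.ord_smul (arithmeticGalois (modularFunctionFieldFull N) σ) v
      (toFN ι N y₀)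
    have h2 : arithmeticGalois (modularFunctionFieldFull N) σ • (toFN ι N y₀) = toFN ι N y₀ :=
      galF_toFN ι N σ hσ y₀
    rwa [h2] at h1
  by_contra hne
  have h1 : arithmeticGalois (modularFunctionFieldFull N) σ • v ∈ W.erase v := by
    rw [Finset.mem_erase]
    refine ⟨hne, (hmemW _).2 ⟨f, hf, ?_⟩⟩
    rw [← hf₀, hsm, hf₀]
    exact hv
  have h2 := hzz2 v _ h1
  rw [← hz₀, hsm, hz₀] at h2
  have h3 := hzz1 v
  omega

end Fermat.Agent.S33.Key
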