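import Fermat.Agent.S31.RootsOfUnity

/-!
# S33 / Key / ResAlg : the residue field of a valuation ring of `ℚ̄` above `p` is algebraic over `𝔽_p`

* `exists_pow_sub_one_mem` : every unit `a` of `A` satisfies `a ^ k ≡ 1` modulo the maximal ideal, for some `k > 0`;
* `exists_root_near` : then `a` is congruent to a `k`-th root of unity.
-/

set_option autoImplicit false
set_option linter.style.haveILetI false

namespace Fermat.Agent.S33.Key

open Polynomial Fermat.Agent.S31 Fermat.Agent.S54

theorem exists_pow_sub_one_mem (A : ValuationSubring Qb) {p : ℕ} (hp : p.Prime)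
    (hA : A.LiesOverPrime p) {a : Qb} (ha : a ∈ A) (ha' : a ∉ A.nonunits) :
    ∃ k : ℕ, 0 < k ∧ a ^ k - 1 ∈ A.nonunits := by
  classical
  haveI : Fact p.Prime := ⟨hp⟩
  have hmem : ∀ z : A, IsLocalRing.residue A z = 0 ↔ (z : Qb) ∈ A.nonunits := by
    intro z
    rw [IsLocalRing.residue_eq_zero_iff, ValuationSubring.mem_nonunits_iff_exists_mem_maximalIdeal]
    exact ⟨fun h => ⟨z.2, h⟩, fun ⟨_, h⟩ => h⟩
  have h0 : ((p : ℕ) : IsLocalRing.ResidueField A) = 0 := by
    have h1 : ((p : ℕ) : IsLocalRing.ResidueField A) = IsLocalRing.residue A ((p : ℕ) : A) := by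
      rw [map_natCast]
    rw [h1, hmem]
    have h2 : (((p : ℕ) : A) : Qb) = (p : Qb) := by simp
    rw [h2]
    exact hA
  haveI hchar : CharP (IsLocalRing.ResidueField A) p := (CharP.charP_iff_prime_eq_zero hp).mpr h0
  letI : Algebra (ZMod p) (IsLocalRing.ResidueField A) := ZMod.algebra _ p
  set a' : A := ⟨a, ha⟩ with ha'def
  set ab : IsLocalRing.ResidueField A := IsLocalRing.residue A a' with hab
  have hab0 : ab ≠ 0 := by
    intro h
    exact ha' ((hmem a').mp h)
  -- an integer polynomial
  have hQb : Algebra.IsAlgebraic ℚ Qb := AlgebraicClosure.isAlgebraic ℚ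
  have halg : IsAlgebraic ℤ a :=
    (IsFractionRing.isAlgebraic_iff ℤ ℚ Qb).mpr (Algebra.IsAlgebraic.isAlgebraic a)
  obtain ⟨P, hP0, hP⟩ := halg
  have hprim : P.primPart.IsPrimitive := P.isPrimitive_primPart
  have hP' : aeval a P.primPart = 0 := by
    have := P.eq_C_content_mul_primPart
    rw [this, map_mul, aeval_C] at hP
    rcases mul_eq_zero.mp hP with h | h
    · exfalso
      have : P.content = 0 := by simpa using h
      exact hP0 (content_eq_zero_iff.mp this)
    · exact h
  have hex : ∃ i, ¬ (p : ℤ) ∣ P.primPart.coeff i := by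
    by_contra hcon
    push Not at hcon
    have := hprim (p : ℤ) ((C_dvd_iff_dvd_coeff _ _).mpr hcon)
    exact (Nat.prime_iff_prime_int.mp hp).not_isUnit this
  obtain ⟨i, hi⟩ := hex
  have hA0 : eval₂ (Int.castRingHom A) a' P.primPart = 0 := by
    apply Subtype.ext
    have h1 := Polynomial.hom_eval₂ P.primPart (Int.castRingHom A) A.subtype a'
    have h2 : (A.subtype).comp (Int.castRingHom A) = Int.castRingHom Qb := Subsingleton.elim _ _
    rw [h2] at h1
    have h3 : eval₂ (Int.castRingHom Qb) a P.primPart = 0 := by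
      rw [← hP', aeval_def]
      congr 1
    show A.subtype _ = _
    rw [h1]
    exact h3
  have halgb : IsAlgebraic (ZMod p) ab := by
    refine ⟨P.primPart.map (Int.castRingHom (ZMod p)), ?_, ?_⟩
    · intro h
      apply hi
      have := congrArg (fun Q => Q.coeff i) h
      simp only [coeff_map, coeff_zero, eq_intCast] at this
      exact (ZMod.intCast_zmod_eq_zero_iff_dvd _ p).mp this
    · rw [aeval_def, eval₂_map]
      have h2 : (algebraMap (ZMod p) (IsLocalRing.ResidueField A)).comp (Int.castRingHom (ZMod p))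
          = (IsLocalRing.residue A).comp (Int.castRingHom A) := Subsingleton.elim _ _
      rw [h2, ← Polynomial.hom_eval₂, hA0, map_zero]
  haveI : FiniteDimensional (ZMod p) (IntermediateField.adjoin (ZMod p) {ab}) :=
    IntermediateField.adjoin.finiteDimensional halgb.isIntegral
  haveI : Finite (IntermediateField.adjoin (ZMod p) {ab}) := Module.finite_of_finite (ZMod p)
  set g : IntermediateField.adjoin (ZMod p) {ab} := IntermediateField.AdjoinSimple.gen (ZMod p) ab
    with hg
  have hg0 : g ≠ 0 := by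
    intro h
    apply hab0
    have := congrArg (fun z : IntermediateField.adjoin (ZMod p) {ab} =>
      (z : IsLocalRing.ResidueField A)) h
    simpa [hg] using this
  obtain ⟨k, hk, hgk⟩ := isOfFinOrder_iff_pow_eq_one.mp (isOfFinOrder_of_finite (Units.mk0 g hg0))
  refine ⟨k, hk, ?_⟩
  have h1 : g ^ k = 1 := by
    have := congrArg (fun u : (IntermediateField.adjoin (ZMod p) {ab})ˣ =>
      (u : IntermediateField.adjoin (ZMod p) {ab})) hgk
    simpa using this
  have h2 : ab ^ k = 1 := by
    have := congrArg (fun z : IntermediateField.adjoin (ZMod p) {ab} =>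
      (z : IsLocalRing.ResidueField A)) h1
    simpa [hg] using this
  have h3 : IsLocalRing.residue A (a' ^ k - 1) = 0 := by
    rw [map_sub, map_pow, map_one, ← hab, h2, sub_self]
  have := (hmem _).mp h3
  simpa [ha'def] using this

theorem exists_mem_nonunits_of_prod {K : Type*} [Field K] (A : ValuationSubring K) {ι : Type*}
    (s : Finset ι) (f : ι → K) (h : ∏ i ∈ s, f i ∈ A.nonunits) : ∃ i ∈ s, f i ∈ A.nonunits := by
  classical
  induction s using Finset.induction_on with
  | empty =>
    rw [Finset.prod_empty, A.mem_nonunits_iff, map_one] at h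
    exact absurd h (lt_irrefl _)
  | insert i s hi ih =>
    rw [Finset.prod_insert hi] at h
    by_cases h1 : f i ∈ A.nonunits
    · exact ⟨i, Finset.mem_insert_self _ _, h1⟩
    · by_cases h2 : ∏ j ∈ s, f j ∈ A.nonunits
      · obtain ⟨j, hj, hj'⟩ := ih h2
        exact ⟨j, Finset.mem_insert_of_mem hj, hj'⟩
      · exfalso
        rw [A.mem_nonunits_iff, not_lt] at h1 h2
        rw [A.mem_nonunits_iff, map_mul] at h
        exact absurd h (not_lt.mpr (one_le_mul h1 h2))

theorem exists_root_near (A : ValuationSubring Qb) {a : Qb} {k : ℕ} (hk : 0 < k)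
    (h : a ^ k - 1 ∈ A.nonunits) : ∃ γ : Qb, γ ^ k = 1 ∧ a - γ ∈ A.nonunits := by
  classical
  obtain ⟨ζ, hζ⟩ : ∃ ζ : Qb, IsPrimitiveRoot ζ k := by
    have : NeZero k := ⟨hk.ne'⟩
    have : NeZero ((k : ℕ) : Qb) := ⟨Nat.cast_ne_zero.mpr hk.ne'⟩
    exact HasEnoughRootsOfUnity.exists_primitiveRoot Qb k
  have h1 := congrArg (Polynomial.eval a) (Polynomial.X_pow_sub_one_eq_prod hk hζ)
  rw [eval_sub, eval_pow, eval_X, eval_one, eval_prod] at h1
  rw [h1] at h
  obtain ⟨γ, hγ, hγ'⟩ := exists_mem_nonunits_of_prod A _ _ h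
  refine ⟨γ, (Polynomial.mem_nthRootsFinset hk (1 : Qb)).mp hγ, ?_⟩
  simpa using hγ'

/-- the finite set `Γ` of `k`-th roots of unity: units of `A`. -/
theorem root_unit (A : ValuationSubring Qb) {γ : Qb} {k : ℕ} (hk : 0 < k) (h : γ ^ k = 1) :
    γ ∈ A ∧ γ ∉ A.nonunits := by
  have h1 : A.valuation γ ^ k = 1 := by rw [← map_pow, h, map_one]
  have h2 : A.valuation γ = 1 := (pow_eq_one_iff_of_nonneg zero_le hk.ne').mp h1
  refine ⟨(A.valuation_le_one_iff γ).mp h2.le, ?_⟩
  rw [A.mem_nonunits_iff, h2]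
  exact lt_irrefl _

end Fermat.Agent.S33.Key
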